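/-
GATE-B / B5 (helper8): COEFFICIENT LEMMA for normalised eigenforms.

Two arithmetic functions `a b : ℕ → ℂ` that are multiplicative on coprime arguments, normalised
(`a 1 = b 1 = 1`), agree at every prime not dividing `D`, and satisfy THE SAME two-step recursion on
the powers of every prime not dividing `D`, agree at every `n` coprime to `D`.

Consequence in the prelude's vocabulary: two weight-2 normalised eigenforms (trivial character) of
levels `A`, `B` whose prime coefficients agree off `D`, where every prime dividing `A * B` divides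
`D`, have the same `q`-coefficient at EVERY `n` coprime to `D`.  This replaces the "newform basis"
in the depletion step of B5: the `D`-depleted `q`-series of the two forms coincide.
-/
import Mathlib
import Fermat.Prelude.Def_FLTPrelim_Modularity

set_option autoImplicit false

open ModularFormClass

namespace Fermat.Agent.GB.B5.Depl

/-- equality on the powers of one prime from the common two-step recursion -/
theorem primePow_eq_of_recursion (a b : ℕ → ℂ) (p : ℕ) (c : ℂ) (h1 : a 1 = b 1)
    (hp : a p = b p)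
    (ha : ∀ r : ℕ, a (p ^ (r + 2)) = a p * a (p ^ (r + 1)) - c * a (p ^ r))
    (hb : ∀ r : ℕ, b (p ^ (r + 2)) = b p * b (p ^ (r + 1)) - c * b (p ^ r)) :
    ∀ k : ℕ, a (p ^ k) = b (p ^ k) := by
  have key : ∀ k : ℕ, a (p ^ k) = b (p ^ k) ∧ a (p ^ (k + 1)) = b (p ^ (k + 1)) := by
    intro k
    induction k with
    | zero => exact ⟨by simpa using h1, by simpa using hp⟩
    | succ k ih =>
      refine ⟨ih.2, ?_⟩
      rw [ha k, hb k, hp, ih.1, ih.2]
  exact fun k => (key k).1

/-- **Abstract coefficient lemma.** -/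
theorem eq_of_coprime_of_multiplicative (a b : ℕ → ℂ) (D : ℕ)
    (ha1 : a 1 = 1) (hb1 : b 1 = 1)
    (hamul : ∀ m n : ℕ, m.Coprime n → a (m * n) = a m * a n)
    (hbmul : ∀ m n : ℕ, m.Coprime n → b (m * n) = b m * b n)
    (c : ℕ → ℂ)
    (harec : ∀ p r : ℕ, p.Prime → ¬ p ∣ D →
      a (p ^ (r + 2)) = a p * a (p ^ (r + 1)) - c p * a (p ^ r))
    (hbrec : ∀ p r : ℕ, p.Prime → ¬ p ∣ D →
      b (p ^ (r + 2)) = b p * b (p ^ (r + 1)) - c p * b (p ^ r))
    (hprime : ∀ p : ℕ, p.Prime → ¬ p ∣ D → a p = b p) :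
    ∀ n : ℕ, n ≠ 0 → n.Coprime D → a n = b n := by
  intro n
  induction n using Nat.recOnPosPrimePosCoprime with
  | prime_pow p k hp hk =>
    intro _ hcop
    have hpD : ¬ p ∣ D := by
      intro hdvd
      have h1 : p ∣ p ^ k := dvd_pow_self p (Nat.pos_iff_ne_zero.mp hk)
      have h2 : p ∣ Nat.gcd (p ^ k) D := Nat.dvd_gcd h1 hdvd
      rw [Nat.Coprime] at hcop
      rw [hcop] at h2
      exact hp.one_lt.ne' (Nat.dvd_one.mp h2)
    exact primePow_eq_of_recursion a b p (c p) (by rw [ha1, hb1]) (hprime p hp hpD)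
      (fun r => harec p r hp hpD) (fun r => hbrec p r hp hpD) k
  | zero => intro h; exact absurd rfl h
  | one => intro _ _; rw [ha1, hb1]
  | coprime m n hm hn hmn ihm ihn =>
    intro _ hcop
    have hm0 : m ≠ 0 := by omega
    have hn0 : n ≠ 0 := by omega
    have hcm : m.Coprime D := Nat.Coprime.coprime_mul_right hcop
    have hcn : n.Coprime D := Nat.Coprime.coprime_mul_left hcop
    rw [hamul m n hmn, hbmul m n hmn, ihm hm0 hcm, ihn hn0 hcn]

/-- **Coefficient lemma for normalised eigenforms** (prelude vocabulary, trivial character): if the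
prime coefficients agree off `D` and `D` is divisible by every prime dividing one of the two levels,
then ALL coefficients at indices coprime to `D` agree. -/
theorem qCoeff_eq_of_coprime {A B : ℕ}
    {f : CuspForm (CongruenceSubgroup.Gamma0 A) 2} {g : CuspForm (CongruenceSubgroup.Gamma0 B) 2}
    (hf : f.IsNormalizedEigenform) (hg : g.IsNormalizedEigenform) (D : ℕ)
    (hA : ∀ p : ℕ, p.Prime → p ∣ A → p ∣ D) (hB : ∀ p : ℕ, p.Prime → p ∣ B → p ∣ D)
    (hprime : ∀ ℓ : ℕ, ℓ.Prime → ¬ ℓ ∣ D → qCoeff f ℓ = qCoeff g ℓ)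
    (n : ℕ) (hn : n ≠ 0) (hcop : n.Coprime D) : qCoeff f n = qCoeff g n :=
  eq_of_coprime_of_multiplicative (fun n => qCoeff f n) (fun n => qCoeff g n) D
    hf.qCoeff_one hg.qCoeff_one hf.qCoeff_mul_of_coprime hg.qCoeff_mul_of_coprime
    (fun p => (p : ℂ))
    (fun p r hp hpD => hf.qCoeff_prime_pow_of_not_dvd p r hp (fun h => hpD (hA p hp h)))
    (fun p r hp hpD => hg.qCoeff_prime_pow_of_not_dvd p r hp (fun h => hpD (hB p hp h)))
    hprime n hn hcop

/-- the `D`-depleted coefficient function of a `q`-series -/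
noncomputable def deplCoeff (D : ℕ) (a : ℕ → ℂ) : ℕ → ℂ := fun n =>
  if n.Coprime D then a n else 0

theorem deplCoeff_of_coprime {D : ℕ} (a : ℕ → ℂ) {n : ℕ} (h : n.Coprime D) :
    deplCoeff D a n = a n := if_pos h

theorem deplCoeff_of_not_coprime {D : ℕ} (a : ℕ → ℂ) {n : ℕ} (h : ¬ n.Coprime D) :
    deplCoeff D a n = 0 := if_neg h

/-- **The depleted `q`-series of the two eigenforms coincide** (`1 < D`, so that index `0` is not
coprime to `D`). -/
theorem deplCoeff_qCoeff_eq {A B : ℕ}
    {f : CuspForm (CongruenceSubgroup.Gamma0 A) 2} {g : CuspForm (CongruenceSubgroup.Gamma0 B) 2}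
    (hf : f.IsNormalizedEigenform) (hg : g.IsNormalizedEigenform) (D : ℕ) (hD : D ≠ 1)
    (hA : ∀ p : ℕ, p.Prime → p ∣ A → p ∣ D) (hB : ∀ p : ℕ, p.Prime → p ∣ B → p ∣ D)
    (hprime : ∀ ℓ : ℕ, ℓ.Prime → ¬ ℓ ∣ D → qCoeff f ℓ = qCoeff g ℓ) :
    deplCoeff D (fun n => qCoeff f n) = deplCoeff D (fun n => qCoeff g n) := by
  funext n
  by_cases hcop : n.Coprime D
  · rw [deplCoeff_of_coprime _ hcop, deplCoeff_of_coprime _ hcop]
    have hn : n ≠ 0 := by
      rintro rfl
      rw [Nat.coprime_zero_left] at hcop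
      exact hD hcop
    exact qCoeff_eq_of_coprime hf hg D hA hB hprime n hn hcop
  · rw [deplCoeff_of_not_coprime _ hcop, deplCoeff_of_not_coprime _ hcop]

end Fermat.Agent.GB.B5.Depl
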