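/-
GATE-B / B5 leaf (C1) (helper8): DEPLETION ON `Γ_H`-CLASSES and its commutation with the Betti twist.

`ℓ` prime, `ℓ ∣ N`, `θ : (ZMod N)ˣ →* Δ`.  In helper97's / helper65's vocabulary
(`RPsi.twSys`, `Betti.ResH`):

* `deplOpH θ hℓN A : Hom(Γ_H(N), A) →+ Hom(Γ_H(N ℓ), A)`, `ℓ • Res − (twSys θ hℓN).op`
  (`= ℓ • res − B_ℓ ∘ U_ℓ`, the `Γ_H`-twin of `DepleteForm.deplOp`);
* `deplOpH_apply` : pointwise formula;
* `twA_comm` : the representatives `[ℓ y; 0 ℓ]`, `[r x; 0 r]` commute;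
* `coe_twC_twC_comm` : `twC_ℓ (twC_r g x) y = twC_r (twC_ℓ g y) x` as matrices;
* `Rpsi_deplOpH` : **the twist at `r` commutes with the depletion at `ℓ ≠ r`** (pointwise, the two
  target groups `Γ_H(N ℓ r)`, `Γ_H(N r ℓ)` being the same set of matrices).
-/
import Mathlib
import Fermat.Agent.GB.B5.Betti.TrSys
import Fermat.Agent.GB.B4.Twist.RPsi

set_option autoImplicit false

open scoped MatrixGroups
open CongruenceSubgroup Matrix Matrix.SpecialLinearGroup ModularCurve.Period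
open P2MW.S_ModularForm_heckeT_slash_eq_self_of_mem_Gamma0.ModularForm.HeckeSlashInvariance
open Fermat.Agent.S16_helper49 Fermat.Agent.GM.B Fermat.Agent.GM.EisClass
open Fermat.Agent.GM.B5 Fermat.Agent.GM.Amalgam
open Fermat.Agent.GB.B3 Fermat.Agent.GB.B3.EisGamma0 Fermat.Agent.GB.B3.GamH
open Fermat.Agent.GB.B4.Twist Fermat.Agent.GB.B4.Twist.KerSys2 Fermat.Agent.GB.B4.Twist.RPsi
open Fermat.Agent.GB.B5.Betti

namespace Fermat.Agent.GB.B5.Depl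

section Mat

/-- the representatives of two twist systems commute -/
theorem twA_comm {ℓ r : ℕ} [Fact ℓ.Prime] [Fact r.Prime] (y : ZMod ℓ) (x : ZMod r) :
    twA ℓ y * twA r x = twA r x * twA ℓ y := by
  have hℓ : ℓ ≠ 0 := (Fact.out : ℓ.Prime).ne_zero
  have hr : r ≠ 0 := (Fact.out : r.Prime).ne_zero
  unfold twA
  apply Matrix.GeneralLinearGroup.ext
  intro i k
  simp only [Matrix.GeneralLinearGroup.coe_mul]
  fin_cases i <;> fin_cases k <;>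
    simp [Matrix.mul_apply, Fin.sum_univ_two, ModularForm.val_heckeMatrix hr,
      ModularForm.val_heckeMatrix hℓ, ModularForm.val_heckeDiagMatrix hr,
      ModularForm.val_heckeDiagMatrix hℓ]
  all_goals ring

end Mat

section Dr

variable {N r : ℕ} [Fact r.Prime] {Δ : Type} [CommGroup Δ] (θ : (ZMod N)ˣ →* Δ)

/-- the twist cocycle preserves `d` modulo every divisor of the level -/
theorem dr_twC {m : ℕ} (hmN : m ∣ N) (hrN : r ∣ N) (g : GammaH (liftθ (r := r) θ)) (x : ZMod r) :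
    dr m ((twC θ hrN g x : GammaH θ) : SL(2, ℤ)) = dr m (g : SL(2, ℤ)) := by
  have h := dN_twC0 hrN (kerIncl (chi (liftθ (r := r) θ)) g) x
  rw [coe_twC]
  unfold dN at h
  unfold dr
  have h' : (N : ℤ) ∣ ((twC0 hrN (kerIncl (chi (liftθ (r := r) θ)) g) x : Gamma0 N) : SL(2, ℤ)) 1 1
      - ((kerIncl (chi (liftθ (r := r) θ)) g : Gamma0 (N * r)) : SL(2, ℤ)) 1 1 :=
    (ZMod.intCast_eq_intCast_iff_dvd_sub _ _ N).mp h.symm
  have h'' : (m : ℤ) ∣ ((twC0 hrN (kerIncl (chi (liftθ (r := r) θ)) g) x : Gamma0 N) : SL(2, ℤ)) 1 1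
      - ((kerIncl (chi (liftθ (r := r) θ)) g : Gamma0 (N * r)) : SL(2, ℤ)) 1 1 :=
    (Int.natCast_dvd_natCast.mpr hmN).trans h'
  exact ((ZMod.intCast_eq_intCast_iff_dvd_sub _ _ m).mpr h'').symm

end Dr

section Comm

variable {N ℓ r : ℕ} [Fact ℓ.Prime] [Fact r.Prime] {Δ : Type} [CommGroup Δ]
  (θ : (ZMod N)ˣ →* Δ)

/-- **the twist cocycles at two primes commute** (as matrices): `twC_ℓ (twC_r g x) y
= twC_r (twC_ℓ g y) x`, where `g` is a matrix lying in the two (equal) groups `Γ_H(N ℓ r)`,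
`Γ_H(N r ℓ)`. -/
theorem coe_twC_twC_comm (hℓN : ℓ ∣ N) (hrN : r ∣ N)
    (g₁ : GammaH (liftθ (r := r) (liftθ (r := ℓ) θ)))
    (g₂ : GammaH (liftθ (r := ℓ) (liftθ (r := r) θ)))
    (hg : (g₁ : SL(2, ℤ)) = (g₂ : SL(2, ℤ))) (x : ZMod r) (y : ZMod ℓ) :
    ((twC θ hℓN (twC (liftθ (r := ℓ) θ) (hrN.mul_right ℓ) g₁ x) y : GammaH θ) : SL(2, ℤ))
      = ((twC θ hrN (twC (liftθ (r := r) θ) (hℓN.mul_right r) g₂ y) x : GammaH θ) : SL(2, ℤ)) := by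
  set a := twC (liftθ (r := ℓ) θ) (hrN.mul_right ℓ) g₁ x with ha
  set b := twC (liftθ (r := r) θ) (hℓN.mul_right r) g₂ y with hb
  -- the relations
  have r1 := twC_rel θ hℓN a y
  have r2 := twC_rel (liftθ (r := ℓ) θ) (hrN.mul_right ℓ) g₁ x
  have r3 := twC_rel θ hrN b x
  have r4 := twC_rel (liftθ (r := r) θ) (hℓN.mul_right r) g₂ y
  -- `d` is preserved
  have d1 : dr ℓ ((a : GammaH (liftθ (r := ℓ) θ)) : SL(2, ℤ)) = dr ℓ (g₁ : SL(2, ℤ)) :=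
    dr_twC (liftθ (r := ℓ) θ) (Dvd.intro_left N rfl) (hrN.mul_right ℓ) g₁ x
  have d2 : dr r ((b : GammaH (liftθ (r := r) θ)) : SL(2, ℤ)) = dr r (g₂ : SL(2, ℤ)) :=
    dr_twC (liftθ (r := r) θ) (Dvd.intro_left N rfl) (hℓN.mul_right r) g₂ y
  rw [← ha] at r2
  rw [← hb] at r4
  rw [d1] at r1
  rw [d2, ← hg] at r3
  rw [← hg] at r4
  apply embR_injective
  -- multiply on the right by the common matrix
  have key : embR ((twC θ hℓN a y : GammaH θ) : SL(2, ℤ))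
        * (twA ℓ (dr ℓ (g₁ : SL(2, ℤ)) ^ 2 * y) * twA r (dr r (g₁ : SL(2, ℤ)) ^ 2 * x))
      = embR ((twC θ hrN b x : GammaH θ) : SL(2, ℤ))
        * (twA ℓ (dr ℓ (g₁ : SL(2, ℤ)) ^ 2 * y) * twA r (dr r (g₁ : SL(2, ℤ)) ^ 2 * x)) := by
    calc embR ((twC θ hℓN a y : GammaH θ) : SL(2, ℤ))
          * (twA ℓ (dr ℓ (g₁ : SL(2, ℤ)) ^ 2 * y) * twA r (dr r (g₁ : SL(2, ℤ)) ^ 2 * x))
        = twA ℓ y * (embR ((a : GammaH (liftθ (r := ℓ) θ)) : SL(2, ℤ))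
            * twA r (dr r (g₁ : SL(2, ℤ)) ^ 2 * x)) := by
          rw [← mul_assoc, ← r1, mul_assoc]
      _ = twA ℓ y * (twA r x * embR (g₁ : SL(2, ℤ))) := by rw [← r2]
      _ = twA r x * (twA ℓ y * embR (g₁ : SL(2, ℤ))) := by
          rw [← mul_assoc, twA_comm, mul_assoc]
      _ = twA r x * (embR ((b : GammaH (liftθ (r := r) θ)) : SL(2, ℤ))
            * twA ℓ (dr ℓ (g₁ : SL(2, ℤ)) ^ 2 * y)) := by rw [r4]
      _ = embR ((twC θ hrN b x : GammaH θ) : SL(2, ℤ))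
            * (twA r (dr r (g₁ : SL(2, ℤ)) ^ 2 * x) * twA ℓ (dr ℓ (g₁ : SL(2, ℤ)) ^ 2 * y)) := by
          rw [← mul_assoc, r3, mul_assoc]
      _ = _ := by rw [twA_comm]
  exact mul_right_cancel key

end Comm

section DeplH

variable {N ℓ : ℕ} [NeZero ℓ] [Fact ℓ.Prime] {Δ : Type} [CommGroup Δ]
  (θ : (ZMod N)ˣ →* Δ)

omit [NeZero ℓ] [Fact (Nat.Prime ℓ)] in
/-- `Γ_H(N ℓ) ≤ Γ_H(N)` -/
theorem coe_mem_GammaH_of_lift (g : GammaH (liftθ (r := ℓ) θ)) : (g : SL(2, ℤ)) ∈ GammaH θ := by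
  rw [← coe_resSysH_c θ g ()]
  exact ((resSysH (r := ℓ) θ).c g ()).2

/-- **depletion at `ℓ ∣ N` on `Γ_H`-classes**: `ℓ • Res − B_ℓ ∘ U_ℓ` -/
noncomputable def deplOpH (hℓN : ℓ ∣ N) (A : Type*) [AddCommGroup A] :
    (Additive (GammaH θ) →+ A) →+ (Additive (GammaH (liftθ (r := ℓ) θ)) →+ A) :=
  ℓ • ResH (r := ℓ) θ A - (twSys θ hℓN).op A

theorem deplOpH_apply (hℓN : ℓ ∣ N) {A : Type*} [AddCommGroup A] (φ : Additive (GammaH θ) →+ A)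
    (g : GammaH (liftθ (r := ℓ) θ)) (hg : (g : SL(2, ℤ)) ∈ GammaH θ) :
    deplOpH θ hℓN A φ (Additive.ofMul g)
      = ℓ • φ (Additive.ofMul ⟨(g : SL(2, ℤ)), hg⟩)
        - ∑ y : ZMod ℓ, φ (Additive.ofMul (twC θ hℓN g y)) := by
  unfold deplOpH
  rw [AddMonoidHom.sub_apply, AddMonoidHom.sub_apply, AddMonoidHom.smul_apply,
    AddMonoidHom.smul_apply, ResH_apply θ φ g hg]
  rfl

end DeplH

section Congr

variable {N₁ N₂ r : ℕ} [Fact r.Prime] {Δ : Type} [CommGroup Δ]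

/-- the twist cocycle only depends on the matrix -/
theorem coe_twC_congr (θ₁ : (ZMod N₁)ˣ →* Δ) (θ₂ : (ZMod N₂)ˣ →* Δ) (h₁ : r ∣ N₁) (h₂ : r ∣ N₂)
    (g : GammaH (liftθ (r := r) θ₁)) (g' : GammaH (liftθ (r := r) θ₂))
    (hg : (g : SL(2, ℤ)) = (g' : SL(2, ℤ))) (x : ZMod r) :
    ((twC θ₁ h₁ g x : GammaH θ₁) : SL(2, ℤ)) = ((twC θ₂ h₂ g' x : GammaH θ₂) : SL(2, ℤ)) := by
  have r1 := twC_rel θ₁ h₁ g x
  have r2 := twC_rel θ₂ h₂ g' x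
  rw [hg] at r1
  rw [r2] at r1
  exact (embR_injective (mul_right_cancel r1)).symm

end Congr

section Main

variable {N ℓ r : ℕ} [NeZero ℓ] [Fact ℓ.Prime] [Fact r.Prime] {Δ : Type} [CommGroup Δ]
  (θ : (ZMod N)ˣ →* Δ) {R : Type*} [CommRing R] {A : Type*} [AddCommGroup A] [Module R A]

/-- **(C1), one prime: the Betti twist at `r` commutes with the depletion at `ℓ`.**  Pointwise
form: `g₁ ∈ Γ_H(N ℓ r)` and `g₂ ∈ Γ_H(N r ℓ)` are the same matrix. -/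
theorem Rpsi_deplOpH (hℓN : ℓ ∣ N) (hrN : r ∣ N) (ψ : MulChar (ZMod r) R)
    (hψ : ∀ g : GammaH (liftθ (r := r) θ), ψ (dr r (g : SL(2, ℤ))) ^ 2 = 1)
    (hψ' : ∀ g : GammaH (liftθ (r := r) (liftθ (r := ℓ) θ)), ψ (dr r (g : SL(2, ℤ))) ^ 2 = 1)
    (φ : Additive (GammaH θ) →+ A)
    (g₁ : GammaH (liftθ (r := r) (liftθ (r := ℓ) θ)))
    (g₂ : GammaH (liftθ (r := ℓ) (liftθ (r := r) θ)))
    (hg : (g₁ : SL(2, ℤ)) = (g₂ : SL(2, ℤ))) :
    Rpsi (liftθ (r := ℓ) θ) (hrN.mul_right ℓ) ψ hψ' (deplOpH θ hℓN A φ) (Additive.ofMul g₁)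
      = deplOpH (liftθ (r := r) θ) (hℓN.mul_right r) A (Rpsi θ hrN ψ hψ φ) (Additive.ofMul g₂) := by
  have hg₂ : (g₂ : SL(2, ℤ)) ∈ GammaH (liftθ (r := r) θ) := coe_mem_GammaH_of_lift _ g₂
  rw [Rpsi_apply, deplOpH_apply (liftθ (r := r) θ) (hℓN.mul_right r) _ g₂ hg₂, Rpsi_apply]
  have h1 : ∀ x : ZMod r,
      deplOpH θ hℓN A φ (Additive.ofMul (twC (liftθ (r := ℓ) θ) (hrN.mul_right ℓ) g₁ x))
        = ℓ • φ (Additive.ofMul (twC θ hrN ⟨(g₂ : SL(2, ℤ)), hg₂⟩ x))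
          - ∑ y : ZMod ℓ, φ (Additive.ofMul
              (twC θ hrN (twC (liftθ (r := r) θ) (hℓN.mul_right r) g₂ y) x)) := by
    intro x
    rw [deplOpH_apply θ hℓN φ _ (coe_mem_GammaH_of_lift θ _)]
    congr 1
    · congr 3
      apply Subtype.ext
      exact coe_twC_congr (liftθ (r := ℓ) θ) θ (hrN.mul_right ℓ) hrN g₁ ⟨(g₂ : SL(2, ℤ)), hg₂⟩ hg x
    · refine Finset.sum_congr rfl fun y _ => ?_
      congr 2
      apply Subtype.ext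
      exact coe_twC_twC_comm θ hℓN hrN g₁ g₂ hg x y
  simp_rw [h1, smul_sub, Finset.sum_sub_distrib, Rpsi_apply, Finset.smul_sum]
  congr 1
  · refine Finset.sum_congr rfl fun x _ => ?_
    rw [smul_comm]
  · rw [Finset.sum_comm]

end Main

end Fermat.Agent.GB.B5.Depl
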