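/-
GATE-B / B5 (helper8): FORM SIDE of a coset system between levels.

For a coset system `S : CosetSys embR Γ₁ Γ₂` (`GM/B/System.lean`: a finite family `a i ∈ GL(2, ℝ)` with
`a i * γ = c γ i * a (σ γ i)`, `γ ∈ Γ₂`, `c γ i ∈ Γ₁`) and a cusp form `f` of weight `k` on `Γ₁`,
the slash sum `∑ i, f ∣[k] a i` is a cusp form of weight `k` on `Γ₂`:

* `isCusp_conj_of_cosetSys` : a cusp of `Γ₂` is a cusp of `(a i)⁻¹ Γ₁ (a i)` (a power of a
  parabolic element of `Γ₂` fixes the index `i`);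
* `cosetForm S : CuspForm Γ₁ k →ₗ[ℂ] CuspForm Γ₂ k`, `coe_cosetForm`.

No rationality / determinant hypothesis on the `a i`.  Together with
`PeriodCoset.periodHomPair_cosetSys` this transports restriction, `B_d`, translate sums
(depletion), `U`, `T` from forms to classes.
-/
import Mathlib
import Fermat.Agent.GM.B.Hecke

set_option autoImplicit false

open UpperHalfPlane hiding I
open ModularForm Complex Filter Topology CongruenceSubgroup
open scoped MatrixGroups ModularForm Manifold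

namespace Fermat.Agent.GB.B5.Depl

open Matrix.SpecialLinearGroup
open Fermat.Agent.GM.B

section CosetForm

variable {Γ₁ Γ₂ : Subgroup SL(2, ℤ)} {k : ℤ}

open ConjAct Pointwise in
/-- A cusp of `Γ₂` is a cusp of every conjugate `(a i)⁻¹ Γ₁ (a i)` of a coset system from `Γ₁` to
`Γ₂`. -/
theorem isCusp_conj_of_cosetSys (S : CosetSys embR Γ₁ Γ₂) (i : S.ι) {c : OnePoint ℝ}
    (hc : IsCusp c (Γ₂ : Subgroup (GL (Fin 2) ℝ))) :
    IsCusp c (toConjAct (S.a i)⁻¹ • (Γ₁ : Subgroup (GL (Fin 2) ℝ))) := by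
  obtain ⟨g, hg, hgp, hgc⟩ := hc
  obtain ⟨γ, hγ, rfl⟩ := hg
  set γ' : Γ₂ := ⟨γ, hγ⟩ with hγ'
  set m := orderOf (S.σ γ') with hm
  have hmpos : 0 < m := orderOf_pos _
  refine ⟨(mapGL ℝ γ) ^ m, ?_, hgp.pow hmpos.ne', ?_⟩
  · rw [Subgroup.mem_pointwise_smul_iff_inv_smul_mem, map_inv, inv_inv, toConjAct_smul]
    have hσ : S.σ (γ' ^ m) i = i := by
      rw [S.σ_pow, hm, pow_orderOf_eq_one]
      rfl
    have h := S.rel (γ' ^ m) i
    rw [hσ] at h
    refine ⟨((S.c (γ' ^ m) i : Γ₁) : SL(2, ℤ)), (S.c (γ' ^ m) i).2, ?_⟩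
    have h2 : embR (((γ' ^ m : Γ₂) : SL(2, ℤ))) = (mapGL ℝ γ) ^ m := by
      rw [Subgroup.coe_pow, map_pow]
    rw [h2] at h
    rw [h, mul_inv_cancel_right]
  · exact (MulAction.stabilizer (GL (Fin 2) ℝ) c).pow_mem hgc m

/-- the underlying function of the slash sum -/
noncomputable def cosetFun (S : CosetSys embR Γ₁ Γ₂) (k : ℤ) (f : ℍ → ℂ) : ℍ → ℂ :=
  ∑ i, f ∣[k] S.a i

theorem cosetFun_slash (S : CosetSys embR Γ₁ Γ₂) {f : ℍ → ℂ}
    (hf : ∀ γ ∈ Γ₁, f ∣[k] (mapGL ℝ γ : GL (Fin 2) ℝ) = f) (γ : SL(2, ℤ)) (hγ : γ ∈ Γ₂) :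
    cosetFun S k f ∣[k] (mapGL ℝ γ : GL (Fin 2) ℝ) = cosetFun S k f := by
  unfold cosetFun
  rw [SlashAction.sum_slash]
  have h1 : ∀ i, (f ∣[k] S.a i) ∣[k] (mapGL ℝ γ : GL (Fin 2) ℝ) = f ∣[k] S.a (S.σ ⟨γ, hγ⟩ i) := by
    intro i
    rw [← SlashAction.slash_mul]
    have h := S.rel ⟨γ, hγ⟩ i
    have h' : S.a i * mapGL ℝ γ
        = mapGL ℝ ((S.c ⟨γ, hγ⟩ i : Γ₁) : SL(2, ℤ)) * S.a (S.σ ⟨γ, hγ⟩ i) := h
    rw [h', SlashAction.slash_mul, hf _ (S.c ⟨γ, hγ⟩ i).2]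
  simp_rw [h1]
  exact Equiv.sum_comp (S.σ ⟨γ, hγ⟩) (fun i => f ∣[k] S.a i)

/-- **The slash sum of a cusp form along a coset system is a cusp form on the target group.** -/
noncomputable def cosetFormFun (S : CosetSys embR Γ₁ Γ₂) (f : CuspForm Γ₁ k) : CuspForm Γ₂ k where
  toFun := cosetFun S k ⇑f
  slash_action_eq' γ hγ := by
    obtain ⟨g, hg, rfl⟩ := hγ
    exact cosetFun_slash S (fun γ hγ => SlashInvariantFormClass.slash_action_eq f _ ⟨γ, hγ, rfl⟩)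
      g hg
  holo' := by
    unfold cosetFun
    have : ∀ i ∈ (Finset.univ : Finset S.ι), MDifferentiable 𝓘(ℂ) 𝓘(ℂ) ((⇑f) ∣[k] S.a i) :=
      fun i _ => (CuspFormClass.holo f).slash k (S.a i)
    exact MDifferentiable.sum this
  zero_at_cusps' {c} hc := by
    unfold cosetFun
    intro γ hγ
    rw [SlashAction.sum_slash]
    have h0 : ∀ i, IsZeroAtImInfty (((⇑f) ∣[k] S.a i) ∣[k] γ) := by
      intro i
      have hci := isCusp_conj_of_cosetSys S i hc
      exact (CuspForm.translate f (S.a i)).zero_at_cusps' hci γ hγ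
    have hs : Filter.Tendsto (fun z => ∑ i, (((⇑f) ∣[k] S.a i) ∣[k] γ) z) atImInfty
        (𝓝 (∑ _i : S.ι, (0 : ℂ))) :=
      tendsto_finsetSum _ (fun i _ => h0 i)
    rw [Finset.sum_const_zero] at hs
    show Filter.Tendsto (∑ i, ((⇑f) ∣[k] S.a i) ∣[k] γ) atImInfty (𝓝 0)
    convert hs using 1
    ext z
    rw [Finset.sum_apply]

@[simp] theorem coe_cosetFormFun (S : CosetSys embR Γ₁ Γ₂) (f : CuspForm Γ₁ k) :
    (⇑(cosetFormFun S f) : ℍ → ℂ) = ∑ i, (⇑f) ∣[k] S.a i := rfl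

theorem cosetFun_add (S : CosetSys embR Γ₁ Γ₂) (f g : ℍ → ℂ) :
    cosetFun S k (f + g) = cosetFun S k f + cosetFun S k g := by
  unfold cosetFun
  simp_rw [SlashAction.add_slash]
  exact Finset.sum_add_distrib

theorem cosetFun_smul (S : CosetSys embR Γ₁ Γ₂) (hdet : ∀ i, 0 < (S.a i).det.val) (c : ℂ)
    (f : ℍ → ℂ) : cosetFun S k (c • f) = c • cosetFun S k f := by
  unfold cosetFun
  have h : ∀ i, (c • f) ∣[k] S.a i = c • (f ∣[k] S.a i) := by
    intro i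
    rw [ModularForm.smul_slash]
    have hd : 0 < (S.a i).det.val := hdet i
    have hσ : UpperHalfPlane.σ (S.a i) c = c := by
      unfold UpperHalfPlane.σ
      rw [if_pos hd]
      rfl
    rw [hσ]
  simp_rw [h]
  exact Finset.smul_sum.symm

/-- **The coset operator on cusp forms** (`ℂ`-linear when all determinants are positive). -/
noncomputable def cosetForm (S : CosetSys embR Γ₁ Γ₂) (hdet : ∀ i, 0 < (S.a i).det.val) :
    CuspForm Γ₁ k →ₗ[ℂ] CuspForm Γ₂ k where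
  toFun := cosetFormFun S
  map_add' f g := DFunLike.coe_injective <| by
    show cosetFun S k ⇑(f + g) = cosetFun S k ⇑f + cosetFun S k ⇑g
    rw [FunLike.coe_add, cosetFun_add]
  map_smul' c f := DFunLike.coe_injective <| by
    show cosetFun S k ⇑(c • f) = c • cosetFun S k ⇑f
    rw [FunLike.coe_smul, cosetFun_smul S hdet]

@[simp] theorem coe_cosetForm (S : CosetSys embR Γ₁ Γ₂) (hdet : ∀ i, 0 < (S.a i).det.val)
    (f : CuspForm Γ₁ k) :
    (⇑(cosetForm S hdet f) : ℍ → ℂ) = ∑ i, (⇑f) ∣[k] S.a i := rfl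

end CosetForm

end Fermat.Agent.GB.B5.Depl
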