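/-
GATE-B / B5 (helper8): S21 TRANSPORT — the period map is natural for coset systems BETWEEN LEVELS.

`GM/B/System.lean` turns a finite family `a i ∈ GL(2, ℝ)` with `a i * γ = c γ i * a (σ γ i)`
(`γ ∈ Γ₀(N₂)`, `c γ i ∈ Γ₀(N₁)`) into an operator `S.op : Hom(Γ₀(N₁), A) → Hom(Γ₀(N₂), A)`.
If a weight-2 cusp form `f'` of level `N₂` is the slash sum `∑ i, f ∣[2] a i` of a cusp form `f` of
level `N₁`, then
* `periodMap_cosetSys`     : `periodMap N₂ f' = S.op ℂ (periodMap N₁ f)`;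
* `periodMap_cosetSys_jConj`: the same after the character involutions, when the family is
  `J`-symmetric (`J * a i * J = δ i * a (n i)`, `δ i ∈ Γ₀(N₁)`, `n` an involution);
* `periodHomPair_cosetSys` : `periodHomPair N₂ (f', g') = S.op ℂ (periodHomPair N₁ (f, g))`.

This is the cross-level version of helper86's `S16/LB/HeckePeriod(Gen).periodMap_eq_sum(_jConj)`
(same telescoping proof); it transports restriction (level raising), `B_d`, translate sums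
(depletion), `U`, `T` from forms to classes with ONE statement.
-/
import Mathlib
import Fermat.Agent.S16.LB.HeckePeriodGen
import Fermat.Agent.GM.B.Hecke

set_option autoImplicit false

open UpperHalfPlane hiding I
open ModularForm Complex Filter Topology CongruenceSubgroup
open scoped MatrixGroups ModularForm Manifold

namespace Fermat.Agent.GB.B5.Depl

open Fermat.Agent.S21_helper65 ModularCurve ModularCurve.Period
open Matrix.SpecialLinearGroup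
open Fermat.Agent.S16.LB.HeckePeriod
open Fermat.Agent.GM.B

/-- **Cross-level telescoping identity.**  `f` of level `N₁`, `f' = ∑ₓ f ∣[2] αₓ` of level `N₂`,
`αₓ γ = tₓ α_{σ x}` with `γ ∈ Γ₀(N₂)`, `tₓ ∈ Γ₀(N₁)`: the period of `f'` at `γ` is the sum of the
periods of `f` at the `tₓ`. -/
theorem periodMap_eq_sum_cross {N₁ N₂ : ℕ} [NeZero N₁] [NeZero N₂] {X : Type*} [Fintype X]
    (α : X → GL (Fin 2) ℝ) (hα : ∀ x, 0 < (α x).det.val)
    (f : CuspForm (Gamma0 N₁) 2) (f' : CuspForm (Gamma0 N₂) 2)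
    (hf' : (⇑f' : ℍ → ℂ) = ∑ x, (⇑f) ∣[(2 : ℤ)] α x)
    (γ : Gamma0 N₂) (σ : Equiv.Perm X) (t : X → Gamma0 N₁)
    (h : ∀ x, α x * mapGL ℝ (γ : SL(2, ℤ)) = mapGL ℝ ((t x : Gamma0 N₁) : SL(2, ℤ)) * α (σ x)) :
    periodMap N₂ f' (Additive.ofMul γ) = ∑ x, periodMap N₁ f (Additive.ofMul (t x)) := by
  obtain ⟨F, hF⟩ := exists_hasEquivariantPrimitive f
  obtain ⟨F', hF'⟩ := exists_hasEquivariantPrimitive f'
  have hFp : IsPrim (⇑f) F := hF.1
  have hF'p : IsPrim (⇑f') F' := hF'.1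
  have hG : IsPrim (⇑f') (fun z => ∑ x, F (α x • z)) := by
    rw [hf']
    exact isPrim_sum Finset.univ (fun x => (⇑f) ∣[(2 : ℤ)] α x) (fun x z => F (α x • z))
      (fun x _ => isPrim_slash_GL hFp (α x) (hα x))
  obtain ⟨c, hc⟩ := hF'p.exists_sub_const hG
  rw [periodMap_apply f' hF' γ UpperHalfPlane.I]
  have e1 : F' ((γ : SL(2, ℤ)) • UpperHalfPlane.I) - F' UpperHalfPlane.I
      = (∑ x, F (α x • ((γ : SL(2, ℤ)) • UpperHalfPlane.I))) - ∑ x, F (α x • UpperHalfPlane.I) := by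
    have h1 := hc ((γ : SL(2, ℤ)) • UpperHalfPlane.I)
    have h2 := hc UpperHalfPlane.I
    linear_combination h1 - h2
  rw [e1]
  have e2 : ∀ x, F (α x • ((γ : SL(2, ℤ)) • UpperHalfPlane.I))
      = F (α (σ x) • UpperHalfPlane.I) + periodMap N₁ f (Additive.ofMul (t x)) := by
    intro x
    rw [periodMap_apply f hF (t x) (α (σ x) • UpperHalfPlane.I)]
    have : α x • ((γ : SL(2, ℤ)) • UpperHalfPlane.I)
        = ((t x : Gamma0 N₁) : SL(2, ℤ)) • (α (σ x) • UpperHalfPlane.I) := by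
      rw [ModularGroup.sl_moeb, ModularGroup.sl_moeb, ← mul_smul, ← mul_smul]
      congr 1
      exact h x
    rw [this]
    ring
  simp_rw [e2]
  rw [Finset.sum_add_distrib, Equiv.sum_comp σ (fun x => F (α x • UpperHalfPlane.I))]
  ring

/-- **Cross-level conjugated telescoping identity** (`J`-symmetric family). -/
theorem periodMap_eq_sum_jConj_cross {N₁ N₂ : ℕ} [NeZero N₁] [NeZero N₂] {X : Type*} [Fintype X]
    (α : X → GL (Fin 2) ℝ) (hα : ∀ x, 0 < (α x).det.val)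
    (f : CuspForm (Gamma0 N₁) 2) (f' : CuspForm (Gamma0 N₂) 2)
    (hf' : (⇑f' : ℍ → ℂ) = ∑ x, (⇑f) ∣[(2 : ℤ)] α x)
    (n : Equiv.Perm X) (hn : ∀ x, n (n x) = x) (δ : X → Gamma0 N₁)
    (hδ : ∀ x, J * α x * J = mapGL ℝ ((δ x : Gamma0 N₁) : SL(2, ℤ)) * α (n x))
    (γ : Gamma0 N₂) (σ : Equiv.Perm X) (t : X → Gamma0 N₁)
    (h : ∀ x, α x * mapGL ℝ (γ : SL(2, ℤ)) = mapGL ℝ ((t x : Gamma0 N₁) : SL(2, ℤ)) * α (σ x)) :
    periodMap N₂ f' (Additive.ofMul (jConjGamma0 N₂ γ))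
      = ∑ x, periodMap N₁ f (Additive.ofMul (jConjGamma0 N₁ (t x))) := by
  have key : ∀ y, α y * mapGL ℝ ((jConjGamma0 N₂ γ : Gamma0 N₂) : SL(2, ℤ))
      = mapGL ℝ (((δ (n y))⁻¹ * jConjGamma0 N₁ (t (n y)) * δ (σ (n y)) : Gamma0 N₁) : SL(2, ℤ))
        * α (n (σ (n y))) := by
    intro y
    set x := n y with hx
    have hy : y = n x := by rw [hx, hn]
    have h1 : α y = (mapGL ℝ ((δ x : Gamma0 N₁) : SL(2, ℤ)))⁻¹ * (J * α x * J) := by
      rw [hδ x, ← hy, inv_mul_cancel_left]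
    have h2 : J * α (σ x) * J = mapGL ℝ ((δ (σ x) : Gamma0 N₁) : SL(2, ℤ)) * α (n (σ x)) :=
      hδ (σ x)
    rw [h1, jConjGamma0_coe, mapGL_jConjSL]
    simp only [Subgroup.coe_mul, Subgroup.coe_inv, map_mul, map_inv, jConjGamma0_coe,
      mapGL_jConjSL]
    have h3 := h x
    calc (mapGL ℝ ((δ x : Gamma0 N₁) : SL(2, ℤ)))⁻¹ * (J * α x * J)
          * (J * mapGL ℝ (γ : SL(2, ℤ)) * J)
        = (mapGL ℝ ((δ x : Gamma0 N₁) : SL(2, ℤ)))⁻¹ * (J * (α x * ((J * J)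
          * mapGL ℝ (γ : SL(2, ℤ)))) * J) := by group
      _ = (mapGL ℝ ((δ x : Gamma0 N₁) : SL(2, ℤ)))⁻¹
          * (J * (α x * mapGL ℝ (γ : SL(2, ℤ))) * J) := by
          rw [J_mul_J, one_mul]
      _ = (mapGL ℝ ((δ x : Gamma0 N₁) : SL(2, ℤ)))⁻¹
          * (J * (mapGL ℝ ((t x : Gamma0 N₁) : SL(2, ℤ)) * α (σ x)) * J) := by rw [h3]
      _ = (mapGL ℝ ((δ x : Gamma0 N₁) : SL(2, ℤ)))⁻¹
          * ((J * mapGL ℝ ((t x : Gamma0 N₁) : SL(2, ℤ)) * ((J * J) * α (σ x))) * J) := by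
          rw [J_mul_J, one_mul]; group
      _ = (mapGL ℝ ((δ x : Gamma0 N₁) : SL(2, ℤ)))⁻¹
          * ((J * mapGL ℝ ((t x : Gamma0 N₁) : SL(2, ℤ)) * J) * (J * α (σ x) * J)) := by group
      _ = _ := by rw [h2]; group
  have hmain := periodMap_eq_sum_cross α hα f f' hf' (jConjGamma0 N₂ γ) (n.trans (σ.trans n))
    (fun y => (δ (n y))⁻¹ * jConjGamma0 N₁ (t (n y)) * δ (σ (n y))) key
  rw [hmain]
  rw [← Equiv.sum_comp n]
  simp only [hn, ofMul_mul, ofMul_inv, map_add, map_neg, Finset.sum_add_distrib,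
    Finset.sum_neg_distrib]
  rw [Equiv.sum_comp σ (fun x => periodMap N₁ f (Additive.ofMul (δ x)))]
  abel

section CosetSys

variable {N₁ N₂ : ℕ} [NeZero N₁] [NeZero N₂]

/-- **Transport of a coset operator through the period map.** -/
theorem periodMap_cosetSys (S : CosetSys embR (Gamma0 N₁) (Gamma0 N₂))
    (hdet : ∀ i, 0 < (S.a i).det.val)
    (f : CuspForm (Gamma0 N₁) 2) (f' : CuspForm (Gamma0 N₂) 2)
    (hf' : (⇑f' : ℍ → ℂ) = ∑ i, (⇑f) ∣[(2 : ℤ)] S.a i) :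
    periodMap N₂ f' = S.op ℂ (periodMap N₁ f) := by
  refine AddMonoidHom.ext fun γ₀ => ?_
  obtain ⟨γ, rfl⟩ : ∃ γ' : Gamma0 N₂, Additive.ofMul γ' = γ₀ := ⟨Additive.toMul γ₀, rfl⟩
  rw [CosetSys.op_apply]
  exact periodMap_eq_sum_cross S.a hdet f f' hf' γ (S.σ γ) (S.c γ) (fun i => S.rel γ i)

/-- **Transport after the character involutions** for a `J`-symmetric coset system. -/
theorem periodMap_cosetSys_jConj (S : CosetSys embR (Gamma0 N₁) (Gamma0 N₂))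
    (hdet : ∀ i, 0 < (S.a i).det.val)
    (n : Equiv.Perm S.ι) (hn : ∀ i, n (n i) = i) (δ : S.ι → Gamma0 N₁)
    (hδ : ∀ i, J * S.a i * J = mapGL ℝ ((δ i : Gamma0 N₁) : SL(2, ℤ)) * S.a (n i))
    (f : CuspForm (Gamma0 N₁) 2) (f' : CuspForm (Gamma0 N₂) 2)
    (hf' : (⇑f' : ℍ → ℂ) = ∑ i, (⇑f) ∣[(2 : ℤ)] S.a i) :
    charInvolution N₂ ℂ ℂ (periodMap N₂ f')
      = S.op ℂ (charInvolution N₁ ℂ ℂ (periodMap N₁ f)) := by
  refine AddMonoidHom.ext fun γ₀ => ?_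
  obtain ⟨γ, rfl⟩ : ∃ γ' : Gamma0 N₂, Additive.ofMul γ' = γ₀ := ⟨Additive.toMul γ₀, rfl⟩
  rw [CosetSys.op_apply, charInvolution_apply, toMul_ofMul,
    periodMap_eq_sum_jConj_cross S.a hdet f f' hf' n hn δ hδ γ (S.σ γ) (S.c γ)
      (fun i => S.rel γ i)]
  simp only [charInvolution_apply, toMul_ofMul]

/-- **S21 transport**: the period pair map intertwines a slash sum along a `J`-symmetric coset
system from level `N₁` to level `N₂` with the coset operator on classes. -/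
theorem periodHomPair_cosetSys (S : CosetSys embR (Gamma0 N₁) (Gamma0 N₂))
    (hdet : ∀ i, 0 < (S.a i).det.val)
    (n : Equiv.Perm S.ι) (hn : ∀ i, n (n i) = i) (δ : S.ι → Gamma0 N₁)
    (hδ : ∀ i, J * S.a i * J = mapGL ℝ ((δ i : Gamma0 N₁) : SL(2, ℤ)) * S.a (n i))
    (f g : CuspForm (Gamma0 N₁) 2) (f' g' : CuspForm (Gamma0 N₂) 2)
    (hf' : (⇑f' : ℍ → ℂ) = ∑ i, (⇑f) ∣[(2 : ℤ)] S.a i)
    (hg' : (⇑g' : ℍ → ℂ) = ∑ i, (⇑g) ∣[(2 : ℤ)] S.a i) :
    periodHomPair N₂ (f', g') = S.op ℂ (periodHomPair N₁ (f, g)) := by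
  rw [periodHomPair_apply, periodHomPair_apply, map_add, map_sub, map_add,
    periodMap_cosetSys S hdet f f' hf', periodMap_cosetSys S hdet g g' hg',
    ← periodMap_cosetSys_jConj S hdet n hn δ hδ f f' hf',
    ← periodMap_cosetSys_jConj S hdet n hn δ hδ g g' hg',
    periodMap_cosetSys S hdet f f' hf', periodMap_cosetSys S hdet g g' hg']

end CosetSys

end Fermat.Agent.GB.B5.Depl
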