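/-
GATE-B / B5 (helper8): DEPLETION at one prime, on forms and on classes, with the S21 transport.

For a prime `ℓ ∣ N`:
* `deplOp hℓ hℓN A : Hom(Γ₀(N), A) → Hom(Γ₀(N ℓ), A)`,  `ℓ • res − B_ℓ ∘ U_ℓ`  (coset operators of
  `GM/B`: `resSys`, `resDSys`, `cohU`);
* `deplForm hℓ hℓN : S₂(Γ₀(N)) →ₗ[ℂ] S₂(Γ₀(N ℓ))`, `f ↦ ℓ • f − (U_ℓ f) ∣[2] diag(ℓ, 1)`;
* `qCoeff_deplForm` : `a_n(deplForm f) = if ℓ ∣ n then 0 else ℓ * a_n(f)`;
* `periodHomPair_deplForm` : `periodHomPair (N ℓ) (deplForm f, deplForm g)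
      = deplOp ℂ (periodHomPair N (f, g))`.
-/
import Mathlib
import Fermat.Agent.GB.B5.Depl.CosetForm
import Fermat.Agent.GB.B5.Depl.PeriodCoset
import Fermat.Agent.GM.B.Degeneracy
import Fermat.Agent.GM.End.Endgame
import Fermat.Agent.DS.N0.HeckeQExp

set_option autoImplicit false

open UpperHalfPlane hiding I
open ModularForm Complex Filter Topology CongruenceSubgroup
open scoped MatrixGroups ModularForm Manifold

namespace Fermat.Agent.GB.B5.Depl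

open Fermat.Agent.S21_helper65 ModularCurve ModularCurve.Period
open Matrix.SpecialLinearGroup
open Fermat.Agent.GM.B
open Fermat.Agent.DS.N0
open Fermat.Agent.S16.LB.HeckePeriod

section Fun

/-- function-level depletion at `ℓ` (weight 2): `ℓ f − (U_ℓ f) ∣ diag(ℓ, 1)` -/
noncomputable def deplFun (ℓ : ℕ) (f : ℍ → ℂ) : ℍ → ℂ :=
  (ℓ : ℂ) • f - (heckeU 2 ℓ f) ∣[(2 : ℤ)] heckeDiagMatrix ℓ

theorem NiceAtInfty.deplFun {f : ℍ → ℂ} (hf : NiceAtInfty f) (ℓ : ℕ) : NiceAtInfty (deplFun ℓ f) :=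
  (hf.smul _).sub ((hf.heckeU 2 ℓ).slash_heckeDiagMatrix 2 ℓ)

theorem qCoeff_deplFun {f : ℍ → ℂ} (hf : NiceAtInfty f) {ℓ : ℕ} (hℓ : ℓ ≠ 0) (n : ℕ) :
    ModularFormClass.qCoeff (deplFun ℓ f) n
      = if ℓ ∣ n then 0 else (ℓ : ℂ) * ModularFormClass.qCoeff f n := by
  unfold deplFun
  rw [NiceAtInfty.qCoeff_sub (hf.smul _) ((hf.heckeU 2 ℓ).slash_heckeDiagMatrix 2 ℓ),
    NiceAtInfty.qCoeff_smul _ hf,
    NiceAtInfty.qCoeff_slash_heckeDiagMatrix (hf.heckeU 2 ℓ) 2 hℓ,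
    UpperHalfPlane.qCoeff_heckeU hf.per hf.hol hf.bdd 2 hℓ, coeffHeckeU_apply]
  split_ifs with h
  · rw [Nat.div_mul_cancel h]
    norm_num
  · ring

end Fun

section OnePrime

open Fermat.Agent.S16_helper49 Fermat.Agent.GM.End

variable {N ℓ : ℕ} [NeZero N]

theorem det_resSys_pos (N ℓ : ℕ) (i : (resSys N ℓ).ι) : 0 < ((resSys N ℓ).a i).det.val := by
  show 0 < ((1 : GL (Fin 2) ℝ)).det.val
  simp

theorem det_resDSys_pos (N : ℕ) {ℓ : ℕ} [Fact ℓ.Prime] (i : (resDSys N ℓ).ι) :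
    0 < ((resDSys N ℓ).a i).det.val := by
  show 0 < (heckeDiagMatrix ℓ).det.val
  rw [det_heckeDiagMatrix (Fact.out : ℓ.Prime).ne_zero]
  exact_mod_cast (Fact.out : ℓ.Prime).pos

/-- restriction `S₂(Γ₀(N)) → S₂(Γ₀(N ℓ))` as a coset operator on forms -/
noncomputable def resForm (N ℓ : ℕ) :
    CuspForm (Gamma0 N) 2 →ₗ[ℂ] CuspForm (Gamma0 (N * ℓ)) 2 :=
  cosetForm (resSys N ℓ) (det_resSys_pos N ℓ)

/-- `B_ℓ` (slash by `diag(ℓ, 1)`) `S₂(Γ₀(N)) → S₂(Γ₀(N ℓ))` as a coset operator on forms -/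
noncomputable def raiseForm (N : ℕ) {ℓ : ℕ} (hℓ : ℓ.Prime) :
    CuspForm (Gamma0 N) 2 →ₗ[ℂ] CuspForm (Gamma0 (N * ℓ)) 2 :=
  haveI : Fact ℓ.Prime := ⟨hℓ⟩
  cosetForm (resDSys N ℓ) (det_resDSys_pos N)

omit [NeZero N] in
theorem coe_resForm (f : CuspForm (Gamma0 N) 2) : (⇑(resForm N ℓ f) : ℍ → ℂ) = ⇑f := by
  unfold resForm
  rw [coe_cosetForm]
  show ∑ _i : Unit, (⇑f) ∣[(2 : ℤ)] (1 : GL (Fin 2) ℝ) = ⇑f
  simp

omit [NeZero N] in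
theorem coe_raiseForm (hℓ : ℓ.Prime) (f : CuspForm (Gamma0 N) 2) :
    (⇑(raiseForm N hℓ f) : ℍ → ℂ) = (⇑f) ∣[(2 : ℤ)] heckeDiagMatrix ℓ := by
  unfold raiseForm
  rw [coe_cosetForm]
  show ∑ _i : Unit, (⇑f) ∣[(2 : ℤ)] heckeDiagMatrix ℓ = _
  simp

/-- **form-level depletion at `ℓ ∣ N`** -/
noncomputable def deplForm (hℓ : ℓ.Prime) (hℓN : ℓ ∣ N) :
    CuspForm (Gamma0 N) 2 →ₗ[ℂ] CuspForm (Gamma0 (N * ℓ)) 2 :=
  (ℓ : ℂ) • resForm N ℓ - (raiseForm N hℓ).comp (CuspForm.heckeULin 2 hℓN)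

theorem coe_deplForm (hℓ : ℓ.Prime) (hℓN : ℓ ∣ N) (f : CuspForm (Gamma0 N) 2) :
    (⇑(deplForm hℓ hℓN f) : ℍ → ℂ) = deplFun ℓ ⇑f := by
  unfold deplForm deplFun
  rw [LinearMap.sub_apply, LinearMap.smul_apply, LinearMap.comp_apply]
  show ⇑((ℓ : ℂ) • resForm N ℓ f) - ⇑(raiseForm N hℓ (CuspForm.heckeULin 2 hℓN f)) = _
  rw [FunLike.coe_smul, coe_resForm, coe_raiseForm, CuspForm.coe_heckeULin_apply]

theorem niceAtInfty_cuspForm {M : ℕ} (f : CuspForm (Gamma0 M) 2) : NiceAtInfty (⇑f : ℍ → ℂ) :=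
  NiceAtInfty.of_modularFormClass f (CongruenceSubgroup.one_mem_strictPeriods_Gamma0 M)

/-- **`q`-coefficients of the depletion**: the coefficients at the multiples of `ℓ` are killed,
the others are multiplied by `ℓ`. -/
theorem qCoeff_deplForm (hℓ : ℓ.Prime) (hℓN : ℓ ∣ N) (f : CuspForm (Gamma0 N) 2) (n : ℕ) :
    ModularFormClass.qCoeff (deplForm hℓ hℓN f) n
      = if ℓ ∣ n then 0 else (ℓ : ℂ) * ModularFormClass.qCoeff f n := by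
  rw [coe_deplForm]
  exact qCoeff_deplFun (niceAtInfty_cuspForm f) hℓ.ne_zero n

/-! ### the class side -/

/-- **class-level depletion at `ℓ ∣ N`**: `ℓ • res − B_ℓ ∘ U_ℓ` on `Hom(Γ₀(N), A)` -/
noncomputable def deplOp (hℓ : ℓ.Prime) (hℓN : ℓ ∣ N) (A : Type*) [AddCommGroup A] :
    (Additive (Gamma0 N) →+ A) →+ (Additive (Gamma0 (N * ℓ)) →+ A) :=
  haveI : Fact ℓ.Prime := ⟨hℓ⟩
  haveI : NeZero ℓ := ⟨hℓ.ne_zero⟩
  ℓ • (resSys N ℓ).op A - ((resDSys N ℓ).op A).comp (cohU hℓN A)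

omit [NeZero N] in
theorem deplOp_apply (hℓ : ℓ.Prime) (hℓN : ℓ ∣ N) {A : Type*} [AddCommGroup A]
    (φ : Additive (Gamma0 N) →+ A) :
    haveI : Fact ℓ.Prime := ⟨hℓ⟩
    haveI : NeZero ℓ := ⟨hℓ.ne_zero⟩
    deplOp hℓ hℓN A φ = ℓ • (resSys N ℓ).op A φ - (resDSys N ℓ).op A (cohU hℓN A φ) := rfl

/-- the period pair map intertwines restriction -/
theorem periodHomPair_resForm [NeZero ℓ] (f g : CuspForm (Gamma0 N) 2) :
    periodHomPair (N * ℓ) (resForm N ℓ f, resForm N ℓ g)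
      = (resSys N ℓ).op ℂ (periodHomPair N (f, g)) := by
  refine periodHomPair_cosetSys (resSys N ℓ) (det_resSys_pos N ℓ) (Equiv.refl _) (fun _ => rfl)
    (fun _ => 1) ?_ f g _ _ rfl rfl
  intro i
  show J * (1 : GL (Fin 2) ℝ) * J = mapGL ℝ (((1 : Gamma0 N) : SL(2, ℤ))) * (1 : GL (Fin 2) ℝ)
  rw [mul_one, Subgroup.coe_one, map_one, mul_one]
  exact J_mul_J

/-- the period pair map intertwines `B_ℓ` -/
theorem periodHomPair_raiseForm [NeZero ℓ] (hℓ : ℓ.Prime) (f g : CuspForm (Gamma0 N) 2) :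
    haveI : Fact ℓ.Prime := ⟨hℓ⟩
    periodHomPair (N * ℓ) (raiseForm N hℓ f, raiseForm N hℓ g)
      = (resDSys N ℓ).op ℂ (periodHomPair N (f, g)) := by
  have : Fact ℓ.Prime := ⟨hℓ⟩
  refine periodHomPair_cosetSys (resDSys N ℓ) (det_resDSys_pos N) (Equiv.refl _) (fun _ => rfl)
    (fun _ => 1) ?_ f g _ _ rfl rfl
  intro i
  show J * heckeDiagMatrix ℓ * J = mapGL ℝ (((1 : Gamma0 N) : SL(2, ℤ))) * heckeDiagMatrix ℓ
  rw [Subgroup.coe_one]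
  exact J_heckeDiagMatrix_J hℓ.ne_zero

/-- the period pair map intertwines `U_ℓ` (`ℓ ∣ N`) -/
theorem periodHomPair_heckeULin [NeZero ℓ] (hℓ : ℓ.Prime) (hℓN : ℓ ∣ N)
    (f g : CuspForm (Gamma0 N) 2) :
    periodHomPair N (CuspForm.heckeULin 2 hℓN f, CuspForm.heckeULin 2 hℓN g)
      = cohU hℓN ℂ (periodHomPair N (f, g)) := by
  have h := periodHomPair_formOp N (⟨ℓ, hℓ⟩ : Nat.Primes) f g
  rw [formOp_of_dvd N hℓ hℓN] at h
  rw [h]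
  show cohGen N ℂ (⟨ℓ, hℓ⟩ : Nat.Primes) _ = _
  rw [cohGen_of_dvd N ℂ (⟨ℓ, hℓ⟩ : Nat.Primes) hℓN]

/-- **S21 transport of the depletion**: the period pair map intertwines the form-level and the
class-level depletion at `ℓ`. -/
theorem periodHomPair_deplForm (hℓ : ℓ.Prime) (hℓN : ℓ ∣ N) (f g : CuspForm (Gamma0 N) 2) :
    haveI : NeZero ℓ := ⟨hℓ.ne_zero⟩
    periodHomPair (N * ℓ) (deplForm hℓ hℓN f, deplForm hℓ hℓN g)
      = deplOp hℓ hℓN ℂ (periodHomPair N (f, g)) := by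
  have : NeZero ℓ := ⟨hℓ.ne_zero⟩
  have : Fact ℓ.Prime := ⟨hℓ⟩
  have e : ((deplForm hℓ hℓN f, deplForm hℓ hℓN g) :
        CuspForm (Gamma0 (N * ℓ)) 2 × CuspForm (Gamma0 (N * ℓ)) 2)
      = (ℓ : ℂ) • (resForm N ℓ f, resForm N ℓ g)
        - (raiseForm N hℓ (CuspForm.heckeULin 2 hℓN f),
            raiseForm N hℓ (CuspForm.heckeULin 2 hℓN g)) := by
    unfold deplForm
    rfl
  rw [e, map_sub, map_smul, periodHomPair_resForm, periodHomPair_raiseForm hℓ,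
    periodHomPair_heckeULin hℓ hℓN, deplOp_apply, Nat.cast_smul_eq_nsmul]

end OnePrime

end Fermat.Agent.GB.B5.Depl
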