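/-
GATE-B / B5 (helper8): ITERATED DEPLETION along a list of primes, on forms and on classes.

Levels are kept as VARIABLES with equations (`N' = N * ls.prod`), so that consumers never meet a
cast: `subst` the equation.

* `castForm`, `castOp` : the identity between equal levels;
* `deplFormList ls hls h : S₂(Γ₀(N)) →ₗ[ℂ] S₂(Γ₀(N'))`, `deplOpList ls hls h A :
  Hom(Γ₀(N), A) →+ Hom(Γ₀(N'), A)` (`hls : ∀ ℓ ∈ ls, ℓ.Prime ∧ ℓ ∣ N`, `h : N' = N * ls.prod`):
  deplete at the head of the list first;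
* `qCoeff_deplFormList` : `a_n = if ∃ ℓ ∈ ls, ℓ ∣ n then 0 else ls.prod * a_n(f)`;
* `periodHomPair_deplFormList` : the S21 transport.
-/
import Mathlib
import Fermat.Agent.GB.B5.Depl.DepleteForm

set_option autoImplicit false

open UpperHalfPlane hiding I
open ModularForm Complex Filter Topology CongruenceSubgroup
open scoped MatrixGroups ModularForm Manifold

namespace Fermat.Agent.GB.B5.Depl

open Fermat.Agent.S21_helper65 ModularCurve ModularCurve.Period
open Matrix.SpecialLinearGroup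
open Fermat.Agent.GM.B

/-- identity between equal levels, on forms -/
noncomputable def castForm {N N' : ℕ} (h : N' = N) :
    CuspForm (Gamma0 N) 2 →ₗ[ℂ] CuspForm (Gamma0 N') 2 :=
  h ▸ LinearMap.id

/-- identity between equal levels, on classes -/
noncomputable def castOp {N N' : ℕ} (h : N' = N) (A : Type*) [AddCommGroup A] :
    (Additive (Gamma0 N) →+ A) →+ (Additive (Gamma0 N') →+ A) :=
  h ▸ AddMonoidHom.id _

theorem castForm_rfl {N : ℕ} (f : CuspForm (Gamma0 N) 2) : castForm (rfl : N = N) f = f := rfl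

theorem castOp_rfl {N : ℕ} {A : Type*} [AddCommGroup A] (φ : Additive (Gamma0 N) →+ A) :
    castOp (rfl : N = N) A φ = φ := rfl

theorem coe_castForm {N N' : ℕ} (h : N' = N) (f : CuspForm (Gamma0 N) 2) :
    (⇑(castForm h f) : ℍ → ℂ) = ⇑f := by
  subst h
  rfl

theorem ne_zero_mul_prime {N ℓ : ℕ} [NeZero N] (hℓ : ℓ.Prime) : NeZero (N * ℓ) :=
  ⟨Nat.mul_ne_zero (NeZero.ne N) hℓ.ne_zero⟩

theorem hls_tail {N ℓ : ℕ} {ls : List ℕ} (hls : ∀ ℓ' ∈ ℓ :: ls, ℓ'.Prime ∧ ℓ' ∣ N) :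
    ∀ ℓ' ∈ ls, ℓ'.Prime ∧ ℓ' ∣ N * ℓ :=
  fun ℓ' h => ⟨(hls ℓ' (List.mem_cons_of_mem _ h)).1,
    Dvd.dvd.mul_right (hls ℓ' (List.mem_cons_of_mem _ h)).2 ℓ⟩

theorem level_tail {N N' ℓ : ℕ} {ls : List ℕ} (h : N' = N * (ℓ :: ls).prod) :
    N' = N * ℓ * ls.prod := by
  rw [h, List.prod_cons, mul_assoc]

/-- **iterated form-level depletion** -/
noncomputable def deplFormList : (ls : List ℕ) → {N N' : ℕ} → [NeZero N] →
    (∀ ℓ ∈ ls, ℓ.Prime ∧ ℓ ∣ N) → N' = N * ls.prod →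
    (CuspForm (Gamma0 N) 2 →ₗ[ℂ] CuspForm (Gamma0 N') 2)
  | [], _, _, _, _, h => castForm (by simpa using h)
  | ℓ :: ls, N, _, _, hls, h =>
      haveI : NeZero (N * ℓ) := ne_zero_mul_prime (hls ℓ List.mem_cons_self).1
      (deplFormList ls (hls_tail hls) (level_tail h)).comp
        (deplForm (hls ℓ List.mem_cons_self).1 (hls ℓ List.mem_cons_self).2)

/-- **iterated class-level depletion** -/
noncomputable def deplOpList (A : Type*) [AddCommGroup A] : (ls : List ℕ) → {N N' : ℕ} →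
    [NeZero N] → (∀ ℓ ∈ ls, ℓ.Prime ∧ ℓ ∣ N) → N' = N * ls.prod →
    ((Additive (Gamma0 N) →+ A) →+ (Additive (Gamma0 N') →+ A))
  | [], _, _, _, _, h => castOp (by simpa using h) A
  | ℓ :: ls, N, _, _, hls, h =>
      haveI : NeZero (N * ℓ) := ne_zero_mul_prime (hls ℓ List.mem_cons_self).1
      (deplOpList A ls (hls_tail hls) (level_tail h)).comp
        (deplOp (hls ℓ List.mem_cons_self).1 (hls ℓ List.mem_cons_self).2 A)

theorem deplFormList_nil {N N' : ℕ} [NeZero N] (hls : ∀ ℓ ∈ ([] : List ℕ), ℓ.Prime ∧ ℓ ∣ N)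
    (h : N' = N * ([] : List ℕ).prod) (f : CuspForm (Gamma0 N) 2) :
    deplFormList [] hls h f = castForm (by simpa using h) f := rfl

theorem deplFormList_cons {N N' ℓ : ℕ} {ls : List ℕ} [NeZero N]
    (hls : ∀ ℓ' ∈ ℓ :: ls, ℓ'.Prime ∧ ℓ' ∣ N) (h : N' = N * (ℓ :: ls).prod)
    (f : CuspForm (Gamma0 N) 2) :
    haveI : NeZero (N * ℓ) := ne_zero_mul_prime (hls ℓ List.mem_cons_self).1
    deplFormList (ℓ :: ls) hls h f
      = deplFormList ls (hls_tail hls) (level_tail h)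
          (deplForm (hls ℓ List.mem_cons_self).1 (hls ℓ List.mem_cons_self).2 f) := rfl

theorem deplOpList_cons {A : Type*} [AddCommGroup A] {N N' ℓ : ℕ} {ls : List ℕ} [NeZero N]
    (hls : ∀ ℓ' ∈ ℓ :: ls, ℓ'.Prime ∧ ℓ' ∣ N) (h : N' = N * (ℓ :: ls).prod)
    (φ : Additive (Gamma0 N) →+ A) :
    haveI : NeZero (N * ℓ) := ne_zero_mul_prime (hls ℓ List.mem_cons_self).1
    deplOpList A (ℓ :: ls) hls h φ
      = deplOpList A ls (hls_tail hls) (level_tail h)
          (deplOp (hls ℓ List.mem_cons_self).1 (hls ℓ List.mem_cons_self).2 A φ) := rfl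

/-- **`q`-coefficients of the iterated depletion.** -/
theorem qCoeff_deplFormList (ls : List ℕ) {N N' : ℕ} [NeZero N]
    (hls : ∀ ℓ ∈ ls, ℓ.Prime ∧ ℓ ∣ N) (h : N' = N * ls.prod) (f : CuspForm (Gamma0 N) 2) (n : ℕ) :
    ModularFormClass.qCoeff (deplFormList ls hls h f) n
      = if ∃ ℓ ∈ ls, ℓ ∣ n then 0 else (ls.prod : ℂ) * ModularFormClass.qCoeff f n := by
  induction ls generalizing N with
  | nil =>
    rw [deplFormList_nil, coe_castForm]
    simp
  | cons ℓ ls ih =>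
    have : NeZero (N * ℓ) := ne_zero_mul_prime (hls ℓ List.mem_cons_self).1
    rw [deplFormList_cons, ih (hls_tail hls) (level_tail h), qCoeff_deplForm]
    by_cases h1 : ∃ ℓ' ∈ ls, ℓ' ∣ n
    · have h2 : ∃ ℓ' ∈ ℓ :: ls, ℓ' ∣ n := by
        obtain ⟨ℓ', hm, hd⟩ := h1
        exact ⟨ℓ', List.mem_cons_of_mem _ hm, hd⟩
      rw [if_pos h1, if_pos h2]
    · rw [if_neg h1]
      by_cases h3 : ℓ ∣ n
      · have h2 : ∃ ℓ' ∈ ℓ :: ls, ℓ' ∣ n := ⟨ℓ, List.mem_cons_self, h3⟩
        rw [if_pos h3, if_pos h2, mul_zero]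
      · have h2 : ¬ ∃ ℓ' ∈ ℓ :: ls, ℓ' ∣ n := by
          rintro ⟨ℓ', hm, hd⟩
          rcases List.mem_cons.mp hm with rfl | hm'
          · exact h3 hd
          · exact h1 ⟨ℓ', hm', hd⟩
        rw [if_neg h3, if_neg h2, List.prod_cons]
        push_cast
        ring

/-- **S21 transport of the iterated depletion.** -/
theorem periodHomPair_deplFormList (ls : List ℕ) {N N' : ℕ} [NeZero N] [NeZero N']
    (hls : ∀ ℓ ∈ ls, ℓ.Prime ∧ ℓ ∣ N) (h : N' = N * ls.prod) (f g : CuspForm (Gamma0 N) 2) :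
    periodHomPair N' (deplFormList ls hls h f, deplFormList ls hls h g)
      = deplOpList ℂ ls hls h (periodHomPair N (f, g)) := by
  induction ls generalizing N with
  | nil =>
    have h' : N' = N := by simpa using h
    subst h'
    rfl
  | cons ℓ ls ih =>
    have : NeZero (N * ℓ) := ne_zero_mul_prime (hls ℓ List.mem_cons_self).1
    rw [deplFormList_cons, deplFormList_cons, deplOpList_cons,
      ih (hls_tail hls) (level_tail h), periodHomPair_deplForm]

end Fermat.Agent.GB.B5.Depl
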