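/-
GATE-B / B5 leaf (C1), final part (helper8): the ITERATED depletion on `Γ_H`-classes and its
compatibility with the Betti twist and with the restriction from `Γ₀`.

* `twSys0_op` : `(twSys0 hℓN).op = B_ℓ ∘ U_ℓ` on `Hom(Γ₀(N), A)`;
* `resH_deplOp` : `res_{Γ_H(N ℓ)} ∘ deplOp = deplOpH ∘ res_{Γ_H(N)}` (no casts);
* `TwRel θ hrB ψ hψ X φ` : the POINTWISE relation `X|_{Γ_H(B r)} = R_ψ φ` between a class `X` on
  `Γ₀(N₀)` (`N₀` a level VARIABLE, equal to `B r`) and a class `φ` on `Γ_H(B)`;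
* `twRel_step` : `TwRel X φ → TwRel (deplOp X) (deplOpH φ)` at the prime `ℓ ∣ B`;
* `lvl`, `liftL`, `deplOpHList` : the iteration along a list (head first, as `deplOpList`);
* `twRel_list` : **`TwRel X φ → TwRel (deplOpList ls X) (deplOpHList ls φ)`** = (C1).
-/
import Mathlib
import Fermat.Agent.GB.B5.Depl.ClassDepl
import Fermat.Agent.GB.B5.Depl.DepleteList
import Fermat.Agent.GB.B5.Betti.Phi

set_option autoImplicit false

open scoped MatrixGroups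
open CongruenceSubgroup Matrix Matrix.SpecialLinearGroup ModularCurve.Period
open P2MW.S_ModularForm_heckeT_slash_eq_self_of_mem_Gamma0.ModularForm.HeckeSlashInvariance
open Fermat.Agent.S16_helper49 Fermat.Agent.GM.B Fermat.Agent.GM.EisClass
open Fermat.Agent.GM.B5 Fermat.Agent.GM.Amalgam
open Fermat.Agent.GB.B3 Fermat.Agent.GB.B3.EisGamma0 Fermat.Agent.GB.B3.GamH
open Fermat.Agent.GB.B4.Twist Fermat.Agent.GB.B4.Twist.KerSys2 Fermat.Agent.GB.B4.Twist.RPsi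
open Fermat.Agent.GB.B5.Betti

namespace Fermat.Agent.GB.B5.Depl

section Compat

variable {N ℓ : ℕ} [NeZero ℓ] [Fact ℓ.Prime] {Δ : Type} [CommGroup Δ] (θ : (ZMod N)ˣ →* Δ)
  {A : Type*} [AddCommGroup A]

/-- the unweighted twist system on `Γ₀` is `B_ℓ ∘ U_ℓ` -/
theorem twSys0_op (hℓN : ℓ ∣ N) (X : Additive (Gamma0 N) →+ A) :
    (twSys0 hℓN).op A X = (resDSys N ℓ).op A (cohU hℓN A X) := by
  refine AddMonoidHom.ext fun g => ?_
  obtain ⟨g, rfl⟩ : ∃ g' : Gamma0 (N * ℓ), Additive.ofMul g' = g := ⟨Additive.toMul g, rfl⟩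
  rw [CosetSys.op_apply, CosetSys.op_apply]
  have e : ∑ i : (resDSys N ℓ).ι, cohU hℓN A X (Additive.ofMul ((resDSys N ℓ).c g i))
      = cohU hℓN A X (Additive.ofMul (degenDelta N ℓ g)) :=
    Fintype.sum_unique (ι := Unit) _
  rw [e]
  rfl

/-- **restriction to `Γ_H` commutes with the depletion** -/
theorem resH_deplOp (hℓ : ℓ.Prime) (hℓN : ℓ ∣ N) (X : Additive (Gamma0 N) →+ A) :
    resH (liftθ (r := ℓ) θ) A (deplOp hℓ hℓN A X) = deplOpH θ hℓN A (resH θ A X) := by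
  rw [deplOp_apply]
  unfold deplOpH
  rw [map_sub, map_nsmul, AddMonoidHom.sub_apply, AddMonoidHom.smul_apply, ResH_resH,
    ← twSys0_op hℓN X]
  congr 1
  exact (kerSys₂_op_res (twSys0 hℓN) (chi θ) (chi (liftθ (r := ℓ) θ)) (compat₂_twSys0 θ hℓN) X).symm

end Compat

/-! ### membership in the lifted groups -/

section Mem

variable {N r : ℕ} {Δ : Type} [CommGroup Δ] (θ : (ZMod N)ˣ →* Δ)

theorem gamma0_le_of_dvd {M M' : ℕ} (h : M ∣ M') : Gamma0 M' ≤ Gamma0 M := by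
  intro g hg
  rw [Gamma0_mem] at hg ⊢
  rw [ZMod.intCast_zmod_eq_zero_iff_dvd] at hg ⊢
  exact (Int.natCast_dvd_natCast.mpr h).trans hg

/-- `Γ_H(N r) = Γ₀(N r) ∩ Γ_H(N)` -/
theorem mem_GammaH_liftθ_iff (g : SL(2, ℤ)) :
    g ∈ GammaH (liftθ (r := r) θ) ↔ g ∈ Gamma0 (N * r) ∧ g ∈ GammaH θ := by
  constructor
  · intro hg
    exact ⟨GammaH_le _ hg, coe_mem_GammaH_of_lift θ ⟨g, hg⟩⟩
  · rintro ⟨h0, h1⟩
    rw [mem_GammaH_iff] at h1 ⊢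
    obtain ⟨hg, h1⟩ := h1
    refine ⟨h0, ?_⟩
    rw [liftθ_apply, ← h1]
    congr 1
    apply Units.ext
    rw [ZMod.unitsMap_def, Units.coe_map, coe_dUnits, coe_dUnits]
    unfold dN
    rw [MonoidHom.coe_coe, map_intCast]

/-- the two orders of lifting give the same group of matrices -/
theorem mem_GammaH_lift_comm {ℓ : ℕ} (g : SL(2, ℤ))
    (h : g ∈ GammaH (liftθ (r := r) (liftθ (r := ℓ) θ))) :
    g ∈ GammaH (liftθ (r := ℓ) (liftθ (r := r) θ)) := by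
  rw [mem_GammaH_liftθ_iff, mem_GammaH_liftθ_iff] at h ⊢
  obtain ⟨h0, -, h2⟩ := h
  have e : N * ℓ * r = N * r * ℓ := by ring
  refine ⟨e ▸ h0, gamma0_le_of_dvd ⟨ℓ, e⟩ h0, h2⟩

/-- a matrix of `Γ_H(N ℓ r)` lies in `Γ_H(N r)` -/
theorem mem_GammaH_lift_of_lift_lift {ℓ : ℕ} (g : SL(2, ℤ))
    (h : g ∈ GammaH (liftθ (r := r) (liftθ (r := ℓ) θ))) :
    g ∈ GammaH (liftθ (r := r) θ) := by
  have h' := mem_GammaH_lift_comm θ g h
  exact coe_mem_GammaH_of_lift (liftθ (r := r) θ) ⟨g, h'⟩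

end Mem

/-! ### the relation `X|_{Γ_H} = R_ψ φ` and one depletion step -/

section Step

variable {r : ℕ} [Fact r.Prime] {Δ : Type} [CommGroup Δ]
  {R : Type*} [CommRing R] {A : Type*} [AddCommGroup A] [Module R A]

omit [Fact (Nat.Prime r)] in
/-- the hypothesis `hψ` of the twist passes to the lifted quotient -/
theorem hψ_lift {B ℓ : ℕ} (θ : (ZMod B)ˣ →* Δ) (ψ : MulChar (ZMod r) R)
    (hψ : ∀ g : GammaH (liftθ (r := r) θ), ψ (dr r (g : SL(2, ℤ))) ^ 2 = 1)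
    (g : GammaH (liftθ (r := r) (liftθ (r := ℓ) θ))) : ψ (dr r (g : SL(2, ℤ))) ^ 2 = 1 :=
  hψ ⟨(g : SL(2, ℤ)), mem_GammaH_lift_of_lift_lift θ _ g.2⟩

/-- **the pointwise relation** `X|_{Γ_H(B r)} = R_ψ φ`, for a class `X` on `Γ₀(N₀)` (in the
applications `N₀ = B r`) and a class `φ` on `Γ_H(B)` -/
def TwRel {B N₀ : ℕ} (θ : (ZMod B)ˣ →* Δ) (hrB : r ∣ B) (ψ : MulChar (ZMod r) R)
    (hψ : ∀ g : GammaH (liftθ (r := r) θ), ψ (dr r (g : SL(2, ℤ))) ^ 2 = 1)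
    (X : Additive (Gamma0 N₀) →+ A) (φ : Additive (GammaH θ) →+ A) : Prop :=
  ∀ (g : SL(2, ℤ)) (h1 : g ∈ GammaH (liftθ (r := r) θ)) (h0 : g ∈ Gamma0 N₀),
    X (Additive.ofMul ⟨g, h0⟩) = Rpsi θ hrB ψ hψ φ (Additive.ofMul ⟨g, h1⟩)

/-- `TwRel` at the syntactic level `B r` is the equation `res X = R_ψ φ` -/
theorem twRel_iff {B : ℕ} (θ : (ZMod B)ˣ →* Δ) (hrB : r ∣ B) (ψ : MulChar (ZMod r) R)
    (hψ : ∀ g : GammaH (liftθ (r := r) θ), ψ (dr r (g : SL(2, ℤ))) ^ 2 = 1)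
    (X : Additive (Gamma0 (B * r)) →+ A) (φ : Additive (GammaH θ) →+ A) :
    TwRel θ hrB ψ hψ X φ ↔ resH (liftθ (r := r) θ) A X = Rpsi θ hrB ψ hψ φ := by
  constructor
  · intro h
    refine AddMonoidHom.ext fun k => ?_
    obtain ⟨k, rfl⟩ : ∃ k' : GammaH (liftθ (r := r) θ), Additive.ofMul k' = k :=
      ⟨Additive.toMul k, rfl⟩
    rw [resH_apply]
    exact h (k : SL(2, ℤ)) k.2 (GammaH_le _ k.2)
  · intro h g h1 h0
    rw [← h, resH_apply]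
    rfl

/-- **one depletion step**: the relation `X|_{Γ_H} = R_ψ φ` passes to the depletions at `ℓ`. -/
theorem twRel_step {B N₀ ℓ : ℕ} [NeZero ℓ] [Fact ℓ.Prime] (hN₀ : N₀ = B * r) (hℓ : ℓ.Prime)
    (hℓB : ℓ ∣ B) (hℓN₀ : ℓ ∣ N₀) (θ : (ZMod B)ˣ →* Δ) (hrB : r ∣ B) (ψ : MulChar (ZMod r) R)
    (hψ : ∀ g : GammaH (liftθ (r := r) θ), ψ (dr r (g : SL(2, ℤ))) ^ 2 = 1)
    (X : Additive (Gamma0 N₀) →+ A) (φ : Additive (GammaH θ) →+ A)
    (h : TwRel θ hrB ψ hψ X φ) :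
    TwRel (liftθ (r := ℓ) θ) (hrB.mul_right ℓ) ψ (hψ_lift θ ψ hψ)
      (deplOp hℓ hℓN₀ A X) (deplOpH θ hℓB A φ) := by
  subst hN₀
  rw [twRel_iff] at h
  intro g h1 h0
  have h2 : g ∈ GammaH (liftθ (r := ℓ) (liftθ (r := r) θ)) := mem_GammaH_lift_comm θ g h1
  have e1 : deplOp hℓ hℓN₀ A X (Additive.ofMul ⟨g, h0⟩)
      = resH (liftθ (r := ℓ) (liftθ (r := r) θ)) A (deplOp hℓ hℓN₀ A X)
          (Additive.ofMul ⟨g, h2⟩) := by
    rw [resH_apply]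
    rfl
  rw [e1, resH_deplOp (liftθ (r := r) θ) hℓ hℓN₀ X, h]
  exact (Rpsi_deplOpH θ hℓB hrB ψ hψ (hψ_lift θ ψ hψ) φ ⟨g, h1⟩ ⟨g, h2⟩ rfl).symm

end Step

/-! ### the iteration along a list of primes -/

section ListDefs

variable {Δ : Type} [CommGroup Δ]

/-- the level after lifting along the list: `B · ∏ ℓ` -/
def lvl : ℕ → List ℕ → ℕ
  | B, [] => B
  | B, ℓ :: ls => lvl (B * ℓ) ls

@[simp] theorem lvl_nil (B : ℕ) : lvl B [] = B := rfl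

@[simp] theorem lvl_cons (B ℓ : ℕ) (ls : List ℕ) : lvl B (ℓ :: ls) = lvl (B * ℓ) ls := rfl

theorem lvl_eq (B : ℕ) (ls : List ℕ) : lvl B ls = B * ls.prod := by
  induction ls generalizing B with
  | nil => simp
  | cons ℓ ls ih => rw [lvl_cons, ih, List.prod_cons, mul_assoc]

theorem dvd_lvl (B : ℕ) (ls : List ℕ) : B ∣ lvl B ls := by
  rw [lvl_eq]
  exact Dvd.intro _ rfl

/-- the quotient `θ ∘ (mod B)` of the units modulo `lvl B ls` -/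
noncomputable def liftL : (B : ℕ) → ((ZMod B)ˣ →* Δ) → (ls : List ℕ) → ((ZMod (lvl B ls))ˣ →* Δ)
  | _, θ, [] => θ
  | B, θ, ℓ :: ls => liftL (B * ℓ) (liftθ (r := ℓ) θ) ls

theorem liftL_nil (B : ℕ) (θ : (ZMod B)ˣ →* Δ) : liftL B θ [] = θ := rfl

theorem liftL_cons (B : ℕ) (θ : (ZMod B)ˣ →* Δ) (ℓ : ℕ) (ls : List ℕ) :
    liftL B θ (ℓ :: ls) = liftL (B * ℓ) (liftθ (r := ℓ) θ) ls := rfl

theorem liftL_eq (B : ℕ) (θ : (ZMod B)ˣ →* Δ) (ls : List ℕ) :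
    liftL B θ ls = θ.comp (ZMod.unitsMap (dvd_lvl B ls)) := by
  induction ls generalizing B with
  | nil =>
    refine MonoidHom.ext fun u => ?_
    show θ u = θ (ZMod.unitsMap (dvd_refl B) u)
    rw [ZMod.unitsMap_self]
    rfl
  | cons ℓ ls ih =>
    rw [liftL_cons, ih]
    unfold liftθ
    rw [MonoidHom.comp_assoc, ZMod.unitsMap_comp]
    rfl

/-- **iterated depletion on `Γ_H`-classes** (head of the list first) -/
noncomputable def deplOpHList (A : Type*) [AddCommGroup A] : (B : ℕ) → (θ : (ZMod B)ˣ →* Δ) →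
    (ls : List ℕ) → (∀ ℓ ∈ ls, ℓ.Prime ∧ ℓ ∣ B) →
    ((Additive (GammaH θ) →+ A) →+ (Additive (GammaH (liftL B θ ls)) →+ A))
  | _, _, [], _ => AddMonoidHom.id _
  | B, θ, ℓ :: ls, hls =>
      haveI : Fact ℓ.Prime := ⟨(hls ℓ List.mem_cons_self).1⟩
      (deplOpHList A (B * ℓ) (liftθ (r := ℓ) θ) ls (hls_tail hls)).comp
        (deplOpH θ (hls ℓ List.mem_cons_self).2 A)

theorem deplOpHList_nil {A : Type*} [AddCommGroup A] (B : ℕ) (θ : (ZMod B)ˣ →* Δ)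
    (hls : ∀ ℓ ∈ ([] : List ℕ), ℓ.Prime ∧ ℓ ∣ B) (φ : Additive (GammaH θ) →+ A) :
    deplOpHList A B θ [] hls φ = φ := rfl

theorem deplOpHList_cons {A : Type*} [AddCommGroup A] (B : ℕ) (θ : (ZMod B)ˣ →* Δ) (ℓ : ℕ)
    (ls : List ℕ) (hls : ∀ ℓ' ∈ ℓ :: ls, ℓ'.Prime ∧ ℓ' ∣ B) (φ : Additive (GammaH θ) →+ A) :
    haveI : Fact ℓ.Prime := ⟨(hls ℓ List.mem_cons_self).1⟩
    deplOpHList A B θ (ℓ :: ls) hls φ
      = deplOpHList A (B * ℓ) (liftθ (r := ℓ) θ) ls (hls_tail hls)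
          (deplOpH θ (hls ℓ List.mem_cons_self).2 A φ) := rfl

end ListDefs

section ListRel

variable {r : ℕ} [Fact r.Prime] {Δ : Type} [CommGroup Δ]
  {R : Type*} [CommRing R] {A : Type*} [AddCommGroup A] [Module R A]

omit [Fact (Nat.Prime r)] in
/-- the hypothesis `hψ` of the twist passes to the quotient lifted along a list -/
theorem hψ_liftL (ψ : MulChar (ZMod r) R) (ls : List ℕ) {B : ℕ} (θ : (ZMod B)ˣ →* Δ)
    (hψ : ∀ g : GammaH (liftθ (r := r) θ), ψ (dr r (g : SL(2, ℤ))) ^ 2 = 1) :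
    ∀ g : GammaH (liftθ (r := r) (liftL B θ ls)), ψ (dr r (g : SL(2, ℤ))) ^ 2 = 1 := by
  induction ls generalizing B with
  | nil => exact hψ
  | cons ℓ ls ih => exact ih (liftθ (r := ℓ) θ) (hψ_lift θ ψ hψ)

/-- **(C1): the twist relation passes to the iterated depletions.**  `X` is a class on `Γ₀(N₀)`,
`N₀ = B r`, with `X|_{Γ_H(B r)} = R_ψ φ`; then `D_ls X` (a class on `Γ₀(N₀')`,
`N₀' = N₀ · ∏ ℓ`) restricts to `R_ψ (D^H_ls φ)` on `Γ_H(lvl B ls · r)`. -/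
theorem twRel_list (ψ : MulChar (ZMod r) R) (ls : List ℕ) {B N₀ N₀' : ℕ} [NeZero N₀]
    (hN₀ : N₀ = B * r) (hls : ∀ ℓ ∈ ls, ℓ.Prime ∧ ℓ ∣ B) (hls0 : ∀ ℓ ∈ ls, ℓ.Prime ∧ ℓ ∣ N₀)
    (h' : N₀' = N₀ * ls.prod) (θ : (ZMod B)ˣ →* Δ) (hrB : r ∣ B)
    (hψ : ∀ g : GammaH (liftθ (r := r) θ), ψ (dr r (g : SL(2, ℤ))) ^ 2 = 1)
    (X : Additive (Gamma0 N₀) →+ A) (φ : Additive (GammaH θ) →+ A)
    (h : TwRel θ hrB ψ hψ X φ) :
    TwRel (liftL B θ ls) (hrB.trans (dvd_lvl B ls)) ψ (hψ_liftL ψ ls θ hψ)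
      (deplOpList A ls hls0 h' X) (deplOpHList A B θ ls hls φ) := by
  induction ls generalizing B N₀ with
  | nil =>
    have e : N₀' = N₀ := by simpa using h'
    subst e
    exact h
  | cons ℓ ls ih =>
    have hℓ : ℓ.Prime := (hls ℓ List.mem_cons_self).1
    have : Fact ℓ.Prime := ⟨hℓ⟩
    have : NeZero ℓ := ⟨hℓ.ne_zero⟩
    have : NeZero (N₀ * ℓ) := ne_zero_mul_prime hℓ
    have hstep := twRel_step hN₀ hℓ (hls ℓ List.mem_cons_self).2 (hls0 ℓ List.mem_cons_self).2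
      θ hrB ψ hψ X φ h
    have hN₀' : N₀ * ℓ = B * ℓ * r := by rw [hN₀]; ring
    exact ih hN₀' (hls_tail hls) (hls_tail hls0) (level_tail h') (liftθ (r := ℓ) θ)
      (hrB.mul_right ℓ) (hψ_lift θ ψ hψ) _ _ hstep

end ListRel

end Fermat.Agent.GB.B5.Depl
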