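/-
GATE-B / B5 (helper8): the input relation of B5 from helper97's MULTI-PRIME chain, with the B5
prime LAST in the list.

For a list `L' ++ [d]` of twisting data:

* `GammaH_chainθ_append` : `Γ_H(chainθ N θ (L' ++ [d])) = Γ_H(liftθ_{d.r} (chainθ N θ L'))`
  (equality of subgroups of `SL(2, ℤ)`);
* `chainLevel_append_single` : `chainLevel N (L' ++ [d]) = chainLevel N L' * d.r`;
* `chainR_append_single` : `chainR (L' ++ [d]) φ = R_{d.ψ} (chainR L' φ)` pointwise on the common
  matrices;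
* `twRel_chainD_append` : **`TwRel (chainθ N θ L') _ d.ψ _ (chainD N θ (L' ++ [d]) φ)
  (card Δ • chainR N θ L' φ)`** for the `∏ ν`-eigenvectors `φ` of the conjugations — the hypothesis
  `hX` of `B5Generic.not_goodEigensystemOccursAt_of_twRel` at the last prime of the chain.
-/
import Mathlib
import Fermat.Agent.GB.B4.Twist.ChainD
import Fermat.Agent.GB.B5.Depl.ClassDeplList

set_option autoImplicit false

open scoped MatrixGroups
open CongruenceSubgroup Matrix Matrix.SpecialLinearGroup ModularCurve.Period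
open Fermat.Agent.S16_helper49 Fermat.Agent.GM.B Fermat.Agent.GM.EisClass
open Fermat.Agent.GB.B3 Fermat.Agent.GB.B3.EisGamma0 Fermat.Agent.GB.B3.GamH
open Fermat.Agent.GB.B4.Twist Fermat.Agent.GB.B4.Twist.RPsi Fermat.Agent.GB.B4.Twist.Chain
open Fermat.Agent.GB.B4.Twist.ChainD

namespace Fermat.Agent.GB.B5.Depl

variable {R : Type*} [CommRing R] {Δ : Type} [CommGroup Δ]

theorem chainLevel_append_single (N : ℕ) (L' : List (TwDatum R Δ)) (d : TwDatum R Δ) :
    chainLevel N (L' ++ [d]) = chainLevel N L' * d.r := by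
  induction L' generalizing N with
  | nil => rfl
  | cons e L'' ih => exact ih (N * e.r)

theorem GammaH_chainθ_append (L' : List (TwDatum R Δ)) (d : TwDatum R Δ) {N : ℕ}
    (θ : (ZMod N)ˣ →* Δ) :
    GammaH (chainθ N θ (L' ++ [d])) = GammaH (liftθ (r := d.r) (chainθ N θ L')) := by
  induction L' generalizing N with
  | nil => rfl
  | cons e L'' ih => exact ih (liftθ (r := e.r) θ)

theorem adm_of_append {N : ℕ} {θ : (ZMod N)ˣ →* Δ} {L' : List (TwDatum R Δ)} {d : TwDatum R Δ}
    (h : Adm N θ (L' ++ [d])) : Adm N θ L' :=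
  fun e he => h e (List.mem_append_left _ he)

section Chain

variable {A : Type*} [AddCommGroup A] [Module R A]

/-- **the last twist of a chain**, pointwise on the common matrices -/
theorem chainR_append_single (L' : List (TwDatum R Δ)) (d : TwDatum R Δ) {N : ℕ}
    (θ : (ZMod N)ˣ →* Δ) (h : Adm N θ (L' ++ [d])) (h' : Adm N θ L')
    (hdr : d.r ∣ chainLevel N L')
    (hψ : ∀ g : GammaH (liftθ (r := d.r) (chainθ N θ L')), d.ψ (dr d.r (g : SL(2, ℤ))) ^ 2 = 1)
    (φ : Additive (GammaH θ) →+ A)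
    (g₁ : GammaH (chainθ N θ (L' ++ [d]))) (g₂ : GammaH (liftθ (r := d.r) (chainθ N θ L')))
    (hg : (g₁ : SL(2, ℤ)) = (g₂ : SL(2, ℤ))) :
    chainR N θ (L' ++ [d]) h φ (Additive.ofMul g₁)
      = Rpsi (chainθ N θ L') hdr d.ψ hψ (chainR N θ L' h' φ) (Additive.ofMul g₂) := by
  induction L' generalizing N with
  | nil =>
    have e : g₁ = g₂ := Subtype.ext hg
    subst e
    rfl
  | cons e L'' ih =>
    exact ih (liftθ (r := e.r) θ) (adm_tail h) (adm_tail h') hdr hψ _ g₁ g₂ hg

end Chain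

section TwRelChain

variable [Fintype Δ] {A : Type*} [AddCommGroup A] [Module R A]

/-- **the input relation of B5 from the chain**: the descended iterated twist `chainD (L' ++ [d]) φ`
restricts, on `Γ_H(chainLevel N L' · d.r)`, to `card Δ •` the `d.ψ`-twist of `chainR L' φ`. -/
theorem twRel_chainD_append (L' : List (TwDatum R Δ)) (d : TwDatum R Δ) {N : ℕ}
    (θ : (ZMod N)ˣ →* Δ) (h : Adm N θ (L' ++ [d])) (hdr : d.r ∣ chainLevel N L')
    (hψ : ∀ g : GammaH (liftθ (r := d.r) (chainθ N θ L')), d.ψ (dr d.r (g : SL(2, ℤ))) ^ 2 = 1)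
    (rep : Δ → Gamma0 (chainLevel N (L' ++ [d])))
    (hrep : ∀ δ, chi (chainθ N θ (L' ++ [d])) (rep δ) = δ)
    (φ : Additive (GammaH θ) →+ A)
    (hφ : ∀ (x : Gamma0 N) (k : GammaH θ),
      φ (Additive.ofMul (conjK (chi θ) x k))
        = (((((L' ++ [d]).map (fun d => d.ν)).prod (chi θ x) : Rˣ)) : R) • φ (Additive.ofMul k)) :
    TwRel (chainθ N θ L') hdr d.ψ hψ (chainD N θ (L' ++ [d]) h rep hrep φ)
      (Fintype.card Δ • chainR N θ L' (adm_of_append h) φ) := by
  intro g h1 h0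
  have h1' : g ∈ GammaH (chainθ N θ (L' ++ [d])) := by
    rw [GammaH_chainθ_append]
    exact h1
  have e := resH_chainD N θ (L' ++ [d]) h rep hrep φ hφ
  have e1 := congrArg (fun ψ : Additive (GammaH (chainθ N θ (L' ++ [d]))) →+ A =>
    ψ (Additive.ofMul ⟨g, h1'⟩)) e
  simp only [AddMonoidHom.smul_apply] at e1
  rw [resH_apply] at e1
  rw [map_nsmul, AddMonoidHom.smul_apply,
    ← chainR_append_single L' d θ h (adm_of_append h) hdr hψ φ ⟨g, h1'⟩ ⟨g, h1⟩ rfl]
  exact e1

end TwRelChain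

end Fermat.Agent.GB.B5.Depl
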