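/-
GATE-B / B5 (helper8): the CLASS-LEVEL CORE of B5 at the depleted level, and the iterated (C2).

* `resH_eq_zero` : restriction `Hom(Γ₀(M), ℂ) → Hom(Γ_H, ℂ)` is injective;
* `deplOpHList_UH_eigen`, `deplOpHList_conjEigen` : the iterated depletion on `Γ_H`-classes keeps
  `U_r`-eigenvectors (`r` prime to the list) and the eigenvectors of the conjugations
  (helper65's `DeplComm`, iterated);
* `eq_zero_of_smul_eq_deplOp` : **the core**.  `X` a class on `Γ₀(N r²)` restricting to the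
  `ν⁻¹`-twist of an eigenclass `φ` on `Γ_H(N r)` (`ε`-eigen at `r` with `∑ ε = 0`, `U_r φ = a φ`,
  `a ≠ 0`).  If `r • X` is the `r`-depletion of a class of level `N r`, then `X = 0`.
  (helper65's `PhiH_of_twist` + `PhiH_depl`.)
* `eq_zero_of_smul_eq_deplOp_generic` : the same with the levels as VARIABLES
  (`M = Nd * r`, `N'' = M * r`) and all hypotheses in level-generic (pointwise) form, so that it
  applies to the output of `twRel_list`.
-/
import Mathlib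
import Fermat.Agent.GB.B5.Depl.ClassDeplList
import Fermat.Agent.GB.B5.Betti.DeplComm

set_option autoImplicit false

open scoped MatrixGroups
open CongruenceSubgroup Matrix Matrix.SpecialLinearGroup ModularCurve.Period
open P2MW.S_ModularForm_heckeT_slash_eq_self_of_mem_Gamma0.ModularForm.HeckeSlashInvariance
open Fermat.Agent.S16_helper49 Fermat.Agent.GM.B Fermat.Agent.GM.EisClass
open Fermat.Agent.GM.B5 Fermat.Agent.GM.Amalgam
open Fermat.Agent.GB.B3 Fermat.Agent.GB.B3.EisGamma0 Fermat.Agent.GB.B3.GamH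
open Fermat.Agent.GB.B4.Twist Fermat.Agent.GB.B4.Twist.KerSys2 Fermat.Agent.GB.B4.Twist.RPsi
open Fermat.Agent.GB.B5.Betti

namespace Fermat.Agent.GB.B5.Depl

/-! ### restriction is injective -/

section Inj

variable {M : ℕ} [NeZero M] {Δ : Type} [CommGroup Δ] (θ : (ZMod M)ˣ →* Δ)

theorem resH_eq_zero (X : Additive (Gamma0 M) →+ ℂ) (h : resH θ ℂ X = 0) : X = 0 := by
  refine AddMonoidHom.ext fun g => ?_
  obtain ⟨g, rfl⟩ : ∃ g' : Gamma0 M, Additive.ofMul g' = g := ⟨Additive.toMul g, rfl⟩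
  rw [AddMonoidHom.zero_apply]
  set n := Fintype.card (ZMod M)ˣ with hn
  have hn0 : n ≠ 0 := Fintype.card_ne_zero
  have hmem : ((g ^ n : Gamma0 M) : SL(2, ℤ)) ∈ GammaH θ := by
    rw [mem_GammaH_iff]
    refine ⟨(g ^ n).2, ?_⟩
    have : dUnits M (g ^ n) = 1 := by rw [map_pow, hn, pow_card_eq_one]
    show θ (dUnits M (g ^ n)) = 1
    rw [this, map_one]
  have h1 := congrArg (fun ψ : Additive (GammaH θ) →+ ℂ =>
    ψ (Additive.ofMul ⟨((g ^ n : Gamma0 M) : SL(2, ℤ)), hmem⟩)) h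
  simp only [AddMonoidHom.zero_apply] at h1
  rw [resH_apply] at h1
  have h2 : X (Additive.ofMul (g ^ n)) = 0 := h1
  rw [ofMul_pow, map_nsmul] at h2
  have h1 := h2
  rcases smul_eq_zero.mp h1 with h3 | h3
  · exact absurd h3 hn0
  · exact h3

end Inj

/-! ### the iterated (C2) -/

section C2List

variable {Δ : Type} [CommGroup Δ] {K : Type*} [CommRing K] {A : Type*} [AddCommGroup A]
  [Module K A]

/-- the iterated depletion keeps the `U_r`-eigenvectors, `r` prime to the list -/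
theorem deplOpHList_UH_eigen {r : ℕ} [NeZero r] (ls : List ℕ) {B : ℕ} (θ : (ZMod B)ˣ →* Δ)
    (hls : ∀ ℓ ∈ ls, ℓ.Prime ∧ ℓ ∣ B) (hrB : r ∣ B) (hcop : ∀ ℓ ∈ ls, Nat.Coprime r ℓ)
    (φ : Additive (GammaH θ) →+ A) (a : K) (ha : UH θ A hrB φ = a • φ) :
    UH (liftL B θ ls) A (hrB.trans (dvd_lvl B ls)) (deplOpHList A B θ ls hls φ)
      = a • deplOpHList A B θ ls hls φ := by
  induction ls generalizing B with
  | nil => exact ha
  | cons ℓ ls ih =>
    have : Fact ℓ.Prime := ⟨(hls ℓ List.mem_cons_self).1⟩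
    exact ih (liftθ (r := ℓ) θ) (hls_tail hls) (hrB.mul_right ℓ)
      (fun ℓ' h => hcop ℓ' (List.mem_cons_of_mem _ h)) _
      (deplOpH_UH_eigen θ (hls ℓ List.mem_cons_self).2 hrB (hcop ℓ List.mem_cons_self) φ a ha)

/-- the iterated depletion keeps the eigenvectors of the conjugations -/
theorem deplOpHList_conjEigen (ls : List ℕ) {B : ℕ} (θ : (ZMod B)ˣ →* Δ)
    (hls : ∀ ℓ ∈ ls, ℓ.Prime ∧ ℓ ∣ B) (ε : Δ → K) (φ : Additive (GammaH θ) →+ A)
    (hφ : ConjEigen θ ε φ) : ConjEigen (liftL B θ ls) ε (deplOpHList A B θ ls hls φ) := by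
  induction ls generalizing B with
  | nil => exact hφ
  | cons ℓ ls ih =>
    have : Fact ℓ.Prime := ⟨(hls ℓ List.mem_cons_self).1⟩
    exact ih (liftθ (r := ℓ) θ) (hls_tail hls) _
      (deplOpH_conjEigen θ (hls ℓ List.mem_cons_self).2 ε φ hφ)

end C2List

/-! ### the core -/

section Core

variable {N r : ℕ} [Fact r.Prime] [NeZero N] {Δ : Type} [CommGroup Δ]
  (θ : (ZMod (N * r))ˣ →* Δ)

/-- **the class-level core of B5.** -/
theorem eq_zero_of_smul_eq_deplOp (hrN : ¬ r ∣ N) (hθ : InvStable N r θ)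
    (ν : MulChar (ZMod r) ℂ) (hν1 : ν ≠ 1)
    (hν : ∀ g : GammaH (liftθ (r := r) θ), ν (dr r (g : SL(2, ℤ))) ^ 2 = 1)
    (hν' : ∀ g : GammaH (liftθ (r := r) θ), ν⁻¹ (dr r (g : SL(2, ℤ))) ^ 2 = 1)
    (ε : (ZMod r)ˣ → ℂ) (hε : ∑ u, ε u = 0) (φ : Additive (GammaH θ) →+ ℂ)
    (hφ : ∀ (d : Gamma0 (N * r)) (u : (ZMod r)ˣ),
      ((((d : SL(2, ℤ)) 1 1 : ℤ)) : ZMod N) = 1 →
      ((((d : SL(2, ℤ)) 1 1 : ℤ)) : ZMod r) = (u : ZMod r) → diaH θ ℂ d φ = ε u • φ)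
    (a : ℂ) (ha0 : a ≠ 0) (ha : UH θ ℂ (Nat.dvd_mul_left r N) φ = a • φ)
    (X : Additive (Gamma0 (N * r * r)) →+ ℂ)
    (hX : resH (liftθ (r := r) θ) ℂ X = Rpsi θ (Nat.dvd_mul_left r N) ν⁻¹ hν' φ)
    (y : Additive (Gamma0 (N * r)) →+ ℂ)
    (hy : r • X = deplOp (Fact.out : r.Prime) (Nat.dvd_mul_left r N) ℂ y) : X = 0 := by
  have hr : r.Prime := Fact.out
  have : NeZero (N * r * r) :=
    ⟨Nat.mul_ne_zero (Nat.mul_ne_zero (NeZero.ne N) hr.ne_zero) hr.ne_zero⟩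
  have h3 := PhiH_of_twist θ hrN hθ ν hν1 hν hν' ε hε φ hφ a ha X hX
  have h4 := PhiH_depl θ hrN ν hν1 hν y
  have h5 : PhiH θ ν hν (r • X) = 0 := by
    rw [hy, deplOp_apply]
    exact h4
  rw [map_nsmul, h3, ← Nat.cast_smul_eq_nsmul ℂ, smul_smul] at h5
  have hν0 : ν (-1) ≠ 0 := by
    intro h0
    have h1 : ν (-1) ^ 2 = 1 := by rw [← map_pow, neg_one_sq, map_one]
    rw [h0] at h1
    norm_num at h1
  have hr1 : (r : ℂ) - 1 ≠ 0 := by
    intro h0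
    have h1 : (r : ℂ) = 1 := sub_eq_zero.mp h0
    have h2 : (r : ℕ) = 1 := by exact_mod_cast h1
    exact hr.one_lt.ne' h2
  have hr0 : (r : ℂ) ≠ 0 := by exact_mod_cast hr.ne_zero
  have hκ : (r : ℂ) * (ν (-1) * ((r : ℂ) * (r : ℂ) * a - (r : ℂ) * a)) ≠ 0 := by
    have e : (r : ℂ) * (r : ℂ) * a - (r : ℂ) * a = (r : ℂ) * ((r : ℂ) - 1) * a := by ring
    rw [e]
    exact mul_ne_zero hr0 (mul_ne_zero hν0 (mul_ne_zero (mul_ne_zero hr0 hr1) ha0))
  have hφ0 : φ = 0 := (smul_eq_zero.mp h5).resolve_left hκ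
  rw [hφ0, map_zero] at hX
  exact resH_eq_zero (liftθ (r := r) θ) X hX

end Core

/-! ### the core with the levels as variables -/

section Generic

variable {Δ : Type} [CommGroup Δ]

/-- level-generic form of helper65's `InvStable` -/
def InvStableG (Nd r : ℕ) {M : ℕ} (θ : (ZMod M)ˣ →* Δ) : Prop :=
  ∀ (hd : Nd ∣ M) (hr : r ∣ M) (u v : (ZMod M)ˣ), θ u = 1 →
    ZMod.unitsMap hd v = ZMod.unitsMap hd u →
    ZMod.unitsMap hr v * ZMod.unitsMap hr u = 1 → θ v = 1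

/-- `InvStable` passes to the composite with a reduction map -/
theorem invStableG_comp {N r M : ℕ} (θ : (ZMod (N * r))ˣ →* Δ) (hθ : InvStable N r θ)
    (h : N * r ∣ M) {Nd : ℕ} (hNd : N ∣ Nd) : InvStableG Nd r (θ.comp (ZMod.unitsMap h)) := by
  intro hd hr u v hu h1 h2
  rw [MonoidHom.comp_apply] at hu ⊢
  refine hθ _ _ hu ?_ ?_
  · have e1 : ∀ w : (ZMod M)ˣ, ZMod.unitsMap (Nat.dvd_mul_right N r) (ZMod.unitsMap h w)
        = ZMod.unitsMap hNd (ZMod.unitsMap hd w) := by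
      intro w
      have a1 := DFunLike.congr_fun (ZMod.unitsMap_comp (Nat.dvd_mul_right N r) h) w
      have a2 := DFunLike.congr_fun (ZMod.unitsMap_comp hNd hd) w
      rw [MonoidHom.comp_apply] at a1 a2
      rw [a1, a2]
    rw [e1, e1, h1]
  · have e2 : ∀ w : (ZMod M)ˣ, ZMod.unitsMap (Nat.dvd_mul_left r N) (ZMod.unitsMap h w)
        = ZMod.unitsMap hr w := by
      intro w
      have a1 := DFunLike.congr_fun (ZMod.unitsMap_comp (Nat.dvd_mul_left r N) h) w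
      rw [MonoidHom.comp_apply] at a1
      rw [a1]
    rw [e2, e2, h2]

/-- **the class-level core of B5, level-generic form**: `M = Nd * r` is the level of the class
`φ` on `Γ_H`, `N'' = M * r` the level of the class `X` on `Γ₀`. -/
theorem eq_zero_of_smul_eq_deplOp_generic {Nd r M N'' : ℕ} [Fact r.Prime] [NeZero Nd]
    (hrNd : ¬ r ∣ Nd) (hM : M = Nd * r) (hN'' : N'' = M * r) (hrM : r ∣ M)
    (θ : (ZMod M)ˣ →* Δ) (hθ : InvStableG Nd r θ)
    (ν : MulChar (ZMod r) ℂ) (hν1 : ν ≠ 1)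
    (hν : ∀ g : GammaH (liftθ (r := r) θ), ν (dr r (g : SL(2, ℤ))) ^ 2 = 1)
    (hν' : ∀ g : GammaH (liftθ (r := r) θ), ν⁻¹ (dr r (g : SL(2, ℤ))) ^ 2 = 1)
    (E : Δ → ℂ) (ε : (ZMod r)ˣ → ℂ) (hε : ∑ u, ε u = 0)
    (hEε : ∀ (hd : Nd ∣ M) (v : (ZMod M)ˣ), ZMod.unitsMap hd v = 1 →
      E (θ v) = ε (ZMod.unitsMap hrM v))
    (φ : Additive (GammaH θ) →+ ℂ) (hφ : ConjEigen θ E φ)
    (a : ℂ) (ha0 : a ≠ 0) (ha : UH θ ℂ hrM φ = a • φ)
    (X : Additive (Gamma0 N'') →+ ℂ) (hX : TwRel θ hrM ν⁻¹ hν' X φ)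
    (y : Additive (Gamma0 M) →+ ℂ)
    (hy : r • X = castOp hN'' ℂ (deplOp (Fact.out : r.Prime) hrM ℂ y)) : X = 0 := by
  subst hN''
  subst hM
  rw [castOp_rfl] at hy
  rw [twRel_iff] at hX
  refine eq_zero_of_smul_eq_deplOp θ hrNd ?_ ν hν1 hν hν' ε hε φ ?_ a ha0 ha X hX y hy
  · intro u v hu h1 h2
    exact hθ _ _ u v hu h1 h2
  · exact diaH_binder_of_eigen θ E ε (fun v hv => hEε _ v hv) φ
      ((conjEigen_iff_diaH θ E φ).mp hφ)

end Generic

end Fermat.Agent.GB.B5.Depl
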