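/-
GATE-B / B5 (helper8): THE FORM SIDE of the depletion argument, and its transport to classes.

`G` a normalised eigenform of level `N₀ = M₁ r` with `a_r(G) = 0`, `H₁` a normalised eigenform of
level `M₁` (`r ∣ M₁`) with the same prime coefficients off `N₀` (this is exactly what the prelude's
`GoodEigensystemOccursAt G M₁` provides), `ls` a list of primes dividing `M₁` such that every prime
of `N₀` is in `ls` or equal to `r`.  Then, with `D_ls` the iterated depletion and `D_r` the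
depletion at `r`:

* `depl_eq_of_eigen` : `r • D_ls G = D_r (D_ls H₁)` as cusp forms of level `N'' = N₀ · ∏ ls`;
* `class_depl_eq`    : the same identity for the classes `periodHomPair (c₁ • G, c₂ • G)` and
  `periodHomPair (c₁ • H₁, c₂ • H₁)`, with the class-level operators `deplOpList`, `deplOp`;
* `deplOpList_periodHomPair_ne_zero` : the depleted class of `G` does not vanish;
* `not_goodEigensystemOccursAt_of_package` : **B5 in hypothesis form** — a class-level package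
  `(φ'', R'', Φ'')` at the depleted level with `R'' φ'' = D_ls X`, `Φ'' (R'' φ'') = κ • φ''`
  (`κ ≠ 0`), `Φ'' ∘ D_r = 0` excludes `GoodEigensystemOccursAt G M₁`.
-/
import Mathlib
import Fermat.Agent.GB.B5.Depl.DepleteList
import Fermat.Agent.GB.B5.Depl.EigenCoeff
import Fermat.Agent.S21_helper86.Final
import Fermat.Prelude.Def_CuspForm_Newforms

set_option autoImplicit false

open UpperHalfPlane hiding I
open ModularForm Complex Filter Topology CongruenceSubgroup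
open scoped MatrixGroups ModularForm Manifold

namespace Fermat.Agent.GB.B5.Depl

open Fermat.Agent.S21_helper65 ModularCurve ModularCurve.Period
open Matrix.SpecialLinearGroup
open Fermat.Agent.GM.B
open Fermat.Agent.DS.N0
open ModularFormClass CuspForm

/-- a normalised eigenform with `a_r = 0` at a prime `r` of the level has `a_{r n} = 0` for all
`n` -/
theorem qCoeff_prime_mul_eq_zero {N₀ r : ℕ} {G : CuspForm (Gamma0 N₀) 2}
    (hG : G.IsNormalizedEigenform) (hr : r.Prime) (hrN : r ∣ N₀) (hGr : qCoeff G r = 0) (n : ℕ) :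
    qCoeff G (r * n) = 0 := by
  have hpow : ∀ k : ℕ, qCoeff G (r ^ (k + 1)) = 0 := by
    intro k
    induction k with
    | zero => simpa using hGr
    | succ k _ => rw [hG.qCoeff_prime_pow_of_dvd r k hr hrN, hGr, zero_mul]
  rcases Nat.eq_zero_or_pos n with rfl | hn
  · rw [mul_zero]
    exact Fermat.Agent.S49_helper65.qCoeff_zero_cusp G
  · obtain ⟨k, m, hm, rfl⟩ := Nat.exists_eq_pow_mul_and_not_dvd hn.ne' r hr.ne_one
    have hcop : (r ^ (k + 1)).Coprime m :=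
      Nat.Coprime.pow_left _ ((Nat.Prime.coprime_iff_not_dvd hr).mpr hm)
    rw [← mul_assoc, ← pow_succ', hG.qCoeff_mul_of_coprime _ _ hcop, hpow k, zero_mul]

section FormSide

variable {M₁ N₀ r : ℕ} [NeZero M₁] [NeZero N₀]

theorem hls_of_dvd {M₁ N₀ : ℕ} {ls : List ℕ} (hMN : M₁ ∣ N₀)
    (hls : ∀ ℓ ∈ ls, ℓ.Prime ∧ ℓ ∣ M₁) : ∀ ℓ ∈ ls, ℓ.Prime ∧ ℓ ∣ N₀ :=
  fun ℓ h => ⟨(hls ℓ h).1, (hls ℓ h).2.trans hMN⟩

/-- **The form-side identity** `r • D_ls G = D_r (D_ls H₁)`. -/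
theorem depl_eq_of_eigen (hr : r.Prime) (hrM : r ∣ M₁) (hN₀ : N₀ = M₁ * r)
    {G : CuspForm (Gamma0 N₀) 2} (hG : G.IsNormalizedEigenform) (hGr : qCoeff G r = 0)
    {H₁ : CuspForm (Gamma0 M₁) 2} (hH : H₁.IsNormalizedEigenform)
    (hHG : ∀ ℓ : ℕ, ℓ.Prime → ¬ ℓ ∣ N₀ → qCoeff H₁ ℓ = qCoeff G ℓ)
    (ls : List ℕ) (hls : ∀ ℓ ∈ ls, ℓ.Prime ∧ ℓ ∣ M₁)
    (hcover : ∀ p : ℕ, p.Prime → p ∣ N₀ → p ∈ ls ∨ p = r)
    {M'' N'' : ℕ} [NeZero M''] (hM'' : M'' = M₁ * ls.prod) (hN''G : N'' = N₀ * ls.prod)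
    (hN''H : N'' = M'' * r) (hrM'' : r ∣ M'') :
    (r : ℂ) • deplFormList ls (hls_of_dvd (hN₀ ▸ Dvd.intro r rfl) hls) hN''G G
      = castForm hN''H (deplForm hr hrM'' (deplFormList ls hls hM'' H₁)) := by
  have hMN : M₁ ∣ N₀ := hN₀ ▸ Dvd.intro r rfl
  have hrN : r ∣ N₀ := hrM.trans hMN
  apply DFunLike.coe_injective
  have hL : NiceAtInfty (⇑((r : ℂ) • deplFormList ls (hls_of_dvd hMN hls) hN''G G) : ℍ → ℂ) :=
    niceAtInfty_cuspForm _
  have hR : NiceAtInfty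
      (⇑(castForm hN''H (deplForm hr hrM'' (deplFormList ls hls hM'' H₁))) : ℍ → ℂ) :=
    niceAtInfty_cuspForm _
  refine NiceAtInfty.ext_qCoeff hL hR fun n => ?_
  have e1 : (⇑((r : ℂ) • deplFormList ls (hls_of_dvd hMN hls) hN''G G) : ℍ → ℂ)
      = (r : ℂ) • ⇑(deplFormList ls (hls_of_dvd hMN hls) hN''G G) := rfl
  rw [e1, NiceAtInfty.qCoeff_smul _ (niceAtInfty_cuspForm _), qCoeff_deplFormList,
    coe_castForm, qCoeff_deplForm, qCoeff_deplFormList]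
  by_cases h1 : ∃ ℓ ∈ ls, ℓ ∣ n
  · simp only [h1, ↓reduceIte, mul_zero, ite_self]
  · simp only [h1, ↓reduceIte]
    by_cases h2 : r ∣ n
    · simp only [h2, ↓reduceIte]
      obtain ⟨m, rfl⟩ := h2
      have h0 : qCoeff (⇑G) (r * m) = 0 := qCoeff_prime_mul_eq_zero hG hr hrN hGr m
      rw [h0, mul_zero, mul_zero]
    · simp only [h2, ↓reduceIte]
      have hn : n ≠ 0 := by
        rintro rfl
        exact h2 (dvd_zero r)
      have hcop : n.Coprime N₀ := by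
        refine Nat.coprime_of_dvd fun p hp hpn hpN => ?_
        rcases hcover p hp hpN with hm | rfl
        · exact h1 ⟨p, hm, hpn⟩
        · exact h2 hpn
      have key : qCoeff (⇑H₁) n = qCoeff (⇑G) n :=
        qCoeff_eq_of_coprime hH hG N₀ (fun p _ hpM => hpM.trans hMN) (fun p _ h => h) hHG n hn hcop
      rw [key]

/-- cast transport -/
theorem periodHomPair_castForm {N N' : ℕ} [NeZero N] [NeZero N'] (h : N' = N)
    (f g : CuspForm (Gamma0 N) 2) :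
    periodHomPair N' (castForm h f, castForm h g) = castOp h ℂ (periodHomPair N (f, g)) := by
  subst h
  rfl

/-- **The class-level identity** `r • D_ls X = D_r (D_ls y)` for
`X = periodHomPair (c₁ • G, c₂ • G)`, `y = periodHomPair (c₁ • H₁, c₂ • H₁)`. -/
theorem class_depl_eq (hr : r.Prime) (hrM : r ∣ M₁) (hN₀ : N₀ = M₁ * r)
    {G : CuspForm (Gamma0 N₀) 2} (hG : G.IsNormalizedEigenform) (hGr : qCoeff G r = 0)
    {H₁ : CuspForm (Gamma0 M₁) 2} (hH : H₁.IsNormalizedEigenform)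
    (hHG : ∀ ℓ : ℕ, ℓ.Prime → ¬ ℓ ∣ N₀ → qCoeff H₁ ℓ = qCoeff G ℓ)
    (ls : List ℕ) (hls : ∀ ℓ ∈ ls, ℓ.Prime ∧ ℓ ∣ M₁)
    (hcover : ∀ p : ℕ, p.Prime → p ∣ N₀ → p ∈ ls ∨ p = r)
    {M'' N'' : ℕ} [NeZero M''] [NeZero N''] (hM'' : M'' = M₁ * ls.prod)
    (hN''G : N'' = N₀ * ls.prod) (hN''H : N'' = M'' * r) (hrM'' : r ∣ M'') (c₁ c₂ : ℂ) :
    r • deplOpList ℂ ls (hls_of_dvd (hN₀ ▸ Dvd.intro r rfl) hls) hN''G
          (periodHomPair N₀ (c₁ • G, c₂ • G))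
      = castOp hN''H ℂ (deplOp hr hrM'' ℂ
          (deplOpList ℂ ls hls hM'' (periodHomPair M₁ (c₁ • H₁, c₂ • H₁)))) := by
  have hMN : M₁ ∣ N₀ := hN₀ ▸ Dvd.intro r rfl
  have key := depl_eq_of_eigen hr hrM hN₀ hG hGr hH hHG ls hls hcover hM'' hN''G hN''H hrM''
  have : NeZero (M'' * r) := ⟨Nat.mul_ne_zero (NeZero.ne M'') hr.ne_zero⟩
  rw [← periodHomPair_deplFormList ls hls hM'', ← periodHomPair_deplForm hr hrM'',
    ← periodHomPair_castForm hN''H, ← periodHomPair_deplFormList ls (hls_of_dvd hMN hls) hN''G,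
    ← Nat.cast_smul_eq_nsmul ℂ, ← map_smul]
  congr 1
  simp only [map_smul, Prod.smul_mk]
  rw [← key, smul_comm (r : ℂ) c₁, smul_comm (r : ℂ) c₂]

/-- the iterated depletion of a normalised eigenform is not zero -/
theorem deplFormList_ne_zero {N N' : ℕ} [NeZero N] {G : CuspForm (Gamma0 N) 2}
    (hG : G.IsNormalizedEigenform) (ls : List ℕ) (hls : ∀ ℓ ∈ ls, ℓ.Prime ∧ ℓ ∣ N)
    (h : N' = N * ls.prod) : deplFormList ls hls h G ≠ 0 := by
  intro h0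
  have h1 := qCoeff_deplFormList ls hls h G 1
  have hz : qCoeff (⇑(0 : CuspForm (Gamma0 N') 2)) 1 = 0 := by
    unfold qCoeff
    have e0 : (⇑(0 : CuspForm (Gamma0 N') 2) : ℍ → ℂ) = 0 := rfl
    rw [e0, qExpansion_zero]
    simp
  rw [h0, hz] at h1
  have h2 : ¬ ∃ ℓ ∈ ls, ℓ ∣ 1 := by
    rintro ⟨ℓ, hm, hd⟩
    exact (hls ℓ hm).1.one_lt.ne' (Nat.dvd_one.mp hd)
  rw [if_neg h2, hG.qCoeff_one, mul_one] at h1
  have h3 : ls.prod ≠ 0 := by
    rw [Ne, List.prod_eq_zero_iff]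
    intro hm
    exact (hls 0 hm).1.ne_zero rfl
  exact h3 (by exact_mod_cast h1.symm)

/-- **Nonvanishing of the depleted class.** -/
theorem deplOpList_periodHomPair_ne_zero {N N' : ℕ} [NeZero N] [NeZero N']
    {G : CuspForm (Gamma0 N) 2} (hG : G.IsNormalizedEigenform) (ls : List ℕ)
    (hls : ∀ ℓ ∈ ls, ℓ.Prime ∧ ℓ ∣ N) (h : N' = N * ls.prod) (c₁ c₂ : ℂ)
    (hX : periodHomPair N (c₁ • G, c₂ • G) ≠ 0) :
    deplOpList ℂ ls hls h (periodHomPair N (c₁ • G, c₂ • G)) ≠ 0 := by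
  rw [← periodHomPair_deplFormList ls hls h]
  intro h0
  have h1 := Fermat.Agent.S21_helper86.periodHomPair_injective N' (h0.trans (map_zero _).symm)
  rw [Prod.mk_eq_zero, map_smul, map_smul] at h1
  have hD := deplFormList_ne_zero hG ls hls h
  have hc₁ : c₁ = 0 := (smul_eq_zero.mp h1.1).resolve_right hD
  have hc₂ : c₂ = 0 := (smul_eq_zero.mp h1.2).resolve_right hD
  apply hX
  rw [hc₁, hc₂, zero_smul]
  exact map_zero _

/-- **B5 in hypothesis form.**  A class-level package at the depleted level `N''`: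
an element `φ''` of a `ℂ`-vector space `Hx` (the depleted class on the `Γ_H`-type group), additive
maps `R'' : Hx → Hom(Γ₀(N''), ℂ)` (the twist) and `Φ'' : Hom(Γ₀(N''), ℂ) → Hx` (twist back, trace,
`U_r`) with
* `hC1 : R'' φ'' = D_ls X` (the twist commutes with the depletion),
* `hC3 : Φ'' (R'' φ'') = κ • φ''`, `κ ≠ 0`  [(T2) and `U_r φ'' = a_r φ''`],
* `hC4 : Φ'' ∘ D_r = 0` on `Hom(Γ₀(M''), ℂ)`  [(T1) and `R_ν B_r = 0`],
where `X = periodHomPair (c₁ • G, c₂ • G) ≠ 0`, excludes that the good eigensystem of `G` occurs at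
level `M₁ = N₀ / r`. -/
theorem not_goodEigensystemOccursAt_of_package (hr : r.Prime) (hrM : r ∣ M₁) (hN₀ : N₀ = M₁ * r)
    {G : CuspForm (Gamma0 N₀) 2} (hG : G.IsNormalizedEigenform) (hGr : qCoeff G r = 0)
    (ls : List ℕ) (hls : ∀ ℓ ∈ ls, ℓ.Prime ∧ ℓ ∣ M₁)
    (hcover : ∀ p : ℕ, p.Prime → p ∣ N₀ → p ∈ ls ∨ p = r)
    {M'' N'' : ℕ} [NeZero M''] [NeZero N''] (hM'' : M'' = M₁ * ls.prod)
    (hN''G : N'' = N₀ * ls.prod) (hN''H : N'' = M'' * r) (hrM'' : r ∣ M'') (c₁ c₂ : ℂ)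
    (hX : periodHomPair N₀ (c₁ • G, c₂ • G) ≠ 0)
    {Hx : Type*} [AddCommGroup Hx] [Module ℂ Hx] (φ'' : Hx)
    (R'' : Hx →+ (Additive (Gamma0 N'') →+ ℂ)) (Φ'' : (Additive (Gamma0 N'') →+ ℂ) →+ Hx)
    (κ : ℂ) (hκ : κ ≠ 0)
    (hC1 : R'' φ'' = deplOpList ℂ ls (hls_of_dvd (hN₀ ▸ Dvd.intro r rfl) hls) hN''G
      (periodHomPair N₀ (c₁ • G, c₂ • G)))
    (hC3 : Φ'' (R'' φ'') = κ • φ'')
    (hC4 : ∀ y : Additive (Gamma0 M'') →+ ℂ, Φ'' (castOp hN''H ℂ (deplOp hr hrM'' ℂ y)) = 0) :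
    ¬ GoodEigensystemOccursAt G M₁ := by
  rintro ⟨H₁, hH, hHG⟩
  have hMN : M₁ ∣ N₀ := hN₀ ▸ Dvd.intro r rfl
  have key := class_depl_eq hr hrM hN₀ hG hGr hH hHG ls hls hcover hM'' hN''G hN''H hrM'' c₁ c₂
  have h1 := congrArg Φ'' key
  rw [hC4, map_nsmul, ← hC1, hC3, ← Nat.cast_smul_eq_nsmul ℂ, smul_smul] at h1
  have hrκ : (r : ℂ) * κ ≠ 0 := mul_ne_zero (by exact_mod_cast hr.ne_zero) hκ
  have hφ : φ'' = 0 := (smul_eq_zero.mp h1).resolve_left hrκ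
  have h2 := deplOpList_periodHomPair_ne_zero hG ls (hls_of_dvd hMN hls) hN''G c₁ c₂ hX
  apply h2
  rw [← hC1, hφ, map_zero]

end FormSide

end Fermat.Agent.GB.B5.Depl
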