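/-
GATE-B / B5 (helper8): the form side for a witness of ANY level `M_h ∣ M₁`, and the newform
corollary in frozen vocabulary.

`FormSide.lean` treats a witness `H₁` of level exactly `M₁ = N₀ / r`.  For the minimal-level
argument one needs every divisor `M ∣ M₁`.  Here the witness enters only through its coefficients:

* `depl_eq_of_coeff`, `class_depl_eq_of_coeff` : `H` ANY cusp form of level `M₁` with
  `a_n(H) = a_n(G)` for all `n ≠ 0` coprime to `N₀`;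
* `exists_coeff_witness` : `GoodEigensystemOccursAt G M`, `M ∣ M₁`, provides such an `H`
  (restriction of the witness to level `M₁` + the coefficient lemma `EigenCoeff`);
* `not_goodEigensystemOccursAt_of_package'` : the class-level package excludes EVERY `M ∣ M₁`;
* `exists_isNewform_factorization_two_of_package` : hence the newform companion of `G`
  (`GE/Mod/MinLevel`) has `r`-exponent exactly `2` — the hypothesis of the frozen `S36`.
-/
import Mathlib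
import Fermat.Agent.GB.B5.Depl.FormSide
import Fermat.Agent.DS.Glue.LevelGlue
import Fermat.Agent.GE.Mod.MinLevel

set_option autoImplicit false

open UpperHalfPlane hiding I
open ModularForm Complex Filter Topology CongruenceSubgroup
open scoped MatrixGroups ModularForm Manifold

namespace Fermat.Agent.GB.B5.Depl

open Fermat.Agent.S21_helper65 ModularCurve ModularCurve.Period
open Matrix.SpecialLinearGroup
open Fermat.Agent.GM.B
open Fermat.Agent.DS.N0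
open ModularFormClass CuspForm

section Gen

variable {M₁ N₀ r : ℕ} [NeZero M₁] [NeZero N₀]

/-- **The form-side identity, coefficient form**: `H` any cusp form of level `M₁` whose
coefficients at the indices coprime to `N₀` are those of `G`. -/
theorem depl_eq_of_coeff (hr : r.Prime) (hrM : r ∣ M₁) (hN₀ : N₀ = M₁ * r)
    {G : CuspForm (Gamma0 N₀) 2} (hG : G.IsNormalizedEigenform) (hGr : qCoeff G r = 0)
    (H : CuspForm (Gamma0 M₁) 2)
    (hcoeff : ∀ n : ℕ, n ≠ 0 → n.Coprime N₀ → qCoeff H n = qCoeff G n)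
    (ls : List ℕ) (hls : ∀ ℓ ∈ ls, ℓ.Prime ∧ ℓ ∣ M₁)
    (hcover : ∀ p : ℕ, p.Prime → p ∣ N₀ → p ∈ ls ∨ p = r)
    {M'' N'' : ℕ} [NeZero M''] (hM'' : M'' = M₁ * ls.prod) (hN''G : N'' = N₀ * ls.prod)
    (hN''H : N'' = M'' * r) (hrM'' : r ∣ M'') :
    (r : ℂ) • deplFormList ls (hls_of_dvd (hN₀ ▸ Dvd.intro r rfl) hls) hN''G G
      = castForm hN''H (deplForm hr hrM'' (deplFormList ls hls hM'' H)) := by
  have hMN : M₁ ∣ N₀ := hN₀ ▸ Dvd.intro r rfl
  have hrN : r ∣ N₀ := hrM.trans hMN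
  apply DFunLike.coe_injective
  have hL : NiceAtInfty (⇑((r : ℂ) • deplFormList ls (hls_of_dvd hMN hls) hN''G G) : ℍ → ℂ) :=
    niceAtInfty_cuspForm _
  have hR : NiceAtInfty
      (⇑(castForm hN''H (deplForm hr hrM'' (deplFormList ls hls hM'' H))) : ℍ → ℂ) :=
    niceAtInfty_cuspForm _
  refine NiceAtInfty.ext_qCoeff hL hR fun n => ?_
  have e1 : (⇑((r : ℂ) • deplFormList ls (hls_of_dvd hMN hls) hN''G G) : ℍ → ℂ)
      = (r : ℂ) • ⇑(deplFormList ls (hls_of_dvd hMN hls) hN''G G) := rfl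
  rw [e1, NiceAtInfty.qCoeff_smul _ (niceAtInfty_cuspForm _), qCoeff_deplFormList,
    coe_castForm, qCoeff_deplForm, qCoeff_deplFormList]
  by_cases h1 : ∃ ℓ ∈ ls, ℓ ∣ n
  · simp only [h1, ↓reduceIte, mul_zero, ite_self]
  · simp only [h1, ↓reduceIte]
    by_cases h2 : r ∣ n
    · simp only [h2, ↓reduceIte]
      obtain ⟨m, rfl⟩ := h2
      have h0 : qCoeff (⇑G) (r * m) = 0 := qCoeff_prime_mul_eq_zero hG hr hrN hGr m
      rw [h0, mul_zero, mul_zero]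
    · simp only [h2, ↓reduceIte]
      have hn : n ≠ 0 := by
        rintro rfl
        exact h2 (dvd_zero r)
      have hcop : n.Coprime N₀ := by
        refine Nat.coprime_of_dvd fun p hp hpn hpN => ?_
        rcases hcover p hp hpN with hm | rfl
        · exact h1 ⟨p, hm, hpn⟩
        · exact h2 hpn
      rw [hcoeff n hn hcop]

/-- **The class-level identity, coefficient form.** -/
theorem class_depl_eq_of_coeff (hr : r.Prime) (hrM : r ∣ M₁) (hN₀ : N₀ = M₁ * r)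
    {G : CuspForm (Gamma0 N₀) 2} (hG : G.IsNormalizedEigenform) (hGr : qCoeff G r = 0)
    (H : CuspForm (Gamma0 M₁) 2)
    (hcoeff : ∀ n : ℕ, n ≠ 0 → n.Coprime N₀ → qCoeff H n = qCoeff G n)
    (ls : List ℕ) (hls : ∀ ℓ ∈ ls, ℓ.Prime ∧ ℓ ∣ M₁)
    (hcover : ∀ p : ℕ, p.Prime → p ∣ N₀ → p ∈ ls ∨ p = r)
    {M'' N'' : ℕ} [NeZero M''] [NeZero N''] (hM'' : M'' = M₁ * ls.prod)
    (hN''G : N'' = N₀ * ls.prod) (hN''H : N'' = M'' * r) (hrM'' : r ∣ M'') (c₁ c₂ : ℂ) :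
    r • deplOpList ℂ ls (hls_of_dvd (hN₀ ▸ Dvd.intro r rfl) hls) hN''G
          (periodHomPair N₀ (c₁ • G, c₂ • G))
      = castOp hN''H ℂ (deplOp hr hrM'' ℂ
          (deplOpList ℂ ls hls hM'' (periodHomPair M₁ (c₁ • H, c₂ • H)))) := by
  have hMN : M₁ ∣ N₀ := hN₀ ▸ Dvd.intro r rfl
  have key := depl_eq_of_coeff hr hrM hN₀ hG hGr H hcoeff ls hls hcover hM'' hN''G hN''H hrM''
  have : NeZero (M'' * r) := ⟨Nat.mul_ne_zero (NeZero.ne M'') hr.ne_zero⟩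
  rw [← periodHomPair_deplFormList ls hls hM'', ← periodHomPair_deplForm hr hrM'',
    ← periodHomPair_castForm hN''H, ← periodHomPair_deplFormList ls (hls_of_dvd hMN hls) hN''G,
    ← Nat.cast_smul_eq_nsmul ℂ, ← map_smul]
  congr 1
  simp only [map_smul, Prod.smul_mk]
  rw [← key, smul_comm (r : ℂ) c₁, smul_comm (r : ℂ) c₂]

theorem Gamma0_le_Gamma0_of_dvd {M N : ℕ} (h : M ∣ N) : Gamma0 N ≤ Gamma0 M := by
  intro g hg
  rw [Gamma0_mem] at hg ⊢
  rw [ZMod.intCast_zmod_eq_zero_iff_dvd] at hg ⊢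
  exact (Int.natCast_dvd_natCast.mpr h).trans hg

/-- a witness of `GoodEigensystemOccursAt G M`, `M ∣ M₁ ∣ N₀`, gives a cusp form of level `M₁` with
the coefficients of `G` at all indices coprime to `N₀` -/
theorem exists_coeff_witness {M : ℕ} (hMM : M ∣ M₁) (hMN : M₁ ∣ N₀)
    {G : CuspForm (Gamma0 N₀) 2} (hG : G.IsNormalizedEigenform)
    (h : GoodEigensystemOccursAt G M) :
    ∃ H : CuspForm (Gamma0 M₁) 2,
      ∀ n : ℕ, n ≠ 0 → n.Coprime N₀ → qCoeff H n = qCoeff G n := by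
  obtain ⟨H₁, hH, hHG⟩ := h
  refine ⟨Fermat.Agent.DS.Glue.cfRestrict
    (Subgroup.map_mono (Gamma0_le_Gamma0_of_dvd hMM)) H₁, fun n hn hcop => ?_⟩
  rw [Fermat.Agent.DS.Glue.coe_cfRestrict]
  exact qCoeff_eq_of_coprime hH hG N₀ (fun p _ hpM => (hpM.trans hMM).trans hMN)
    (fun p _ h => h) hHG n hn hcop

/-- **B5 in hypothesis form, every divisor**: the class-level package excludes that the good
eigensystem of `G` occurs at ANY level `M ∣ M₁ = N₀ / r`. -/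
theorem not_goodEigensystemOccursAt_of_package' (hr : r.Prime) (hrM : r ∣ M₁)
    (hN₀ : N₀ = M₁ * r)
    {G : CuspForm (Gamma0 N₀) 2} (hG : G.IsNormalizedEigenform) (hGr : qCoeff G r = 0)
    (ls : List ℕ) (hls : ∀ ℓ ∈ ls, ℓ.Prime ∧ ℓ ∣ M₁)
    (hcover : ∀ p : ℕ, p.Prime → p ∣ N₀ → p ∈ ls ∨ p = r)
    {M'' N'' : ℕ} [NeZero M''] [NeZero N''] (hM'' : M'' = M₁ * ls.prod)
    (hN''G : N'' = N₀ * ls.prod) (hN''H : N'' = M'' * r) (hrM'' : r ∣ M'') (c₁ c₂ : ℂ)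
    (hX : periodHomPair N₀ (c₁ • G, c₂ • G) ≠ 0)
    {Hx : Type*} [AddCommGroup Hx] [Module ℂ Hx] (φ'' : Hx)
    (R'' : Hx →+ (Additive (Gamma0 N'') →+ ℂ)) (Φ'' : (Additive (Gamma0 N'') →+ ℂ) →+ Hx)
    (κ : ℂ) (hκ : κ ≠ 0)
    (hC1 : R'' φ'' = deplOpList ℂ ls (hls_of_dvd (hN₀ ▸ Dvd.intro r rfl) hls) hN''G
      (periodHomPair N₀ (c₁ • G, c₂ • G)))
    (hC3 : Φ'' (R'' φ'') = κ • φ'')
    (hC4 : ∀ y : Additive (Gamma0 M'') →+ ℂ, Φ'' (castOp hN''H ℂ (deplOp hr hrM'' ℂ y)) = 0)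
    (M : ℕ) (hMM : M ∣ M₁) : ¬ GoodEigensystemOccursAt G M := by
  intro hocc
  have hMN : M₁ ∣ N₀ := hN₀ ▸ Dvd.intro r rfl
  obtain ⟨H, hcoeff⟩ := exists_coeff_witness hMM hMN hG hocc
  have key := class_depl_eq_of_coeff hr hrM hN₀ hG hGr H hcoeff ls hls hcover hM'' hN''G hN''H
    hrM'' c₁ c₂
  have h1 := congrArg Φ'' key
  rw [hC4, map_nsmul, ← hC1, hC3, ← Nat.cast_smul_eq_nsmul ℂ, smul_smul] at h1
  have hrκ : (r : ℂ) * κ ≠ 0 := mul_ne_zero (by exact_mod_cast hr.ne_zero) hκ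
  have hφ : φ'' = 0 := (smul_eq_zero.mp h1).resolve_left hrκ
  have h2 := deplOpList_periodHomPair_ne_zero hG ls (hls_of_dvd hMN hls) hN''G c₁ c₂ hX
  apply h2
  rw [← hC1, hφ, map_zero]

/-- arithmetic: a divisor `M` of `M₁ * r` with `r ∣ M₁` and `¬ r² ∣ M` divides `M₁` -/
theorem dvd_of_dvd_mul_prime_of_not_sq_dvd {M M₁ r : ℕ} (hr : r.Prime) (hM₁ : M₁ ≠ 0)
    (hrM : r ∣ M₁) (hM : M ∣ M₁ * r) (hsq : ¬ r ^ 2 ∣ M) : M ∣ M₁ := by
  have hM0 : M ≠ 0 := by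
    rintro rfl
    exact hsq (dvd_zero _)
  rw [← Nat.factorization_le_iff_dvd hM0 hM₁]
  intro p
  have h1 := (Nat.factorization_le_iff_dvd hM0 (Nat.mul_ne_zero hM₁ hr.ne_zero)).mpr hM p
  rw [Nat.factorization_mul hM₁ hr.ne_zero, Finsupp.add_apply, hr.factorization,
    Finsupp.single_apply] at h1
  by_cases hp : r = p
  · subst hp
    have h2 : M.factorization r < 2 := by
      by_contra hge
      exact hsq ((hr.pow_dvd_iff_le_factorization hM0).mpr (not_lt.mp hge))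
    have h3 : 1 ≤ M₁.factorization r :=
      (hr.pow_dvd_iff_le_factorization hM₁).mp (by simpa using hrM)
    omega
  · rw [if_neg hp, add_zero] at h1
    exact h1

/-- **B5, newform form** (frozen vocabulary): under the class-level package, the newform companion
of `G` has `r`-exponent exactly `2` in its level — the hypothesis `M.factorization q = 2` of the
frozen `S36`. -/
theorem exists_isNewform_factorization_two_of_package (hr : r.Prime) (hrM : r ∣ M₁)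
    (hN₀ : N₀ = M₁ * r) (hfac : N₀.factorization r = 2)
    {G : CuspForm (Gamma0 N₀) 2} (hG : G.IsNormalizedEigenform) (hGr : qCoeff G r = 0)
    (ls : List ℕ) (hls : ∀ ℓ ∈ ls, ℓ.Prime ∧ ℓ ∣ M₁)
    (hcover : ∀ p : ℕ, p.Prime → p ∣ N₀ → p ∈ ls ∨ p = r)
    {M'' N'' : ℕ} [NeZero M''] [NeZero N''] (hM'' : M'' = M₁ * ls.prod)
    (hN''G : N'' = N₀ * ls.prod) (hN''H : N'' = M'' * r) (hrM'' : r ∣ M'') (c₁ c₂ : ℂ)
    (hX : periodHomPair N₀ (c₁ • G, c₂ • G) ≠ 0)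
    {Hx : Type*} [AddCommGroup Hx] [Module ℂ Hx] (φ'' : Hx)
    (R'' : Hx →+ (Additive (Gamma0 N'') →+ ℂ)) (Φ'' : (Additive (Gamma0 N'') →+ ℂ) →+ Hx)
    (κ : ℂ) (hκ : κ ≠ 0)
    (hC1 : R'' φ'' = deplOpList ℂ ls (hls_of_dvd (hN₀ ▸ Dvd.intro r rfl) hls) hN''G
      (periodHomPair N₀ (c₁ • G, c₂ • G)))
    (hC3 : Φ'' (R'' φ'') = κ • φ'')
    (hC4 : ∀ y : Additive (Gamma0 M'') →+ ℂ, Φ'' (castOp hN''H ℂ (deplOp hr hrM'' ℂ y)) = 0) :
    ∃ M : ℕ, M ∣ N₀ ∧ ∃ h : CuspForm (Gamma0 M) 2, h.IsNewform ∧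
      (∀ ℓ : ℕ, ℓ.Prime → ¬ ℓ ∣ N₀ → qCoeff h ℓ = qCoeff G ℓ) ∧ M.factorization r = 2 := by
  obtain ⟨M, hMN, h, hnew, hcoef⟩ :=
    Fermat.Agent.GE.Mod.MinLevel.exists_isNewform_of_isNormalizedEigenform hG
  refine ⟨M, hMN, h, hnew, hcoef, ?_⟩
  have hN0 : N₀ ≠ 0 := NeZero.ne N₀
  have hM0 : M ≠ 0 := by
    rintro rfl
    exact hN0 (Nat.eq_zero_of_zero_dvd hMN)
  have hsq : r ^ 2 ∣ M := by
    by_contra hsq
    have hMM : M ∣ M₁ :=
      dvd_of_dvd_mul_prime_of_not_sq_dvd hr (NeZero.ne M₁) hrM (hN₀ ▸ hMN) hsq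
    exact not_goodEigensystemOccursAt_of_package' hr hrM hN₀ hG hGr ls hls hcover hM'' hN''G hN''H
      hrM'' c₁ c₂ hX φ'' R'' Φ'' κ hκ hC1 hC3 hC4 M hMM ⟨h, hnew.1, hcoef⟩
  have h1 : 2 ≤ M.factorization r := (hr.pow_dvd_iff_le_factorization hM0).mp hsq
  have h2 : M.factorization r ≤ N₀.factorization r :=
    (Nat.factorization_le_iff_dvd hM0 hN0).mpr hMN r
  omega

end Gen

end Fermat.Agent.GB.B5.Depl
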