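/-
GATE-B / B5 (helper8): **B5 — THE ASSEMBLY.**

`r` prime, `r ∤ N`; `θ : (ZMod (N r))ˣ →* Δ`; `φ` a class on `Γ_H(N r)`, eigenvector of the
conjugations (`ConjEigen θ E φ`) whose character at `r` is not trivial (`∑ ε = 0`), with
`U_r φ = a φ`, `a ≠ 0`; `G` a normalised eigenform of level `N r²` with `a_r(G) = 0` whose class
`X = periodHomPair (c₁ G, c₂ G) ≠ 0` restricts to the `ν⁻¹`-twist of `φ` on `Γ_H(N r²)`:
`res X = R_{ν⁻¹} φ`.  Then

* `not_goodEigensystemOccursAt_of_twist` : the good eigensystem of `G` does not occur at any level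
  `M ∣ N r`;
* `exists_isNewform_factorization_two_of_twist` : the newform companion of `G` has `r`-exponent
  exactly `2` (the hypothesis of the frozen `S36`).

Route: deplete `X` and `φ` at all primes of `N` (`twRel_list`: the relation `res X = R φ` is
preserved; helper65's `DeplComm`: so are the eigen-properties), compare the depleted `X` with the
depleted class of a form of level `N r` (`FormSideGen.class_depl_eq_of_coeff`) and apply the core
`B5Core.eq_zero_of_smul_eq_deplOp_generic` (helper65's `PhiH_of_twist`/`PhiH_depl`).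
-/
import Mathlib
import Fermat.Agent.GB.B5.Depl.B5Core
import Fermat.Agent.GB.B5.Depl.FormSideGen

set_option autoImplicit false

open scoped MatrixGroups
open CongruenceSubgroup Matrix Matrix.SpecialLinearGroup ModularCurve ModularCurve.Period
open Fermat.Agent.GM.B
open Fermat.Agent.GB.B3 Fermat.Agent.GB.B3.EisGamma0 Fermat.Agent.GB.B3.GamH
open Fermat.Agent.GB.B4.Twist Fermat.Agent.GB.B4.Twist.RPsi
open Fermat.Agent.GB.B5.Betti
open ModularFormClass CuspForm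

namespace Fermat.Agent.GB.B5.Depl

section OfCore

variable {M₁ N₀ r : ℕ} [NeZero M₁] [NeZero N₀]

/-- **B5 in core form, every divisor**: if the depleted class `D_ls X` can only be (`1/r` times)
an `r`-depletion of a class of level `M''` when it vanishes, the good eigensystem of `G` does not
occur at any level `M ∣ M₁ = N₀ / r`. -/
theorem not_goodEigensystemOccursAt_of_core (hr : r.Prime) (hrM : r ∣ M₁) (hN₀ : N₀ = M₁ * r)
    {G : CuspForm (Gamma0 N₀) 2} (hG : G.IsNormalizedEigenform) (hGr : qCoeff G r = 0)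
    (ls : List ℕ) (hls : ∀ ℓ ∈ ls, ℓ.Prime ∧ ℓ ∣ M₁)
    (hcover : ∀ p : ℕ, p.Prime → p ∣ N₀ → p ∈ ls ∨ p = r)
    {M'' N'' : ℕ} [NeZero M''] [NeZero N''] (hM'' : M'' = M₁ * ls.prod)
    (hN''G : N'' = N₀ * ls.prod) (hN''H : N'' = M'' * r) (hrM'' : r ∣ M'') (c₁ c₂ : ℂ)
    (hX : periodHomPair N₀ (c₁ • G, c₂ • G) ≠ 0)
    (hcore : ∀ y : Additive (Gamma0 M'') →+ ℂ,
      r • deplOpList ℂ ls (hls_of_dvd (hN₀ ▸ Dvd.intro r rfl) hls) hN''G
          (periodHomPair N₀ (c₁ • G, c₂ • G)) = castOp hN''H ℂ (deplOp hr hrM'' ℂ y) →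
      deplOpList ℂ ls (hls_of_dvd (hN₀ ▸ Dvd.intro r rfl) hls) hN''G
          (periodHomPair N₀ (c₁ • G, c₂ • G)) = 0)
    (M : ℕ) (hMM : M ∣ M₁) : ¬ GoodEigensystemOccursAt G M := by
  intro hocc
  have hMN : M₁ ∣ N₀ := hN₀ ▸ Dvd.intro r rfl
  obtain ⟨H, hcoeff⟩ := exists_coeff_witness hMM hMN hG hocc
  have key := class_depl_eq_of_coeff hr hrM hN₀ hG hGr H hcoeff ls hls hcover hM'' hN''G hN''H
    hrM'' c₁ c₂
  exact deplOpList_periodHomPair_ne_zero hG ls (hls_of_dvd hMN hls) hN''G c₁ c₂ hX (hcore _ key)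

end OfCore

section Final

variable {N r : ℕ} [Fact r.Prime] [NeZero N] [NeZero (N * r)] [NeZero (N * r * r)]
  {Δ : Type} [CommGroup Δ]

/-- **B5.**  The good eigensystem of the twisted eigenform `G` (level `N r²`, class restricting to
the `ν⁻¹`-twist of the eigenclass `φ` on `Γ_H(N r)`) does not occur at any level `M ∣ N r`. -/
theorem not_goodEigensystemOccursAt_of_twist (hrN : ¬ r ∣ N) (θ : (ZMod (N * r))ˣ →* Δ)
    (hθ : InvStable N r θ) (ν : MulChar (ZMod r) ℂ) (hν1 : ν ≠ 1)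
    (hν : ∀ g : GammaH (liftθ (r := r) θ), ν (dr r (g : SL(2, ℤ))) ^ 2 = 1)
    (hν' : ∀ g : GammaH (liftθ (r := r) θ), ν⁻¹ (dr r (g : SL(2, ℤ))) ^ 2 = 1)
    (E : Δ → ℂ) (ε : (ZMod r)ˣ → ℂ) (hε : ∑ u, ε u = 0)
    (hEε : ∀ v : (ZMod (N * r))ˣ, ZMod.unitsMap (Nat.dvd_mul_right N r) v = 1 →
      E (θ v) = ε (ZMod.unitsMap (Nat.dvd_mul_left r N) v))
    (φ : Additive (GammaH θ) →+ ℂ) (hφ : ConjEigen θ E φ)
    (a : ℂ) (ha0 : a ≠ 0) (ha : UH θ ℂ (Nat.dvd_mul_left r N) φ = a • φ)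
    {G : CuspForm (Gamma0 (N * r * r)) 2} (hG : G.IsNormalizedEigenform) (hGr : qCoeff G r = 0)
    (c₁ c₂ : ℂ) (hX0 : periodHomPair (N * r * r) (c₁ • G, c₂ • G) ≠ 0)
    (hX : resH (liftθ (r := r) θ) ℂ (periodHomPair (N * r * r) (c₁ • G, c₂ • G))
      = Rpsi θ (Nat.dvd_mul_left r N) ν⁻¹ hν' φ)
    (M : ℕ) (hM : M ∣ N * r) : ¬ GoodEigensystemOccursAt G M := by
  have hr : r.Prime := Fact.out
  have hN0 : N ≠ 0 := NeZero.ne N
  -- the list of the primes of `N`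
  obtain ⟨ls, hls_def⟩ : ∃ ls : List ℕ, ls = N.primeFactorsList := ⟨_, rfl⟩
  have hlsN : ∀ ℓ ∈ ls, ℓ.Prime ∧ ℓ ∣ N := fun ℓ h => by
    rw [hls_def] at h
    exact ⟨Nat.prime_of_mem_primeFactorsList h, Nat.dvd_of_mem_primeFactorsList h⟩
  have hls : ∀ ℓ ∈ ls, ℓ.Prime ∧ ℓ ∣ N * r := fun ℓ h =>
    ⟨(hlsN ℓ h).1, (hlsN ℓ h).2.mul_right r⟩
  have hprod : ls.prod = N := by rw [hls_def]; exact Nat.prod_primeFactorsList hN0
  have hcover : ∀ p : ℕ, p.Prime → p ∣ N * r * r → p ∈ ls ∨ p = r := by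
    intro p hp hd
    rcases hp.dvd_mul.mp hd with h | h
    · rcases hp.dvd_mul.mp h with h | h
      · left
        rw [hls_def]
        exact (Nat.mem_primeFactorsList hN0).mpr ⟨hp, h⟩
      · right
        exact (Nat.prime_dvd_prime_iff_eq hp hr).mp h
    · right
      exact (Nat.prime_dvd_prime_iff_eq hp hr).mp h
  have hcop : ∀ ℓ ∈ ls, Nat.Coprime r ℓ := by
    intro ℓ h
    rw [Nat.coprime_primes hr (hlsN ℓ h).1]
    rintro rfl
    exact hrN (hlsN r h).2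
  -- the levels
  have hM'' : lvl (N * r) ls = N * r * ls.prod := lvl_eq _ _
  have hN''G : lvl (N * r) ls * r = N * r * r * ls.prod := by rw [hM'']; ring
  have hMd : lvl (N * r) ls = N * ls.prod * r := by rw [hM'']; ring
  have hrM'' : r ∣ lvl (N * r) ls := (Nat.dvd_mul_left r N).trans (dvd_lvl _ _)
  have hrNd : ¬ r ∣ N * ls.prod := by
    rw [hprod]
    intro h
    rcases hr.dvd_mul.mp h with h | h <;> exact hrN h
  have : NeZero (N * ls.prod) := ⟨by rw [hprod]; exact Nat.mul_ne_zero hN0 hN0⟩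
  have : NeZero (lvl (N * r) ls) := ⟨by
    rw [hMd]; exact Nat.mul_ne_zero (NeZero.ne _) hr.ne_zero⟩
  have : NeZero (lvl (N * r) ls * r) := ⟨Nat.mul_ne_zero (NeZero.ne _) hr.ne_zero⟩
  refine not_goodEigensystemOccursAt_of_core (M₁ := N * r) (N₀ := N * r * r) hr
    (Nat.dvd_mul_left r N) rfl hG hGr ls hls hcover (M'' := lvl (N * r) ls)
    (N'' := lvl (N * r) ls * r) hM'' hN''G rfl hrM'' c₁ c₂ hX0 ?_ M hM
  intro y hy
  have hdvd : N * r ∣ lvl (N * r) ls := dvd_lvl _ _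
  -- the hypotheses at the depleted level
  have hθ'' : InvStableG (N * ls.prod) r (liftL (N * r) θ ls) := by
    rw [liftL_eq]
    exact invStableG_comp θ hθ _ (Dvd.intro _ rfl)
  have hEε'' : ∀ (hd : N * ls.prod ∣ lvl (N * r) ls) (v : (ZMod (lvl (N * r) ls))ˣ),
      ZMod.unitsMap hd v = 1 → E (liftL (N * r) θ ls v) = ε (ZMod.unitsMap hrM'' v) := by
    intro hd v hv
    rw [liftL_eq, MonoidHom.comp_apply, hEε]
    · have a1 := DFunLike.congr_fun (ZMod.unitsMap_comp (Nat.dvd_mul_left r N) hdvd) v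
      rw [MonoidHom.comp_apply] at a1
      rw [a1]
    · have a1 := DFunLike.congr_fun (ZMod.unitsMap_comp (Nat.dvd_mul_right N r) hdvd) v
      have a2 := DFunLike.congr_fun
        (ZMod.unitsMap_comp (Dvd.intro _ rfl : N ∣ N * ls.prod) hd) v
      rw [MonoidHom.comp_apply] at a1 a2
      rw [a1, ← a2, hv, map_one]
  have hφ'' := deplOpHList_conjEigen ls θ hls E φ hφ
  have ha'' := deplOpHList_UH_eigen ls θ hls (Nat.dvd_mul_left r N) hcop φ a ha
  have hX'' := twRel_list ν⁻¹ ls (rfl : N * r * r = N * r * r)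
    hls (hls_of_dvd (Dvd.intro r rfl) hls) hN''G θ (Nat.dvd_mul_left r N) hν'
    (periodHomPair (N * r * r) (c₁ • G, c₂ • G)) φ
    ((twRel_iff θ (Nat.dvd_mul_left r N) ν⁻¹ hν' _ φ).mpr hX)
  exact eq_zero_of_smul_eq_deplOp_generic (Nd := N * ls.prod) hrNd hMd rfl hrM''
    (liftL (N * r) θ ls) hθ'' ν hν1 (hψ_liftL ν ls θ hν) (hψ_liftL ν⁻¹ ls θ hν') E ε hε hEε''
    _ hφ'' a ha0 ha'' _ hX'' y hy

/-- **B5, newform form** (frozen vocabulary): the newform companion of the twisted eigenform `G`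
has `r`-exponent exactly `2` in its level — the hypothesis `M.factorization q = 2` of the frozen
`S36`. -/
theorem exists_isNewform_factorization_two_of_twist (hrN : ¬ r ∣ N)
    (θ : (ZMod (N * r))ˣ →* Δ)
    (hθ : InvStable N r θ) (ν : MulChar (ZMod r) ℂ) (hν1 : ν ≠ 1)
    (hν : ∀ g : GammaH (liftθ (r := r) θ), ν (dr r (g : SL(2, ℤ))) ^ 2 = 1)
    (hν' : ∀ g : GammaH (liftθ (r := r) θ), ν⁻¹ (dr r (g : SL(2, ℤ))) ^ 2 = 1)
    (E : Δ → ℂ) (ε : (ZMod r)ˣ → ℂ) (hε : ∑ u, ε u = 0)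
    (hEε : ∀ v : (ZMod (N * r))ˣ, ZMod.unitsMap (Nat.dvd_mul_right N r) v = 1 →
      E (θ v) = ε (ZMod.unitsMap (Nat.dvd_mul_left r N) v))
    (φ : Additive (GammaH θ) →+ ℂ) (hφ : ConjEigen θ E φ)
    (a : ℂ) (ha0 : a ≠ 0) (ha : UH θ ℂ (Nat.dvd_mul_left r N) φ = a • φ)
    {G : CuspForm (Gamma0 (N * r * r)) 2} (hG : G.IsNormalizedEigenform) (hGr : qCoeff G r = 0)
    (c₁ c₂ : ℂ) (hX0 : periodHomPair (N * r * r) (c₁ • G, c₂ • G) ≠ 0)
    (hX : resH (liftθ (r := r) θ) ℂ (periodHomPair (N * r * r) (c₁ • G, c₂ • G))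
      = Rpsi θ (Nat.dvd_mul_left r N) ν⁻¹ hν' φ) :
    ∃ M : ℕ, M ∣ N * r * r ∧ ∃ h : CuspForm (Gamma0 M) 2, h.IsNewform ∧
      (∀ ℓ : ℕ, ℓ.Prime → ¬ ℓ ∣ N * r * r → qCoeff h ℓ = qCoeff G ℓ) ∧
      M.factorization r = 2 := by
  have hr : r.Prime := Fact.out
  have hN0 : N ≠ 0 := NeZero.ne N
  obtain ⟨M, hMN, h, hnew, hcoef⟩ :=
    Fermat.Agent.GE.Mod.MinLevel.exists_isNewform_of_isNormalizedEigenform hG
  refine ⟨M, hMN, h, hnew, hcoef, ?_⟩
  have hN₀0 : N * r * r ≠ 0 := NeZero.ne _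
  have hM0 : M ≠ 0 := by
    rintro rfl
    exact hN₀0 (Nat.eq_zero_of_zero_dvd hMN)
  have hsq : r ^ 2 ∣ M := by
    by_contra hsq
    have hMM : M ∣ N * r :=
      dvd_of_dvd_mul_prime_of_not_sq_dvd hr (NeZero.ne (N * r)) (Nat.dvd_mul_left r N) hMN hsq
    exact not_goodEigensystemOccursAt_of_twist hrN θ hθ ν hν1 hν hν' E ε hε hEε φ hφ a ha0 ha hG
      hGr c₁ c₂ hX0 hX M hMM ⟨h, hnew.1, hcoef⟩
  have h1 : 2 ≤ M.factorization r := (hr.pow_dvd_iff_le_factorization hM0).mp hsq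
  have h2 : M.factorization r ≤ (N * r * r).factorization r :=
    (Nat.factorization_le_iff_dvd hM0 hN₀0).mpr hMN r
  have h3 : (N * r * r).factorization r = 2 := by
    rw [Nat.factorization_mul (Nat.mul_ne_zero hN0 hr.ne_zero) hr.ne_zero,
      Nat.factorization_mul hN0 hr.ne_zero, Finsupp.add_apply, Finsupp.add_apply,
      hr.factorization, Finsupp.single_apply, if_pos rfl,
      Nat.factorization_eq_zero_of_not_dvd hrN]
  omega

end Final

end Fermat.Agent.GB.B5.Depl
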