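/-
GATE-B / B5 (helper8): **B5 with the levels as VARIABLES** — for consumers whose levels are not
syntactically `N * r`, `N * r * r` (e.g. `Chain.chainLevel`).

`M₀ = N * r` is the level of the class `φ` on `Γ_H`, `N₀' = M₀ * r` the level of the eigenform `G`;
all hypotheses are in level-generic form (`InvStableG`, `TwRel`), and the two theorems are
`B5Final.not_goodEigensystemOccursAt_of_twist` / `exists_isNewform_factorization_two_of_twist`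
after `subst`.
-/
import Mathlib
import Fermat.Agent.GB.B5.Depl.B5Final

set_option autoImplicit false

open scoped MatrixGroups
open CongruenceSubgroup Matrix Matrix.SpecialLinearGroup ModularCurve ModularCurve.Period
open Fermat.Agent.GM.B
open Fermat.Agent.GB.B3 Fermat.Agent.GB.B3.EisGamma0 Fermat.Agent.GB.B3.GamH
open Fermat.Agent.GB.B4.Twist Fermat.Agent.GB.B4.Twist.RPsi
open Fermat.Agent.GB.B5.Betti
open ModularFormClass CuspForm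

namespace Fermat.Agent.GB.B5.Depl

variable {N r M₀ N₀' : ℕ} [Fact r.Prime] [NeZero N] [NeZero M₀] [NeZero N₀']
  {Δ : Type} [CommGroup Δ]

/-- **B5, level-generic form.** -/
theorem not_goodEigensystemOccursAt_of_twRel (hrN : ¬ r ∣ N) (hM₀ : M₀ = N * r)
    (hN₀' : N₀' = M₀ * r) (hrM₀ : r ∣ M₀) (θ : (ZMod M₀)ˣ →* Δ) (hθ : InvStableG N r θ)
    (ν : MulChar (ZMod r) ℂ) (hν1 : ν ≠ 1)
    (hν : ∀ g : GammaH (liftθ (r := r) θ), ν (dr r (g : SL(2, ℤ))) ^ 2 = 1)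
    (hν' : ∀ g : GammaH (liftθ (r := r) θ), ν⁻¹ (dr r (g : SL(2, ℤ))) ^ 2 = 1)
    (E : Δ → ℂ) (ε : (ZMod r)ˣ → ℂ) (hε : ∑ u, ε u = 0)
    (hEε : ∀ (hd : N ∣ M₀) (v : (ZMod M₀)ˣ), ZMod.unitsMap hd v = 1 →
      E (θ v) = ε (ZMod.unitsMap hrM₀ v))
    (φ : Additive (GammaH θ) →+ ℂ) (hφ : ConjEigen θ E φ)
    (a : ℂ) (ha0 : a ≠ 0) (ha : UH θ ℂ hrM₀ φ = a • φ)
    {G : CuspForm (Gamma0 N₀') 2} (hG : G.IsNormalizedEigenform) (hGr : qCoeff G r = 0)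
    (c₁ c₂ : ℂ) (hX0 : periodHomPair N₀' (c₁ • G, c₂ • G) ≠ 0)
    (hX : TwRel θ hrM₀ ν⁻¹ hν' (periodHomPair N₀' (c₁ • G, c₂ • G)) φ)
    (M : ℕ) (hM : M ∣ M₀) : ¬ GoodEigensystemOccursAt G M := by
  subst hN₀'
  subst hM₀
  exact not_goodEigensystemOccursAt_of_twist hrN θ (fun u v hu h1 h2 => hθ _ _ u v hu h1 h2)
    ν hν1 hν hν' E ε hε (fun v hv => hEε _ v hv) φ hφ a ha0 ha hG hGr c₁ c₂ hX0
    ((twRel_iff θ (Nat.dvd_mul_left r N) ν⁻¹ hν' _ φ).mp hX) M hM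

/-- **B5, newform form, level-generic.** -/
theorem exists_isNewform_factorization_two_of_twRel (hrN : ¬ r ∣ N) (hM₀ : M₀ = N * r)
    (hN₀' : N₀' = M₀ * r) (hrM₀ : r ∣ M₀) (θ : (ZMod M₀)ˣ →* Δ) (hθ : InvStableG N r θ)
    (ν : MulChar (ZMod r) ℂ) (hν1 : ν ≠ 1)
    (hν : ∀ g : GammaH (liftθ (r := r) θ), ν (dr r (g : SL(2, ℤ))) ^ 2 = 1)
    (hν' : ∀ g : GammaH (liftθ (r := r) θ), ν⁻¹ (dr r (g : SL(2, ℤ))) ^ 2 = 1)
    (E : Δ → ℂ) (ε : (ZMod r)ˣ → ℂ) (hε : ∑ u, ε u = 0)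
    (hEε : ∀ (hd : N ∣ M₀) (v : (ZMod M₀)ˣ), ZMod.unitsMap hd v = 1 →
      E (θ v) = ε (ZMod.unitsMap hrM₀ v))
    (φ : Additive (GammaH θ) →+ ℂ) (hφ : ConjEigen θ E φ)
    (a : ℂ) (ha0 : a ≠ 0) (ha : UH θ ℂ hrM₀ φ = a • φ)
    {G : CuspForm (Gamma0 N₀') 2} (hG : G.IsNormalizedEigenform) (hGr : qCoeff G r = 0)
    (c₁ c₂ : ℂ) (hX0 : periodHomPair N₀' (c₁ • G, c₂ • G) ≠ 0)
    (hX : TwRel θ hrM₀ ν⁻¹ hν' (periodHomPair N₀' (c₁ • G, c₂ • G)) φ) :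
    ∃ M : ℕ, M ∣ N₀' ∧ ∃ h : CuspForm (Gamma0 M) 2, h.IsNewform ∧
      (∀ ℓ : ℕ, ℓ.Prime → ¬ ℓ ∣ N₀' → qCoeff h ℓ = qCoeff G ℓ) ∧ M.factorization r = 2 := by
  subst hN₀'
  subst hM₀
  exact exists_isNewform_factorization_two_of_twist hrN θ
    (fun u v hu h1 h2 => hθ _ _ u v hu h1 h2)
    ν hν1 hν hν' E ε hε (fun v hv => hEε _ v hv) φ hφ a ha0 ha hG hGr c₁ c₂ hX0
    ((twRel_iff θ (Nat.dvd_mul_left r N) ν⁻¹ hν' _ φ).mp hX)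

end Fermat.Agent.GB.B5.Depl
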