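/-
GATE-B / B5 leaf (C3)+(C4), ASSEMBLY (helper41; leaf plan of helper8 5652, operator identities of
helper65 5766).

Level `M = N * r`, `r` prime, `r ∤ N` (only used through the binders), `θ : (ZMod (N * r))ˣ →* Δ`,
`Γ_H(M) = GammaH θ`, `Γ_H(M r) = GammaH (liftθ θ)`.  For an additive operator `TwH` on
`Hom(Γ_H(M r), A)` (the twist back at the SAME level `M r`; helper65's `TwH θ hr ν`) put

  `PhiH θ TwH := UH θ ∘ TrH θ ∘ TwH ∘ resH (liftθ θ) : Hom(Γ₀(M r), A) →+ Hom(Γ_H(M), A)`   (= `Φ''`).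

* `PhiH_fwd` (C3) : if `resH (liftθ θ) X = n • Rpsi θ ν⁻¹ φ` (descent property of the twist `𝓡`),
  `TwH (Rpsi θ ν⁻¹ φ) = c • (r • ResH φ − BrH (UH φ))` (Jacobi, helper65 (c)), `UH φ = a • φ` and
  `UH (TrH (BrH φ)) = r • φ` (T2, `Betti.UH_TrH_BrH`), then
  `PhiH θ TwH X = (n * c * (r * r − r) * a) • φ`.
* `PhiH_depl` (C4) : if `TwH (ResH z) = Rpsi θ ν z` (helper65 (a)), `TwH (BrH (UH z)) = 0`
  (helper65 (b)) and `TrH (Rpsi θ ν z) = 0` (T1, helper65 (d)) for `z = resH θ y`, then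
  `PhiH θ TwH (deplOp hr _ A y) = 0`  — `deplOp` = helper8's `DepleteForm.deplOp` VERBATIM.
* `package` : the two statements in the exact `hC3` / `hC4` shape of
  `FormSide.not_goodEigensystemOccursAt_of_package` (`Hx := Hom(Γ_H(M), ℂ)`, `castOp rfl`).
-/
import Mathlib
import Fermat.Agent.GB.B5.Betti.T2Inst
import Fermat.Agent.GB.B5.Depl.DepleteList

set_option autoImplicit false
set_option linter.unusedSectionVars false

noncomputable section

namespace Fermat.Agent.GB.B5.Depl.ClassBack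

open scoped MatrixGroups
open Matrix.SpecialLinearGroup CongruenceSubgroup
open Fermat.Agent.S16_helper49
open Fermat.Agent.GB.B5 Fermat.Agent.GM.B Fermat.Agent.GM.Amalgam Fermat.Agent.GM.EisClass
open Fermat.Agent.GM.B5
open Fermat.Agent.GB.B3 Fermat.Agent.GB.B3.EisGamma0 Fermat.Agent.GB.B3.GamH
open Fermat.Agent.GB.B4.Twist Fermat.Agent.GB.B4.Twist.KerSys2 Fermat.Agent.GB.B4.Twist.RPsi
open Fermat.Agent.GB.B5.Betti Fermat.Agent.GB.B5.Depl

/-- coset operators commute with the scalars -/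
theorem cosetOp_smul {H G : Type*} [Group H] [Group G] {emb : H →* G} {Γ₁ Γ₂ : Subgroup H}
    (S : CosetSys emb Γ₁ Γ₂) {R : Type*} [CommRing R] {A : Type*} [AddCommGroup A] [Module R A]
    (c : R) (φ : Additive Γ₁ →+ A) : S.op A (c • φ) = c • S.op A φ := by
  refine AddMonoidHom.ext fun g => ?_
  obtain ⟨g, rfl⟩ : ∃ g' : Γ₂, Additive.ofMul g' = g := ⟨Additive.toMul g, rfl⟩
  rw [CosetSys.op_apply, AddMonoidHom.smul_apply, CosetSys.op_apply, Finset.smul_sum]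
  rfl

variable {N r : ℕ} [Fact r.Prime] [NeZero N] {Δ : Type} [CommGroup Δ]
  (θ : (ZMod (N * r))ˣ →* Δ)
variable {K : Type*} [CommRing K] {A : Type*} [AddCommGroup A] [Module K A]

/-- **`Φ''`** `= U_r ∘ Tr ∘ (twist back) ∘ res : Hom(Γ₀(M r), A) → Hom(Γ_H(M), A)`, `M = N r` -/
def PhiH (TwH : (Additive (GammaH (liftθ (r := r) θ)) →+ A) →+
      (Additive (GammaH (liftθ (r := r) θ)) →+ A)) :
    (Additive (Gamma0 (N * r * r)) →+ A) →+ (Additive (GammaH θ) →+ A) :=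
  (UH θ A (Nat.dvd_mul_left r N)).comp
    ((TrH θ (Nat.dvd_mul_left r N) A).comp (TwH.comp (resH (liftθ (r := r) θ) A)))

theorem PhiH_apply (TwH : (Additive (GammaH (liftθ (r := r) θ)) →+ A) →+
      (Additive (GammaH (liftθ (r := r) θ)) →+ A))
    (X : Additive (Gamma0 (N * r * r)) →+ A) :
    PhiH θ TwH X = UH θ A (Nat.dvd_mul_left r N)
      (TrH θ (Nat.dvd_mul_left r N) A (TwH (resH (liftθ (r := r) θ) A X))) := rfl

/-- **(C3)** -/
theorem PhiH_fwd (TwH : (Additive (GammaH (liftθ (r := r) θ)) →+ A) →+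
      (Additive (GammaH (liftθ (r := r) θ)) →+ A))
    (ψi : MulChar (ZMod r) K)
    (hψi : ∀ g : GammaH (liftθ (r := r) θ), ψi (dr r (g : SL(2, ℤ))) ^ 2 = 1)
    (φ : Additive (GammaH θ) →+ A) (X : Additive (Gamma0 (N * r * r)) →+ A) (n : ℕ) (c a : K)
    (hX : resH (liftθ (r := r) θ) A X = n • Rpsi θ (Nat.dvd_mul_left r N) ψi hψi φ)
    (hJ : TwH (Rpsi θ (Nat.dvd_mul_left r N) ψi hψi φ)
      = c • (r • ResH (r := r) θ A φ - BrH (r := r) θ A (UH θ A (Nat.dvd_mul_left r N) φ)))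
    (hU : UH θ A (Nat.dvd_mul_left r N) φ = a • φ)
    (hT2 : UH θ A (Nat.dvd_mul_left r N)
      (TrH θ (Nat.dvd_mul_left r N) A (BrH (r := r) θ A φ)) = r • φ) :
    PhiH θ TwH X = ((n : K) * c * ((r : K) * r - r) * a) • φ := by
  have hTrc : ∀ (k : K) (z : Additive (GammaH (liftθ (r := r) θ)) →+ A),
      TrH θ (Nat.dvd_mul_left r N) A (k • z) = k • TrH θ (Nat.dvd_mul_left r N) A z :=
    fun k z => cosetOp_smul _ k z
  have hUc : ∀ (k : K) (z : Additive (GammaH θ) →+ A),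
      UH θ A (Nat.dvd_mul_left r N) (k • z) = k • UH θ A (Nat.dvd_mul_left r N) z :=
    fun k z => cosetOp_smul _ k z
  have hBc : ∀ (k : K) (z : Additive (GammaH θ) →+ A),
      BrH (r := r) θ A (k • z) = k • BrH (r := r) θ A z :=
    fun k z => cosetOp_smul _ k z
  have h1 : TwH (resH (liftθ (r := r) θ) A X)
      = n • (c • (r • ResH (r := r) θ A φ
          - BrH (r := r) θ A (UH θ A (Nat.dvd_mul_left r N) φ))) := by
    rw [hX, map_nsmul, hJ]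
  have h2 : TrH θ (Nat.dvd_mul_left r N) A (r • ResH (r := r) θ A φ
      - BrH (r := r) θ A (UH θ A (Nat.dvd_mul_left r N) φ))
      = r • (r • φ) - a • TrH θ (Nat.dvd_mul_left r N) A (BrH (r := r) θ A φ) := by
    rw [map_sub, map_nsmul, TrH_ResH θ (Nat.dvd_mul_left r N) φ, hU, hBc, hTrc]
  have h3 : UH θ A (Nat.dvd_mul_left r N)
      (r • (r • φ) - a • TrH θ (Nat.dvd_mul_left r N) A (BrH (r := r) θ A φ))
      = r • (r • (a • φ)) - a • (r • φ) := by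
    rw [map_sub, map_nsmul, map_nsmul, hU, hUc, hT2]
  rw [PhiH_apply, h1, map_nsmul, hTrc, h2, map_nsmul, hUc, h3]
  rw [← Nat.cast_smul_eq_nsmul K n, ← Nat.cast_smul_eq_nsmul K r (r • (a • φ)),
    ← Nat.cast_smul_eq_nsmul K r (a • φ), ← Nat.cast_smul_eq_nsmul K r φ]
  simp only [smul_sub, smul_smul]
  rw [← sub_smul]
  congr 1
  ring

/-- **(C4)** -/
theorem PhiH_depl (TwH : (Additive (GammaH (liftθ (r := r) θ)) →+ A) →+
      (Additive (GammaH (liftθ (r := r) θ)) →+ A))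
    (ψ : MulChar (ZMod r) K)
    (hψ : ∀ g : GammaH (liftθ (r := r) θ), ψ (dr r (g : SL(2, ℤ))) ^ 2 = 1)
    (y : Additive (Gamma0 (N * r)) →+ A)
    (ha : TwH (ResH (r := r) θ A (resH θ A y))
      = Rpsi θ (Nat.dvd_mul_left r N) ψ hψ (resH θ A y))
    (hb : TwH (BrH (r := r) θ A (UH θ A (Nat.dvd_mul_left r N) (resH θ A y))) = 0)
    (hd : TrH θ (Nat.dvd_mul_left r N) A
      (Rpsi θ (Nat.dvd_mul_left r N) ψ hψ (resH θ A y)) = 0) :
    PhiH θ TwH (deplOp (Fact.out : r.Prime) (Nat.dvd_mul_left r N) A y) = 0 := by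
  have h1 : resH (liftθ (r := r) θ) A ((resSys (N * r) r).op A y)
      = ResH (r := r) θ A (resH θ A y) :=
    (kerSys₂_op_res (resSys (N * r) r) (chi θ) (chi (liftθ (r := r) θ))
      (compat₂_resSys θ) y).symm
  have h2 : resH (liftθ (r := r) θ) A
      ((resDSys (N * r) r).op A (cohU (Nat.dvd_mul_left r N) A y))
      = BrH (r := r) θ A (UH θ A (Nat.dvd_mul_left r N) (resH θ A y)) := by
    rw [UH_resH]
    exact (kerSys₂_op_res (resDSys (N * r) r) (chi θ) (chi (liftθ (r := r) θ))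
      (compat₂_resDSys θ) (cohU (Nat.dvd_mul_left r N) A y)).symm
  rw [PhiH_apply, deplOp_apply, map_sub, map_nsmul, h1, h2, map_sub, map_nsmul, ha, hb, sub_zero,
    map_nsmul, hd, smul_zero, map_zero]

/-- **(C3)+(C4) in the `hC3` / `hC4` shape of `FormSide.not_goodEigensystemOccursAt_of_package`**
(`Hx := Hom(Γ_H(M), ℂ)`, `Φ'' := PhiH θ TwH`, levels `M'' = N * r`, `N'' = N * r * r`, so that
`castOp` is at `rfl`). -/
theorem package (TwH : (Additive (GammaH (liftθ (r := r) θ)) →+ ℂ) →+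
      (Additive (GammaH (liftθ (r := r) θ)) →+ ℂ))
    (ν νi : MulChar (ZMod r) ℂ)
    (hν : ∀ g : GammaH (liftθ (r := r) θ), ν (dr r (g : SL(2, ℤ))) ^ 2 = 1)
    (hνi : ∀ g : GammaH (liftθ (r := r) θ), νi (dr r (g : SL(2, ℤ))) ^ 2 = 1)
    (φ'' : Additive (GammaH θ) →+ ℂ)
    (R'' : (Additive (GammaH θ) →+ ℂ) →+ (Additive (Gamma0 (N * r * r)) →+ ℂ))
    (n : ℕ) (hn : n ≠ 0) (c a : ℂ) (hc : c ≠ 0) (ha : a ≠ 0)
    (hdesc : resH (liftθ (r := r) θ) ℂ (R'' φ'')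
      = n • Rpsi θ (Nat.dvd_mul_left r N) νi hνi φ'')
    (hJ : TwH (Rpsi θ (Nat.dvd_mul_left r N) νi hνi φ'')
      = c • (r • ResH (r := r) θ ℂ φ'' - BrH (r := r) θ ℂ (UH θ ℂ (Nat.dvd_mul_left r N) φ'')))
    (hU : UH θ ℂ (Nat.dvd_mul_left r N) φ'' = a • φ'')
    (hT2 : UH θ ℂ (Nat.dvd_mul_left r N)
      (TrH θ (Nat.dvd_mul_left r N) ℂ (BrH (r := r) θ ℂ φ'')) = r • φ'')
    (hA : ∀ z : Additive (GammaH θ) →+ ℂ, TwH (ResH (r := r) θ ℂ z)
      = Rpsi θ (Nat.dvd_mul_left r N) ν hν z)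
    (hB : ∀ z : Additive (GammaH θ) →+ ℂ, TwH (BrH (r := r) θ ℂ z) = 0)
    (hD : ∀ y : Additive (Gamma0 (N * r)) →+ ℂ, TrH θ (Nat.dvd_mul_left r N) ℂ
      (Rpsi θ (Nat.dvd_mul_left r N) ν hν (resH θ ℂ y)) = 0) :
    ∃ κ : ℂ, κ ≠ 0 ∧ PhiH θ TwH (R'' φ'') = κ • φ'' ∧
      ∀ y : Additive (Gamma0 (N * r)) →+ ℂ,
        PhiH θ TwH (castOp (rfl : N * r * r = N * r * r) ℂ
          (deplOp (Fact.out : r.Prime) (Nat.dvd_mul_left r N) ℂ y)) = 0 := by
  refine ⟨(n : ℂ) * c * ((r : ℂ) * r - r) * a, ?_, ?_, ?_⟩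
  · have hr1 : (1 : ℕ) < r := (Fact.out : r.Prime).one_lt
    have hr0 : (r : ℂ) ≠ 0 := by exact_mod_cast (Fact.out : r.Prime).ne_zero
    have h1 : (r : ℂ) * r - r = r * ((r : ℂ) - 1) := by ring
    have h2 : (r : ℂ) - 1 ≠ 0 := by
      rw [sub_ne_zero]
      exact_mod_cast hr1.ne'
    rw [h1]
    exact mul_ne_zero (mul_ne_zero (mul_ne_zero (by exact_mod_cast hn) hc)
      (mul_ne_zero hr0 h2)) ha
  · exact PhiH_fwd θ TwH νi hνi φ'' (R'' φ'') n c a hdesc hJ hU hT2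
  · intro y
    rw [castOp_rfl]
    exact PhiH_depl θ TwH ν hν y (hA _) (hB _) (hD y)

end Fermat.Agent.GB.B5.Depl.ClassBack

end
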