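/-
GATE-B / B5 leaf (C3)+(C4), CONCRETE PLUG + WRAP (helper41; operator identities = helper65
`Betti/{TwSame,TwJacobi,T1Gen,T2Inst}`; form side = helper8 `Depl/FormSide`).

* `package_concrete` : `ClassBack.package` with `TwH := Betti.TwH θ _ ν hν` and ALL operator binders
  discharged (Jacobi `TwH_Rpsi`, `TwH_ResH`, `TwH_BrH`, general (T1) `TrH_Rpsi_resH`, (T2)
  `UH_TrH_BrH`).  What is left is the data of the class `φ''`: diamond-eigen at `r` with `∑ ε = 0`,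
  `U_r φ'' = a • φ''` (`a ≠ 0`), and the descent line `res (R'' φ'') = n • R_{ν⁻¹} φ''`.
* `not_goodEigensystemOccursAt_of_class` : **B5 at the prime `r`, class-level form** — the package
  fed into helper8's `not_goodEigensystemOccursAt_of_package`: the only inputs left are `hC1`
  (twist ∘ depletion = depletion ∘ twist, helper8 (C1)) and the descent line.
-/
import Mathlib
import Fermat.Agent.GB.B5.Depl.ClassBack
import Fermat.Agent.GB.B5.Betti.Phi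
import Fermat.Agent.GB.B5.Depl.FormSide

set_option autoImplicit false
set_option linter.unusedSectionVars false

noncomputable section

namespace Fermat.Agent.GB.B5.Depl.ClassBack

open scoped MatrixGroups
open Matrix.SpecialLinearGroup CongruenceSubgroup CuspForm
open Fermat.Agent.S16_helper49
open Fermat.Agent.GB.B5 Fermat.Agent.GM.B Fermat.Agent.GM.Amalgam Fermat.Agent.GM.EisClass
open Fermat.Agent.GM.B5
open Fermat.Agent.GB.B3 Fermat.Agent.GB.B3.EisGamma0 Fermat.Agent.GB.B3.GamH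
open Fermat.Agent.GB.B4.Twist Fermat.Agent.GB.B4.Twist.KerSys2 Fermat.Agent.GB.B4.Twist.RPsi
open Fermat.Agent.GB.B5.Betti Fermat.Agent.GB.B5.Depl
open ModularCurve ModularCurve.Period Fermat.Agent.S21_helper65

variable {N r : ℕ} [Fact r.Prime] [NeZero N] {Δ : Type} [CommGroup Δ]
  (θ : (ZMod (N * r))ˣ →* Δ)

/-- `ν(-1) ≠ 0` -/
theorem mulChar_neg_one_ne_zero (ν : MulChar (ZMod r) ℂ) : ν (-1) ≠ 0 := by
  intro h
  have h1 : ν (-1) * ν (-1) = 1 := by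
    rw [← map_mul, neg_one_mul, neg_neg, map_one]
  rw [h, mul_zero] at h1
  exact zero_ne_one h1

/-- **(C3)+(C4), concrete**: `Φ'' := PhiH θ (TwH θ _ ν hν)`. -/
theorem package_concrete (hrN : ¬ r ∣ N) (hθ : InvStable N r θ)
    (ν : MulChar (ZMod r) ℂ) (hν1 : ν ≠ 1)
    (hν : ∀ g : GammaH (liftθ (r := r) θ), ν (dr r (g : SL(2, ℤ))) ^ 2 = 1)
    (ε : (ZMod r)ˣ → ℂ) (hε : ∑ u, ε u = 0) (φ'' : Additive (GammaH θ) →+ ℂ)
    (hφ : ∀ (d : Gamma0 (N * r)) (u : (ZMod r)ˣ),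
      ((((d : SL(2, ℤ)) 1 1 : ℤ)) : ZMod N) = 1 →
      ((((d : SL(2, ℤ)) 1 1 : ℤ)) : ZMod r) = (u : ZMod r) → diaH θ ℂ d φ'' = ε u • φ'')
    (a : ℂ) (ha : a ≠ 0) (hU : UH θ ℂ (Nat.dvd_mul_left r N) φ'' = a • φ'')
    (R'' : (Additive (GammaH θ) →+ ℂ) →+ (Additive (Gamma0 (N * r * r)) →+ ℂ))
    (n : ℕ) (hn : n ≠ 0)
    (hdesc : resH (liftθ (r := r) θ) ℂ (R'' φ'')
      = n • Rpsi θ (Nat.dvd_mul_left r N) ν⁻¹ (hψ_inv θ ν hν) φ'') :
    ∃ κ : ℂ, κ ≠ 0 ∧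
      PhiH θ (TwH θ (Nat.dvd_mul_left r N) ν hν) (R'' φ'') = κ • φ'' ∧
      ∀ y : Additive (Gamma0 (N * r)) →+ ℂ,
        PhiH θ (TwH θ (Nat.dvd_mul_left r N) ν hν)
          (castOp (rfl : N * r * r = N * r * r) ℂ
            (deplOp (Fact.out : r.Prime) (Nat.dvd_mul_left r N) ℂ y)) = 0 := by
  refine package θ (TwH θ (Nat.dvd_mul_left r N) ν hν) ν ν⁻¹ hν (hψ_inv θ ν hν) φ'' R'' n hn
    (ν (-1)) a (mulChar_neg_one_ne_zero ν) ha hdesc ?_ hU ?_ ?_ ?_ ?_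
  · rw [TwH_Rpsi θ (Nat.dvd_mul_left r N) ν hν1 hν (hψ_inv θ ν hν) φ'',
      Nat.cast_smul_eq_nsmul ℂ r]
  · exact UH_TrH_BrH θ hrN hθ ε hε φ'' hφ
  · intro z
    exact TwH_ResH θ (Nat.dvd_mul_left r N) ν hν z
  · intro z
    exact TwH_BrH θ (Nat.dvd_mul_left r N) ν hν (MulChar.sum_eq_zero_of_ne_one hν1) z
  · intro y
    exact TrH_Rpsi_resH θ hrN ν hν1 hν y

/-- **B5 at the prime `r`, class-level form.**  `G` a normalised eigenform of level `N₀ = M₁ r`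
with `a_r(G) = 0`; depleted levels `M'' = N * r = M₁ ∏ ls`, `N'' = N * r * r = N₀ ∏ ls` (`r ∤ N`).
A class `φ''` on `Γ_H(N r)` which is an eigenvector of the diamond operators at `r` (character `ε`,
`∑ ε = 0`) and of `U_r` (eigenvalue `a ≠ 0`), whose twist-and-descent `R'' φ''` is the depleted
class of `G` (`hC1`) and restricts to `n • R_{ν⁻¹} φ''` (`hdesc`), excludes that the good
eigensystem of `G` occurs at level `M₁ = N₀ / r`. -/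
theorem not_goodEigensystemOccursAt_of_class {M₁ N₀ : ℕ} [NeZero M₁] [NeZero N₀]
    [NeZero (N * r)] [NeZero (N * r * r)]
    (hrM : r ∣ M₁) (hN₀ : N₀ = M₁ * r)
    {G : CuspForm (Gamma0 N₀) 2} (hG : G.IsNormalizedEigenform)
    (hGr : ModularFormClass.qCoeff G r = 0)
    (ls : List ℕ) (hls : ∀ ℓ ∈ ls, ℓ.Prime ∧ ℓ ∣ M₁)
    (hcover : ∀ p : ℕ, p.Prime → p ∣ N₀ → p ∈ ls ∨ p = r)
    (hM'' : N * r = M₁ * ls.prod) (hN''G : N * r * r = N₀ * ls.prod) (c₁ c₂ : ℂ)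
    (hX : periodHomPair N₀ (c₁ • G, c₂ • G) ≠ 0)
    (hrN : ¬ r ∣ N) (hθ : InvStable N r θ)
    (ν : MulChar (ZMod r) ℂ) (hν1 : ν ≠ 1)
    (hν : ∀ g : GammaH (liftθ (r := r) θ), ν (dr r (g : SL(2, ℤ))) ^ 2 = 1)
    (ε : (ZMod r)ˣ → ℂ) (hε : ∑ u, ε u = 0) (φ'' : Additive (GammaH θ) →+ ℂ)
    (hφ : ∀ (d : Gamma0 (N * r)) (u : (ZMod r)ˣ),
      ((((d : SL(2, ℤ)) 1 1 : ℤ)) : ZMod N) = 1 →
      ((((d : SL(2, ℤ)) 1 1 : ℤ)) : ZMod r) = (u : ZMod r) → diaH θ ℂ d φ'' = ε u • φ'')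
    (a : ℂ) (ha : a ≠ 0) (hU : UH θ ℂ (Nat.dvd_mul_left r N) φ'' = a • φ'')
    (R'' : (Additive (GammaH θ) →+ ℂ) →+ (Additive (Gamma0 (N * r * r)) →+ ℂ))
    (n : ℕ) (hn : n ≠ 0)
    (hdesc : resH (liftθ (r := r) θ) ℂ (R'' φ'')
      = n • Rpsi θ (Nat.dvd_mul_left r N) ν⁻¹ (hψ_inv θ ν hν) φ'')
    (hC1 : R'' φ'' = deplOpList ℂ ls (hls_of_dvd (hN₀ ▸ Dvd.intro r rfl) hls) hN''G
      (periodHomPair N₀ (c₁ • G, c₂ • G))) :
    ¬ GoodEigensystemOccursAt G M₁ := by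
  obtain ⟨κ, hκ, h3, h4⟩ := package_concrete θ hrN hθ ν hν1 hν ε hε φ'' hφ a ha hU R'' n hn hdesc
  exact not_goodEigensystemOccursAt_of_package (Fact.out : r.Prime) hrM hN₀ hG hGr ls hls hcover
    hM'' hN''G rfl (Nat.dvd_mul_left r N) c₁ c₂ hX φ'' R''
    (PhiH θ (TwH θ (Nat.dvd_mul_left r N) ν hν)) κ hκ hC1 h3 h4

end Fermat.Agent.GB.B5.Depl.ClassBack

end
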