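/-
GATE-B / B5 leaf (C3)+(C4), DESCENT LINE + FINAL CLASS-LEVEL WRAP (helper41).

`R''` := B4's full twist for the ONE-element list `[(r, ν⁻¹, η)]`
(`ChainD.chainD (N*r) θ [datum ν⁻¹ η]` = `coresH (liftθ θ) rep hrep ∘ Rpsi θ _ ν⁻¹ _`).

* `datum`, `adm_datum` : the one-element twisting datum and its admissibility from the pointwise
  relation `ν⁻¹(u mod r)² = η(θ u)`;
* `chainR_single` : `chainR (N*r) θ [datum ψ η] h φ = Rpsi θ _ ψ _ φ`;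
* `resH_chainD_single` : **the descent line** `res (R'' φ) = |Δ| • R_ψ φ` on the `η`-eigenvectors of
  the `Γ₀(N r)`-conjugations (= `hdesc` of `ClassBackPlug`);
* `diaH_eigen_of_conj` : the conjugation-eigen property gives the diamond-eigen property at `r`
  in the spelling of `Betti.UH_TrH_BrH` with `ε u = ψ(u)²`;
* `sum_units_sq_eq_zero` : `∑_{u ∈ (ℤ/r)ˣ} ψ(u)² = 0` for `ψ² ≠ 1`;
* `not_goodEigensystemOccursAt_of_chainD` : **B5 at the prime `r`** with `R''` CONCRETE — the only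
  input left is `hC1` (twist ∘ depletion = depletion ∘ twist).
-/
import Mathlib
import Fermat.Agent.GB.B5.Depl.ClassBackPlug
import Fermat.Agent.GB.B4.Twist.ChainD

set_option autoImplicit false
set_option linter.unusedSectionVars false

noncomputable section

namespace Fermat.Agent.GB.B5.Depl.ClassBack

open scoped MatrixGroups
open Matrix.SpecialLinearGroup CongruenceSubgroup CuspForm
open Fermat.Agent.S16_helper49
open Fermat.Agent.GB.B5 Fermat.Agent.GM.B Fermat.Agent.GM.Amalgam Fermat.Agent.GM.EisClass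
open Fermat.Agent.GM.B5
open Fermat.Agent.GB.B3 Fermat.Agent.GB.B3.EisGamma0 Fermat.Agent.GB.B3.GamH
open Fermat.Agent.GB.B4.Twist Fermat.Agent.GB.B4.Twist.KerSys2 Fermat.Agent.GB.B4.Twist.RPsi
open Fermat.Agent.GB.B4.Twist.Chain Fermat.Agent.GB.B4.Twist.ChainD
open Fermat.Agent.GB.B5.Betti Fermat.Agent.GB.B5.Depl
open ModularCurve ModularCurve.Period Fermat.Agent.S21_helper65

section Desc

variable {M r : ℕ} [Fact r.Prime] {Δ : Type} [CommGroup Δ]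
  {R : Type*} [CommRing R] {A : Type*} [AddCommGroup A] [Module R A]
  (θ : (ZMod M)ˣ →* Δ)

/-- the one-element twisting datum `(r, ψ, η)` -/
def datum (ψ : MulChar (ZMod r) R) (η : Δ →* Rˣ) : TwDatum R Δ := ⟨r, inferInstance, ψ, η⟩

theorem adm_datum (hrM : r ∣ M) (ψ : MulChar (ZMod r) R) (η : Δ →* Rˣ)
    (hψη : ∀ u : (ZMod M)ˣ, ψ (((u : ZMod M)).cast : ZMod r) ^ 2 = ((η (θ u) : Rˣ) : R)) :
    Adm M θ [datum (r := r) ψ η] := by
  intro d hd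
  rw [List.mem_singleton] at hd
  subst hd
  exact ⟨hrM, hψη⟩

theorem chainR_single (ψ : MulChar (ZMod r) R) (η : Δ →* Rˣ)
    (h : Adm M θ [datum (r := r) ψ η]) (φ : Additive (GammaH θ) →+ A) :
    (chainR M θ [datum (r := r) ψ η] h φ : Additive (GammaH (liftθ (r := r) θ)) →+ A)
      = Rpsi θ (adm_head h).1 ψ (hψ_of_adm h) φ := rfl

variable [Fintype Δ]

/-- **the descent line**: on the `η`-eigenvectors of the `Γ₀(M)`-conjugations,
`res ∘ cores ∘ R_ψ = |Δ| • R_ψ`. -/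
theorem resH_chainD_single (ψ : MulChar (ZMod r) R) (η : Δ →* Rˣ)
    (h : Adm M θ [datum (r := r) ψ η])
    (rep : Δ → Gamma0 (M * r)) (hrep : ∀ δ, chi (liftθ (r := r) θ) (rep δ) = δ)
    (φ : Additive (GammaH θ) →+ A)
    (hφ : ∀ (x : Gamma0 M) (k : GammaH θ),
      φ (Additive.ofMul (conjK (chi θ) x k)) = ((η (chi θ x) : Rˣ) : R) • φ (Additive.ofMul k)) :
    resH (liftθ (r := r) θ) A
        (chainD M θ [datum (r := r) ψ η] h rep hrep φ : Additive (Gamma0 (M * r)) →+ A)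
      = Fintype.card Δ • Rpsi θ (adm_head h).1 ψ (hψ_of_adm h) φ := by
  have h1 := resH_chainD M θ [datum (r := r) ψ η] h rep hrep φ (by
    intro x k
    rw [hφ x k]
    simp [datum])
  exact h1

end Desc

section Final

variable {N r : ℕ} [Fact r.Prime] [NeZero N] {Δ : Type} [CommGroup Δ]
  (θ : (ZMod (N * r))ˣ →* Δ)

/-- `d mod r` of `d ∈ Γ₀(N r)` through `dUnits` -/
theorem cast_dUnits_eq_dr (d : Gamma0 (N * r)) :
    ((((dUnits (N * r) d : (ZMod (N * r))ˣ) : ZMod (N * r))).cast : ZMod r)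
      = ((((d : SL(2, ℤ)) 1 1 : ℤ)) : ZMod r) := by
  rw [coe_dUnits]
  unfold dN
  rw [ZMod.cast_intCast (Nat.dvd_mul_left r N)]

/-- the conjugation-eigen property gives the diamond-eigen property at `r` in the spelling of
`Betti.UH_TrH_BrH`, with `ε u = ψ(u)²` -/
theorem diaH_eigen_of_conj (ψ : MulChar (ZMod r) ℂ) (η : Δ →* ℂˣ)
    (hψη : ∀ u : (ZMod (N * r))ˣ,
      ψ (((u : ZMod (N * r))).cast : ZMod r) ^ 2 = ((η (θ u) : ℂˣ) : ℂ))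
    (φ : Additive (GammaH θ) →+ ℂ)
    (hφ : ∀ (x : Gamma0 (N * r)) (k : GammaH θ),
      φ (Additive.ofMul (conjK (chi θ) x k)) = ((η (chi θ x) : ℂˣ) : ℂ) • φ (Additive.ofMul k))
    (d : Gamma0 (N * r)) (u : (ZMod r)ˣ)
    (_hN : ((((d : SL(2, ℤ)) 1 1 : ℤ)) : ZMod N) = 1)
    (hr : ((((d : SL(2, ℤ)) 1 1 : ℤ)) : ZMod r) = (u : ZMod r)) :
    diaH θ ℂ d φ = (ψ (u : ZMod r) ^ 2) • φ := by
  refine AddMonoidHom.ext fun k => ?_
  obtain ⟨k, rfl⟩ : ∃ k' : GammaH θ, Additive.ofMul k' = k := ⟨Additive.toMul k, rfl⟩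
  rw [diaH_apply, hφ d k, AddMonoidHom.smul_apply, chi_apply, ← hψη, cast_dUnits_eq_dr, hr]

/-- `∑_{u ∈ (ℤ/r)ˣ} ψ(u)² = 0` for `ψ² ≠ 1` -/
theorem sum_units_sq_eq_zero (ψ : MulChar (ZMod r) ℂ) (hψ2 : ψ ^ 2 ≠ 1) :
    ∑ u : (ZMod r)ˣ, ψ (u : ZMod r) ^ 2 = 0 := by
  have h1 : ∑ u : (ZMod r)ˣ, ψ (u : ZMod r) ^ 2 = ∑ u : (ZMod r)ˣ, (ψ ^ 2) (u : ZMod r) := by
    refine Finset.sum_congr rfl fun u _ => ?_
    rw [MulChar.pow_apply_coe]
  rw [h1]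
  obtain ⟨b, hb⟩ := MulChar.ne_one_iff.mp hψ2
  refine eq_zero_of_mul_eq_self_left hb ?_
  rw [Finset.mul_sum]
  simp_rw [← map_mul, ← Units.val_mul]
  exact (Group.mulLeft_bijective b).sum_comp (fun u : (ZMod r)ˣ => (ψ ^ 2) (u : ZMod r))

/-- `ν⁻¹ ^ 2 ≠ 1` from `ν ^ 2 ≠ 1` -/
theorem inv_sq_ne_one (ν : MulChar (ZMod r) ℂ) (hν2 : ν ^ 2 ≠ 1) : ν⁻¹ ^ 2 ≠ 1 := by
  intro h
  apply hν2
  rw [inv_pow, inv_eq_one] at h
  exact h

/-- **B5 at the prime `r`, class-level form with `R''` CONCRETE** (`R''` = B4's full twist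
`ChainD.chainD` for the one-element list `[(r, ν⁻¹, η)]`).  `G` a normalised eigenform of level
`N₀ = M₁ r` with `a_r(G) = 0`; depleted levels `N * r = M₁ ∏ ls`, `N * r * r = N₀ ∏ ls`, `r ∤ N`.
A class `φ''` on `Γ_H(N r)` which is an `η`-eigenvector of the `Γ₀(N r)`-conjugations
(`η ∘ θ = ν⁻²` at `r`, `ν² ≠ 1`) and of `U_r` (eigenvalue `a ≠ 0`), whose twist-and-descent is the
depleted class of `G` (`hC1`), excludes that the good eigensystem of `G` occurs at level `M₁`. -/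
theorem not_goodEigensystemOccursAt_of_chainD [Fintype Δ] {M₁ N₀ : ℕ} [NeZero M₁] [NeZero N₀]
    [NeZero (N * r)] [NeZero (N * r * r)]
    (hrM : r ∣ M₁) (hN₀ : N₀ = M₁ * r)
    {G : CuspForm (Gamma0 N₀) 2} (hG : G.IsNormalizedEigenform)
    (hGr : ModularFormClass.qCoeff G r = 0)
    (ls : List ℕ) (hls : ∀ ℓ ∈ ls, ℓ.Prime ∧ ℓ ∣ M₁)
    (hcover : ∀ p : ℕ, p.Prime → p ∣ N₀ → p ∈ ls ∨ p = r)
    (hM'' : N * r = M₁ * ls.prod) (hN''G : N * r * r = N₀ * ls.prod) (c₁ c₂ : ℂ)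
    (hX : periodHomPair N₀ (c₁ • G, c₂ • G) ≠ 0)
    (hrN : ¬ r ∣ N) (hθ : InvStable N r θ)
    (ν : MulChar (ZMod r) ℂ) (hν2 : ν ^ 2 ≠ 1) (η : Δ →* ℂˣ)
    (hνη : ∀ u : (ZMod (N * r))ˣ,
      ν⁻¹ (((u : ZMod (N * r))).cast : ZMod r) ^ 2 = ((η (θ u) : ℂˣ) : ℂ))
    (φ'' : Additive (GammaH θ) →+ ℂ)
    (hφ : ∀ (x : Gamma0 (N * r)) (k : GammaH θ),
      φ'' (Additive.ofMul (conjK (chi θ) x k))
        = ((η (chi θ x) : ℂˣ) : ℂ) • φ'' (Additive.ofMul k))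
    (a : ℂ) (ha : a ≠ 0) (hU : UH θ ℂ (Nat.dvd_mul_left r N) φ'' = a • φ'')
    (rep : Δ → Gamma0 (N * r * r)) (hrep : ∀ δ, chi (liftθ (r := r) θ) (rep δ) = δ)
    (hC1 : (chainD (N * r) θ [datum (r := r) ν⁻¹ η]
          (adm_datum θ (Nat.dvd_mul_left r N) ν⁻¹ η hνη) rep hrep φ'' :
          Additive (Gamma0 (N * r * r)) →+ ℂ)
      = deplOpList ℂ ls (hls_of_dvd (hN₀ ▸ Dvd.intro r rfl) hls) hN''G
          (periodHomPair N₀ (c₁ • G, c₂ • G))) :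
    ¬ GoodEigensystemOccursAt G M₁ := by
  have hadm := adm_datum θ (Nat.dvd_mul_left r N) ν⁻¹ η hνη
  have hν1 : ν ≠ 1 := by
    rintro rfl
    exact hν2 (one_pow 2)
  have hνi : ∀ g : GammaH (liftθ (r := r) θ), ν⁻¹ (dr r (g : SL(2, ℤ))) ^ 2 = 1 :=
    fun g => hψ_of_adm hadm g
  have hν : ∀ g : GammaH (liftθ (r := r) θ), ν (dr r (g : SL(2, ℤ))) ^ 2 = 1 := by
    intro g
    have h := hψ_inv θ ν⁻¹ hνi g
    rwa [inv_inv] at h
  let R'' : (Additive (GammaH θ) →+ ℂ) →+ (Additive (Gamma0 (N * r * r)) →+ ℂ) :=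
    chainD (N * r) θ [datum (r := r) ν⁻¹ η] hadm rep hrep
  have hdesc : resH (liftθ (r := r) θ) ℂ (R'' φ'')
      = Fintype.card Δ • Rpsi θ (Nat.dvd_mul_left r N) ν⁻¹ (hψ_inv θ ν hν) φ'' :=
    resH_chainD_single θ ν⁻¹ η hadm rep hrep φ'' hφ
  exact not_goodEigensystemOccursAt_of_class θ hrM hN₀ hG hGr ls hls hcover hM'' hN''G c₁ c₂ hX
    hrN hθ ν hν1 hν (fun u => ν⁻¹ (u : ZMod r) ^ 2)
    (sum_units_sq_eq_zero ν⁻¹ (inv_sq_ne_one ν hν2)) φ''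
    (fun d u hN hr => diaH_eigen_of_conj θ ν⁻¹ η hνη φ'' hφ d u hN hr)
    a ha hU R'' (Fintype.card Δ) Fintype.card_ne_zero hdesc hC1

end Final

end Fermat.Agent.GB.B5.Depl.ClassBack

end
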