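/-
GATE-B / B5 (helper8): **B5 IN THE VOCABULARY OF helper97's CHAIN** (B4-TWIST).

`θ : (ZMod N)ˣ →* Δ`, `L' ++ [d]` an admissible list of twisting data with the B5 prime `r = d.r`
LAST; `r ∥ N`, `r` prime to the other twisting primes; `φ` a class on `Γ_H(N)`, eigenvector of the
conjugations for `η = ∏ ν` and of `U_r` (eigenvalue `a ≠ 0`), `d.ψ² ≠ 1`; `G` a normalised eigenform
of level `chainLevel N (L' ++ [d])` with `a_r(G) = 0` whose class `periodHomPair (c₁ G, c₂ G) ≠ 0`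
is `chainD N θ (L' ++ [d]) φ`.  Then the newform companion of `G` has `r`-exponent `2`
(`exists_isNewform_factorization_two_of_chainD`), and the good eigensystem of `G` does not occur at
any level dividing `chainLevel N L'` (`not_goodEigensystemOccursAt_of_chainD_append`).
-/
import Mathlib
import Fermat.Agent.GB.B5.Depl.B5Generic
import Fermat.Agent.GB.B5.Depl.B5Chain
import Fermat.Agent.GB.B5.Betti.UHChain
import Fermat.Agent.GB.B5.Depl.ClassBackDesc

set_option autoImplicit false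

open scoped MatrixGroups
open CongruenceSubgroup Matrix Matrix.SpecialLinearGroup ModularCurve ModularCurve.Period
open Fermat.Agent.GM.B
open Fermat.Agent.GB.B3 Fermat.Agent.GB.B3.EisGamma0 Fermat.Agent.GB.B3.GamH
open Fermat.Agent.GB.B4.Twist Fermat.Agent.GB.B4.Twist.RPsi Fermat.Agent.GB.B4.Twist.Chain
open Fermat.Agent.GB.B4.Twist.ChainD
open Fermat.Agent.GB.B5.Betti
open ModularFormClass CuspForm

namespace Fermat.Agent.GB.B5.Depl

section Aux

variable {Δ : Type} [CommGroup Δ]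

/-- `InvStableG` passes to the composite with a reduction map (general base level) -/
theorem invStableG_comp' {N M r N₁ Nd : ℕ} (θ : (ZMod N)ˣ →* Δ) (hθ : InvStableG N₁ r θ)
    (h : N ∣ M) (hN₁ : N₁ ∣ N) (hrN : r ∣ N) (hNd : N₁ ∣ Nd) :
    InvStableG Nd r (θ.comp (ZMod.unitsMap h)) := by
  intro hd hr u v hu h1 h2
  rw [MonoidHom.comp_apply] at hu ⊢
  refine hθ hN₁ hrN _ _ hu ?_ ?_
  · have e1 : ∀ w : (ZMod M)ˣ, ZMod.unitsMap hN₁ (ZMod.unitsMap h w)
        = ZMod.unitsMap hNd (ZMod.unitsMap hd w) := by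
      intro w
      have a1 := DFunLike.congr_fun (ZMod.unitsMap_comp hN₁ h) w
      have a2 := DFunLike.congr_fun (ZMod.unitsMap_comp hNd hd) w
      rw [MonoidHom.comp_apply] at a1 a2
      rw [a1, a2]
    rw [e1, e1, h1]
  · have e2 : ∀ w : (ZMod M)ˣ, ZMod.unitsMap hrN (ZMod.unitsMap h w) = ZMod.unitsMap hr w := by
      intro w
      have a1 := DFunLike.congr_fun (ZMod.unitsMap_comp hrN h) w
      rw [MonoidHom.comp_apply] at a1
      rw [a1]
    rw [e2, e2, h2]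

variable {R : Type*} [CommRing R] {A : Type*} [AddCommGroup A] [Module R A]

/-- `TwRel` only depends on the character up to equality -/
theorem twRel_congr {r : ℕ} [Fact r.Prime] {B N₀ : ℕ} (θ : (ZMod B)ˣ →* Δ) (hrB : r ∣ B)
    {ψ ψ' : MulChar (ZMod r) R} (e : ψ = ψ')
    (hψ : ∀ g : GammaH (liftθ (r := r) θ), ψ (dr r (g : SL(2, ℤ))) ^ 2 = 1)
    (hψ' : ∀ g : GammaH (liftθ (r := r) θ), ψ' (dr r (g : SL(2, ℤ))) ^ 2 = 1)
    (X : Additive (Gamma0 N₀) →+ A) (φ : Additive (GammaH θ) →+ A)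
    (h : TwRel θ hrB ψ hψ X φ) : TwRel θ hrB ψ' hψ' X φ := by
  subst e
  exact h

theorem prod_append_single_mul_inv {G : Type*} [CommGroup G] (l : List G) (x : G) :
    (l ++ [x]).prod * l.prod⁻¹ = x := by
  rw [List.prod_append, List.prod_singleton, mul_comm l.prod, mul_assoc, mul_inv_cancel, mul_one]

/-- the admissibility of the last datum, at the level reached by the chain -/
theorem adm_last {N : ℕ} {θ : (ZMod N)ˣ →* Δ} (L' : List (TwDatum R Δ)) {d : TwDatum R Δ}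
    (h : Adm N θ (L' ++ [d])) : Adm (chainLevel N L') (chainθ N θ L') [d] := by
  induction L' generalizing N with
  | nil => exact h
  | cons e L'' ih => exact ih (adm_tail h)

end Aux

section Main

variable {Δ : Type} [CommGroup Δ] [Fintype Δ]

/-- **B5 for the chain, newform form.** -/
theorem exists_isNewform_factorization_two_of_chainD {N : ℕ} [NeZero N]
    (θ : (ZMod N)ˣ →* Δ) (L' : List (TwDatum ℂ Δ)) (d : TwDatum ℂ Δ)
    (h : Adm N θ (L' ++ [d])) (hr2 : ¬ d.r ^ 2 ∣ N)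
    (hcop : ∀ e ∈ L', Nat.Coprime d.r e.r)
    (hθ : InvStableG (N / d.r) d.r θ) (hψ2 : d.ψ ^ 2 ≠ 1)
    (rep : Δ → Gamma0 (chainLevel N (L' ++ [d])))
    (hrep : ∀ δ, chi (chainθ N θ (L' ++ [d])) (rep δ) = δ)
    (φ : Additive (GammaH θ) →+ ℂ)
    (hφ : ∀ (x : Gamma0 N) (k : GammaH θ),
      φ (Additive.ofMul (conjK (chi θ) x k))
        = (((((L' ++ [d]).map (fun d => d.ν)).prod (chi θ x) : ℂˣ)) : ℂ) • φ (Additive.ofMul k))
    (a : ℂ) (ha0 : a ≠ 0)
    (ha : UH θ ℂ (h d (List.mem_append_right _ (List.mem_singleton_self d))).1 φ = a • φ)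
    [NeZero (chainLevel N (L' ++ [d]))]
    {G : CuspForm (Gamma0 (chainLevel N (L' ++ [d]))) 2} (hG : G.IsNormalizedEigenform)
    (hGr : qCoeff G d.r = 0) (c₁ c₂ : ℂ)
    (hX0 : periodHomPair (chainLevel N (L' ++ [d])) (c₁ • G, c₂ • G) ≠ 0)
    (hXG : chainD N θ (L' ++ [d]) h rep hrep φ
      = periodHomPair (chainLevel N (L' ++ [d])) (c₁ • G, c₂ • G)) :
    ∃ M : ℕ, M ∣ chainLevel N (L' ++ [d]) ∧ ∃ g : CuspForm (Gamma0 M) 2, g.IsNewform ∧
      (∀ ℓ : ℕ, ℓ.Prime → ¬ ℓ ∣ chainLevel N (L' ++ [d]) → qCoeff g ℓ = qCoeff G ℓ) ∧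
      M.factorization d.r = 2 := by
  have hr : d.r.Prime := Fact.out
  have hrN : d.r ∣ N := (h d (List.mem_append_right _ (List.mem_singleton_self d))).1
  have h' : Adm N θ L' := adm_of_append h
  have hlast := adm_last L' h
  have hdr : d.r ∣ chainLevel N L' := (adm_head hlast).1
  have hψ : ∀ g : GammaH (liftθ (r := d.r) (chainθ N θ L')),
      d.ψ (dr d.r (g : SL(2, ℤ))) ^ 2 = 1 := hψ_of_adm hlast
  -- the levels
  have hN0 : N ≠ 0 := NeZero.ne N
  have hP0 : (L'.map (fun e => e.r)).prod ≠ 0 := by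
    refine List.prod_ne_zero ?_
    intro h0
    obtain ⟨e, -, he⟩ := List.mem_map.mp h0
    exact (Fact.out : e.r.Prime).ne_zero he
  have hM₀0 : chainLevel N L' ≠ 0 := by
    rw [chainLevel_eq]
    exact Nat.mul_ne_zero hN0 hP0
  have hM₀ : chainLevel N L' = chainLevel N L' / d.r * d.r := (Nat.div_mul_cancel hdr).symm
  have hN₀' : chainLevel N (L' ++ [d]) = chainLevel N L' * d.r := chainLevel_append_single N L' d
  have hrNb : ¬ d.r ∣ chainLevel N L' / d.r := by
    intro hdvd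
    have h1 : d.r ^ 2 ∣ chainLevel N L' := by
      rw [hM₀, pow_two]
      exact Nat.mul_dvd_mul_right hdvd d.r
    rw [chainLevel_eq] at h1
    have hc : Nat.Coprime (d.r ^ 2) (L'.map (fun e => e.r)).prod := by
      refine Nat.Coprime.pow_left 2 ?_
      rw [Nat.coprime_list_prod_right_iff]
      intro n hn
      obtain ⟨e, he, rfl⟩ := List.mem_map.mp hn
      exact hcop e he
    exact hr2 (hc.dvd_of_dvd_mul_right h1)
  have : NeZero (chainLevel N L') := ⟨hM₀0⟩
  have : NeZero (chainLevel N L' / d.r) := ⟨by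
    intro h0
    rw [h0, zero_mul] at hM₀
    exact hM₀0 hM₀⟩
  -- the quotient at the chain level
  have hθB : InvStableG (chainLevel N L' / d.r) d.r (chainθ N θ L') := by
    rw [chainθ_eq]
    exact invStableG_comp' θ hθ (dvd_chainLevel N L') (Nat.div_dvd_of_dvd hrN) hrN
      (Nat.div_dvd_div hrN (dvd_chainLevel N L'))
  -- the characters
  have hν1 : d.ψ⁻¹ ≠ 1 := by
    intro h1
    apply hψ2
    rw [inv_eq_one] at h1
    rw [h1, one_pow]
  have hν : ∀ g : GammaH (liftθ (r := d.r) (chainθ N θ L')),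
      d.ψ⁻¹ (dr d.r (g : SL(2, ℤ))) ^ 2 = 1 := hψ_inv (chainθ N θ L') d.ψ hψ
  have hν' : ∀ g : GammaH (liftθ (r := d.r) (chainθ N θ L')),
      d.ψ⁻¹⁻¹ (dr d.r (g : SL(2, ℤ))) ^ 2 = 1 := hψ_inv (chainθ N θ L') d.ψ⁻¹ hν
  have hε := ClassBack.sum_units_sq_eq_zero d.ψ hψ2
  have hEε : ∀ (_ : chainLevel N L' / d.r ∣ chainLevel N L') (v : (ZMod (chainLevel N L'))ˣ),
      ZMod.unitsMap ‹_› v = 1 →
      (fun t : Δ => ((d.ν t : ℂˣ) : ℂ)) (chainθ N θ L' v)
        = (fun u : (ZMod d.r)ˣ => d.ψ (u : ZMod d.r) ^ 2) (ZMod.unitsMap hdr v) := by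
    intro _ v _
    exact ((adm_head hlast).2 v).symm
  -- the class at the chain level
  have hη : chainEps ((L' ++ [d]).map (fun d => d.ν)).prod L' = d.ν := by
    rw [chainEps_eq, List.map_append]
    exact prod_append_single_mul_inv (G := Δ →* ℂˣ) (L'.map (fun d => d.ν)) d.ν
  have hφB : ConjEigen (chainθ N θ L') (fun t : Δ => ((d.ν t : ℂˣ) : ℂ))
      (Fintype.card Δ • chainR N θ L' h' φ) := by
    refine conjEigen_nsmul _ ?_
    intro x k
    have h1 := chainR_conj N θ L' h' _ φ hφ x k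
    rw [hη] at h1
    exact h1
  have hcu : IsUnit (chainPsi L' d.r) := isUnit_chainPsi L' d.r hcop
  have hc0 : chainPsi L' d.r ≠ 0 := hcu.ne_zero
  have haB : UH (chainθ N θ L') ℂ hdr (Fintype.card Δ • chainR N θ L' h' φ)
      = ((chainPsi L' d.r)⁻¹ * a) • (Fintype.card Δ • chainR N θ L' h' φ) := by
    have h1 := chainR_UH N θ L' h' hrN hcop φ
    rw [ha, map_smul] at h1
    have h2 : UH (chainθ N θ L') ℂ hdr (chainR N θ L' h' φ)
        = ((chainPsi L' d.r)⁻¹ * a) • chainR N θ L' h' φ := by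
      rw [mul_smul, h1, smul_smul, inv_mul_cancel₀ hc0, one_smul]
    rw [map_nsmul, h2, smul_comm]
  have ha'0 : (chainPsi L' d.r)⁻¹ * a ≠ 0 := mul_ne_zero (inv_ne_zero hc0) ha0
  -- the input relation
  have hXB : TwRel (chainθ N θ L') hdr d.ψ⁻¹⁻¹ hν'
      (periodHomPair (chainLevel N (L' ++ [d])) (c₁ • G, c₂ • G))
      (Fintype.card Δ • chainR N θ L' h' φ) := by
    rw [← hXG]
    exact twRel_congr (chainθ N θ L') hdr (inv_inv d.ψ).symm hψ hν' _ _
      (twRel_chainD_append L' d θ h hdr hψ rep hrep φ hφ)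
  exact exists_isNewform_factorization_two_of_twRel (N := chainLevel N L' / d.r) (r := d.r)
    (M₀ := chainLevel N L') (N₀' := chainLevel N (L' ++ [d])) hrNb hM₀ hN₀' hdr
    (chainθ N θ L') hθB d.ψ⁻¹ hν1 hν hν' (fun t : Δ => ((d.ν t : ℂˣ) : ℂ))
    (fun u : (ZMod d.r)ˣ => d.ψ (u : ZMod d.r) ^ 2) hε hEε _ hφB _ ha'0 haB hG hGr c₁ c₂ hX0 hXB

end Main

end Fermat.Agent.GB.B5.Depl
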