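/-
GATE-B / B5 (helper8): the hypothesis `InvStableG (N / r) r θ` of `B5ChainFinal` for a quotient
`θ` which is a PRODUCT OF LOCAL CHARACTERS (helper10's `L6Loc` data `θloc`, `pr`, `hpr`, `hprod`,
the variable block of helper44's `TwFinal`).
-/
import Mathlib
import Fermat.Agent.GB.B5.Depl.B5Core

set_option autoImplicit false

namespace Fermat.Agent.GB.B5.Depl

variable {Δ : Type} [CommGroup Δ]

/-- **a product of local characters has a kernel stable under inverting the `r`-component** -/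
theorem invStableG_of_loc {N : ℕ} (θ : (ZMod N)ˣ →* Δ) (L : List ℕ) (hL : ∀ s ∈ L, s.Prime)
    (hdvd : ∀ s ∈ L, s ∣ N) (θloc : (s : ℕ) → (ZMod s)ˣ →* Δ) (pr : ℕ → Δ →* Δ)
    (hpr : ∀ s ∈ L, ∀ (h : s ∣ N) (u : (ZMod N)ˣ), pr s (θ u) = θloc s (ZMod.unitsMap h u))
    (hprod : ∀ u : (ZMod N)ˣ, θ u = (L.map fun s => pr s (θ u)).prod)
    (r : ℕ) (hr : r ∈ L) : InvStableG (N / r) r θ := by
  intro hd hrN u v hu h1 h2
  rw [hprod v]
  refine List.prod_eq_one ?_
  intro x hx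
  obtain ⟨s, hs, rfl⟩ := List.mem_map.mp hx
  rw [hpr s hs (hdvd s hs)]
  have hu1 : pr s (θ u) = 1 := by rw [hu, map_one]
  rw [hpr s hs (hdvd s hs)] at hu1
  by_cases hsr : s = r
  · subst hsr
    have e : ZMod.unitsMap (hdvd s hs) v = (ZMod.unitsMap (hdvd s hs) u)⁻¹ :=
      eq_inv_of_mul_eq_one_left h2
    rw [e, map_inv, hu1, inv_one]
  · have hsN : s ∣ N / r := by
      have h3 : s ∣ N / r * r := by rw [Nat.div_mul_cancel hrN]; exact hdvd s hs
      rcases (hL s hs).dvd_mul.mp h3 with h4 | h4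
      · exact h4
      · exact absurd ((Nat.prime_dvd_prime_iff_eq (hL s hs) (hL r hr)).mp h4) hsr
    have e : ∀ w : (ZMod N)ˣ, ZMod.unitsMap (hdvd s hs) w
        = ZMod.unitsMap hsN (ZMod.unitsMap hd w) := by
      intro w
      have a1 := DFunLike.congr_fun (ZMod.unitsMap_comp hsN hd) w
      rw [MonoidHom.comp_apply] at a1
      rw [a1]
    rw [e v, h1, ← e u, hu1]

end Fermat.Agent.GB.B5.Depl
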