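/-
GATE-B / B5 (helper8): **Part B (helper83 `ChainForm`) ∘ `B5ChainFinal` ∘ `UHInj` (helper65).**

`θ : (ZMod N)ˣ →* Δ`, `L' ++ [d]` an admissible list of twisting data (pairwise coprime primes,
non-trivial characters), the B5 prime `r = d.r` LAST, `r ∥ N`, `d.ψ² ≠ 1`;
`φ ∈ Hom_par(Γ_H(N), ℂ)` an eigenvector of the `Γ₀(N)`-conjugations with character `∏ ν`, of all
`T_ℓ` (`ℓ ∤ N`), of all `U_q` (`q ∣ N` prime, not a twisting prime) and of `U_r`, with
`chainD φ ≠ 0`.  Then there is a NEWFORM `g` of level `M ∣ chainLevel N (L' ++ [d])` with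
`ψ_L(ℓ) a_ℓ(g) = μ_ℓ` at all good primes and `M.factorization r = 2`.

No eigenform `G`, no constants `c₁ c₂`, no `a ≠ 0` binder: all produced inside.
-/
import Mathlib
import Fermat.Agent.GB.B5.Depl.B5ChainFinal
import Fermat.Agent.GB.B5.Point.ChainForm
import Fermat.Agent.GB.B5.Betti.UHInj
import Fermat.Agent.GB.B3.HomFree
import Fermat.Agent.GB.B3.StepInst

set_option autoImplicit false

open scoped MatrixGroups
open CongruenceSubgroup Matrix Matrix.SpecialLinearGroup ModularCurve ModularCurve.Period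
open Fermat.Agent.GM.B
open Fermat.Agent.GB.B3 Fermat.Agent.GB.B3.EisGamma0 Fermat.Agent.GB.B3.GamH
open Fermat.Agent.GB.B4.Twist Fermat.Agent.GB.B4.Twist.RPsi Fermat.Agent.GB.B4.Twist.Chain
open Fermat.Agent.GB.B4.Twist.ChainD
open Fermat.Agent.GB.B5.Betti
open ModularFormClass CuspForm

namespace Fermat.Agent.GB.B5.Depl

section Generic

variable {N r M₀ : ℕ} [Fact r.Prime] [NeZero N] [NeZero M₀] {Δ : Type} [CommGroup Δ]

/-- helper65's `UH_eigenvalue_ne_zero` with the level as a variable -/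
theorem UH_eigenvalue_ne_zero_generic (hrN : ¬ r ∣ N) (hM₀ : M₀ = N * r) (hrM₀ : r ∣ M₀)
    (θ : (ZMod M₀)ˣ →* Δ) (hθ : InvStableG N r θ)
    (E : Δ → ℂ) (ε : (ZMod r)ˣ → ℂ) (hε : ∑ u, ε u = 0)
    (hEε : ∀ (hd : N ∣ M₀) (v : (ZMod M₀)ˣ), ZMod.unitsMap hd v = 1 →
      E (θ v) = ε (ZMod.unitsMap hrM₀ v))
    (φ : Additive (GammaH θ) →+ ℂ) (hφ : ConjEigen θ E φ) (hφ0 : φ ≠ 0)
    (a : ℂ) (ha : UH θ ℂ hrM₀ φ = a • φ) : a ≠ 0 := by
  subst hM₀
  haveI : (GammaH θ).FiniteIndex := StepInst.finiteIndex_GammaH θ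
  haveI : Module.Finite ℂ (Additive (GammaH θ) →+ ℂ) := HomFree.homFinite_SL2Z _ ℂ
  have hr0 : ((r : ℕ) : ℂ) ≠ 0 := Nat.cast_ne_zero.mpr (Fact.out : r.Prime).ne_zero
  exact UH_eigenvalue_ne_zero θ hrN (fun u v hu h1 h2 => hθ _ _ u v hu h1 h2) hr0 E ε
    (fun v hv => hEε _ v hv) hε φ hφ hφ0 a ha

end Generic

section Aux

variable {Δ : Type} [CommGroup Δ]

/-- a list product of characters all trivial at `t` is trivial at `t` -/
theorem list_prod_apply_eq_one (l : List (Δ →* ℂˣ)) (t : Δ) (h : ∀ f ∈ l, f t = 1) :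
    l.prod t = 1 := by
  induction l with
  | nil => rfl
  | cons f l ih =>
    rw [List.prod_cons, MonoidHom.mul_apply, h f (List.mem_cons_self ..),
      ih (fun g hg => h g (List.mem_cons_of_mem f hg)), one_mul]

theorem prod_append_single_gen {G : Type*} [CommGroup G] (l : List G) (x : G) :
    (l ++ [x]).prod = l.prod * x := by
  rw [List.prod_append, List.prod_singleton]

theorem prod_append_single_apply (l : List (Δ →* ℂˣ)) (f : Δ →* ℂˣ) (t : Δ) :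
    (l ++ [f]).prod t = l.prod t * f t := by
  rw [prod_append_single_gen (G := Δ →* ℂˣ), MonoidHom.mul_apply]

/-- a unit which is `1` modulo `Nd` is `1` modulo every divisor of `Nd` -/
theorem cast_eq_one_of_unitsMap_eq_one {N Nd q : ℕ} (hd : Nd ∣ N) (hq : q ∣ Nd)
    (v : (ZMod N)ˣ) (hv : ZMod.unitsMap hd v = 1) : (((v : ZMod N)).cast : ZMod q) = 1 := by
  have h1 : ZMod.castHom (hq.trans hd) (ZMod q)
      = (ZMod.castHom hq (ZMod q)).comp (ZMod.castHom hd (ZMod Nd)) := RingHom.ext_zmod _ _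
  have h2 : ((ZMod.unitsMap hd v : (ZMod Nd)ˣ) : ZMod Nd) = ZMod.castHom hd (ZMod Nd) (v : ZMod N) :=
    rfl
  have h3 : ZMod.castHom hd (ZMod Nd) (v : ZMod N) = 1 := by
    rw [← h2, hv, Units.val_one]
  have h4 : (((v : ZMod N)).cast : ZMod q) = ZMod.castHom (hq.trans hd) (ZMod q) (v : ZMod N) :=
    rfl
  rw [h4, h1, RingHom.comp_apply, h3, map_one]

end Aux

section Main

variable {Δ : Type} [CommGroup Δ] [Fintype Δ]

/-- **B5 from an eigenclass on `Γ_H(N)`** (multi-prime chain form, the B5 prime last). -/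
theorem exists_isNewform_factorization_two_of_eigenclass {N : ℕ} [NeZero N]
    (θ : (ZMod N)ˣ →* Δ) (L' : List (TwDatum ℂ Δ)) (d : TwDatum ℂ Δ)
    (h : Adm N θ (L' ++ [d])) [NeZero (chainLevel N (L' ++ [d]))] (hr2 : ¬ d.r ^ 2 ∣ N)
    (hL : (L' ++ [d]).Pairwise (fun d e => Nat.Coprime d.r e.r))
    (hsum : ∀ e ∈ L' ++ [d], ∑ x : ZMod e.r, e.ψ x = 0)
    (hθ : InvStableG (N / d.r) d.r θ) (hψ2 : d.ψ ^ 2 ≠ 1)
    (rep : Δ → Gamma0 (chainLevel N (L' ++ [d])))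
    (hrep : ∀ δ, chi (chainθ N θ (L' ++ [d])) (rep δ) = δ)
    (φ : Additive (GammaH θ) →+ ℂ) (hφpar : IsParabolicHom (GammaH θ) φ)
    (hφ : ∀ (x : Gamma0 N) (k : GammaH θ),
      φ (Additive.ofMul (conjK (chi θ) x k))
        = (((((L' ++ [d]).map (fun d => d.ν)).prod (chi θ x) : ℂˣ)) : ℂ) • φ (Additive.ofMul k))
    (hX0 : chainD N θ (L' ++ [d]) h rep hrep φ ≠ 0) (μ : ℕ → ℂ)
    (hT : ∀ (ℓ : ℕ) [Fact ℓ.Prime] (hℓ : ¬ ℓ ∣ N), TH θ ℂ hℓ φ = μ ℓ • φ)
    (hU : ∀ (q : ℕ) [NeZero q] (hqN : q ∣ N), q.Prime → (∀ e ∈ L' ++ [d], e.r ≠ q) →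
      UH θ ℂ hqN φ = μ q • φ)
    (a : ℂ)
    (ha : UH θ ℂ (h d (List.mem_append_right _ (List.mem_singleton_self d))).1 φ = a • φ) :
    ∃ M : ℕ, M ∣ chainLevel N (L' ++ [d]) ∧ ∃ g : CuspForm (Gamma0 M) 2, g.IsNewform ∧
      (∀ ℓ : ℕ, ℓ.Prime → ¬ ℓ ∣ chainLevel N (L' ++ [d]) →
        chainPsi (L' ++ [d]) ℓ * qCoeff g ℓ = μ ℓ) ∧
      M.factorization d.r = 2 := by
  have hr : d.r.Prime := Fact.out
  have hdL : d ∈ L' ++ [d] := List.mem_append_right _ (List.mem_singleton_self d)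
  have hrN : d.r ∣ N := (h d hdL).1
  have hcop : ∀ e ∈ L', Nat.Coprime d.r e.r := fun e he =>
    ((List.pairwise_append.mp hL).2.2 e he d (List.mem_singleton_self d)).symm
  -- Part B
  obtain ⟨G, c₁, c₂, hG, hXG, hgood, hzero⟩ :=
    Fermat.Agent.GB.B5.Point.exists_eigenform_of_chainD θ (L' ++ [d]) h rep hrep hL hsum φ hφpar
      hX0 μ hT hU
  have hGr : qCoeff G d.r = 0 := hzero d hdL
  have hXG0 : periodHomPair (chainLevel N (L' ++ [d])) (c₁ • G, c₂ • G) ≠ 0 := by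
    rw [← hXG]
    exact hX0
  -- `φ ≠ 0`
  have hφ0 : φ ≠ 0 := by
    intro h0
    apply hX0
    rw [h0]
    exact map_zero _
  -- the level
  have hN0 : N ≠ 0 := NeZero.ne N
  have hNd : N = N / d.r * d.r := (Nat.div_mul_cancel hrN).symm
  have hrNb : ¬ d.r ∣ N / d.r := by
    intro hdvd
    apply hr2
    rw [hNd, pow_two]
    exact Nat.mul_dvd_mul_right hdvd d.r
  haveI : NeZero (N / d.r) := ⟨by
    intro h0
    rw [h0, zero_mul] at hNd
    exact hN0 hNd⟩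
  -- the character at `d.r`
  have hε := ClassBack.sum_units_sq_eq_zero d.ψ hψ2
  have hEε : ∀ (hd : N / d.r ∣ N) (v : (ZMod N)ˣ), ZMod.unitsMap hd v = 1 →
      (fun t : Δ => (((((L' ++ [d]).map (fun d => d.ν)).prod t : ℂˣ)) : ℂ)) (θ v)
        = (fun u : (ZMod d.r)ˣ => d.ψ (u : ZMod d.r) ^ 2) (ZMod.unitsMap hrN v) := by
    intro hd v hv
    have h1 : ((L' ++ [d]).map (fun d => d.ν)).prod (θ v) = d.ν (θ v) := by
      rw [List.map_append, List.map_singleton, prod_append_single_apply,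
        list_prod_apply_eq_one _ _ ?_, one_mul]
      intro f hf
      obtain ⟨e, he, rfl⟩ := List.mem_map.mp hf
      have heL : e ∈ L' ++ [d] := List.mem_append_left _ he
      have he2 := (h e heL).2 v
      have herN : e.r ∣ N / d.r := by
        have h2 : e.r ∣ N / d.r * d.r := by
          rw [← hNd]
          exact (h e heL).1
        exact (Nat.Coprime.dvd_of_dvd_mul_right (hcop e he).symm h2)
      rw [cast_eq_one_of_unitsMap_eq_one hd herN v hv, map_one, one_pow] at he2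
      exact Units.ext he2.symm
    show (((((L' ++ [d]).map (fun d => d.ν)).prod (θ v) : ℂˣ)) : ℂ) = _
    rw [h1]
    exact ((h d hdL).2 v).symm
  have ha0 : a ≠ 0 :=
    UH_eigenvalue_ne_zero_generic (N := N / d.r) (r := d.r) (M₀ := N) hrNb hNd hrN θ hθ
      (fun t : Δ => (((((L' ++ [d]).map (fun d => d.ν)).prod t : ℂˣ)) : ℂ))
      (fun u : (ZMod d.r)ˣ => d.ψ (u : ZMod d.r) ^ 2) hε hEε φ hφ hφ0 a ha
  obtain ⟨M, hM, g, hg, hgG, hfac⟩ :=
    exists_isNewform_factorization_two_of_chainD θ L' d h hr2 hcop hθ hψ2 rep hrep φ hφ a ha0 ha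
      hG hGr c₁ c₂ hXG0 hXG
  refine ⟨M, hM, g, hg, fun ℓ hℓ hℓN => ?_, hfac⟩
  rw [hgG ℓ hℓ hℓN]
  refine hgood ℓ hℓ fun e he hel => hℓN ?_
  rw [← hel]
  exact ((h e he).1).trans (dvd_chainLevel N (L' ++ [d]))

end Main

end Fermat.Agent.GB.B5.Depl
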