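/-
GATE-B / B5 (helper8): `B5PointPlug.exists_isNewform_factorization_two_of_eigenclass` with the
hypothesis `chainD φ ≠ 0` replaced by `φ ≠ 0` (helper97 `ChainInj.chainD_injective`): all twisting
primes exactly divide `N`, all twisting characters have `ψ² ≠ 1`.
-/
import Mathlib
import Fermat.Agent.GB.B5.Depl.B5PointPlug
import Fermat.Agent.GB.B4.Twist.ChainInj

set_option autoImplicit false

open scoped MatrixGroups
open CongruenceSubgroup Matrix Matrix.SpecialLinearGroup ModularCurve ModularCurve.Period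
open Fermat.Agent.GM.B
open Fermat.Agent.GB.B3 Fermat.Agent.GB.B3.EisGamma0 Fermat.Agent.GB.B3.GamH
open Fermat.Agent.GB.B4.Twist Fermat.Agent.GB.B4.Twist.RPsi Fermat.Agent.GB.B4.Twist.Chain
open Fermat.Agent.GB.B4.Twist.ChainD Fermat.Agent.GB.B4.Twist.ChainInj
open Fermat.Agent.GB.B5.Betti
open ModularFormClass CuspForm

namespace Fermat.Agent.GB.B5.Depl

section Aux

/-- a character with `ψ² ≠ 1` has a unit `v` with `ψ(v)² ≠ 1` -/
theorem exists_unit_sq_ne_one {r : ℕ} (ψ : MulChar (ZMod r) ℂ) (h : ψ ^ 2 ≠ 1) :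
    ∃ v : (ZMod r)ˣ, ψ (v : ZMod r) ^ 2 ≠ 1 := by
  obtain ⟨v, hv⟩ := (MulChar.ne_one_iff (χ := ψ ^ 2)).mp h
  refine ⟨v, ?_⟩
  rwa [MulChar.pow_apply_coe] at hv

/-- a character with `ψ² ≠ 1` sums to zero -/
theorem sum_eq_zero_of_sq_ne_one {r : ℕ} [Fact r.Prime] (ψ : MulChar (ZMod r) ℂ) (h : ψ ^ 2 ≠ 1) :
    ∑ x : ZMod r, ψ x = 0 := by
  refine MulChar.sum_eq_zero_of_ne_one ?_
  rintro rfl
  exact h (one_pow 2)

end Aux

section Main

variable {Δ : Type} [CommGroup Δ] [Fintype Δ]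

/-- **B5 from a non-zero eigenclass on `Γ_H(N)`** (multi-prime chain form, the B5 prime last). -/
theorem exists_isNewform_factorization_two_of_eigenclass_ne_zero {N : ℕ} [NeZero N]
    (θ : (ZMod N)ˣ →* Δ) (L' : List (TwDatum ℂ Δ)) (d : TwDatum ℂ Δ)
    (h : Adm N θ (L' ++ [d])) [NeZero (chainLevel N (L' ++ [d]))]
    (hsq : ∀ e ∈ L' ++ [d], ¬ e.r ^ 2 ∣ N)
    (hL : (L' ++ [d]).Pairwise (fun d e => Nat.Coprime d.r e.r))
    (hψsq : ∀ e ∈ L' ++ [d], e.ψ ^ 2 ≠ 1)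
    (hθ : InvStableG (N / d.r) d.r θ)
    (rep : Δ → Gamma0 (chainLevel N (L' ++ [d])))
    (hrep : ∀ δ, chi (chainθ N θ (L' ++ [d])) (rep δ) = δ)
    (φ : Additive (GammaH θ) →+ ℂ) (hφpar : IsParabolicHom (GammaH θ) φ)
    (hφ : ∀ (x : Gamma0 N) (k : GammaH θ),
      φ (Additive.ofMul (conjK (chi θ) x k))
        = (((((L' ++ [d]).map (fun d => d.ν)).prod (chi θ x) : ℂˣ)) : ℂ) • φ (Additive.ofMul k))
    (hφ0 : φ ≠ 0) (μ : ℕ → ℂ)
    (hT : ∀ (ℓ : ℕ) [Fact ℓ.Prime] (hℓ : ¬ ℓ ∣ N), TH θ ℂ hℓ φ = μ ℓ • φ)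
    (hU : ∀ (q : ℕ) [NeZero q] (hqN : q ∣ N), q.Prime → (∀ e ∈ L' ++ [d], e.r ≠ q) →
      UH θ ℂ hqN φ = μ q • φ)
    (a : ℂ)
    (ha : UH θ ℂ (h d (List.mem_append_right _ (List.mem_singleton_self d))).1 φ = a • φ) :
    ∃ M : ℕ, M ∣ chainLevel N (L' ++ [d]) ∧ ∃ g : CuspForm (Gamma0 M) 2, g.IsNewform ∧
      (∀ ℓ : ℕ, ℓ.Prime → ¬ ℓ ∣ chainLevel N (L' ++ [d]) →
        chainPsi (L' ++ [d]) ℓ * qCoeff g ℓ = μ ℓ) ∧
      M.factorization d.r = 2 := by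
  have hdL : d ∈ L' ++ [d] := List.mem_append_right _ (List.mem_singleton_self d)
  have hnd : (L' ++ [d]).Pairwise (fun d e => d.r ≠ e.r) := by
    refine hL.imp ?_
    intro e f hef hr
    rw [hr, Nat.coprime_self] at hef
    exact (Fact.out : f.r.Prime).one_lt.ne' hef
  have hX0 : chainD N θ (L' ++ [d]) h rep hrep φ ≠ 0 := by
    intro h0
    refine hφ0 (chainD_injective N θ (L' ++ [d]) h rep hrep hsq hnd
      (fun e he => Or.inr (exists_unit_sq_ne_one e.ψ (hψsq e he))) ?_ ?_ φ hφ h0)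
    · intro n x hn hx
      rw [nsmul_eq_mul, mul_eq_zero] at hx
      rcases hx with hx | hx
      · exact absurd (Nat.cast_eq_zero.mp hx) hn
      · exact hx
    · intro c x hc hx
      rw [smul_eq_mul, mul_eq_zero] at hx
      rcases hx with hx | hx
      · exact absurd hx hc
      · exact hx
  exact exists_isNewform_factorization_two_of_eigenclass θ L' d h (hsq d hdL) hL
    (fun e he => sum_eq_zero_of_sq_ne_one e.ψ (hψsq e he)) hθ (hψsq d hdL) rep hrep φ hφpar hφ hX0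
    μ hT hU a ha

end Main

end Fermat.Agent.GB.B5.Depl
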