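/-
GATE-B / B5 (helper8): **from an eigenclass on `Γ_H(N)` with non-trivial nebentypus at `r₀` to the
newform with `r₀`-exponent `2`**, in the variable block of helper44's `TwFinal` at `O := ℂ`.

`θ : (ZMod N)ˣ →* Δ` surjective, `|Δ|` odd, `L` a list of distinct primes `r ∥ N`, `θ` the product of
the local characters `θloc r` (helper10 `L6Loc`).  `φ ∈ Hom_par(Γ_H(N), ℂ)`, `φ ≠ 0`, an eigenvector
of the diamonds with character `ε : Δ →* ℂˣ`, of all `T_ℓ` and of all `U_q`; `r₀ ∈ L` with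
`ε ∘ θloc r₀ ≠ 1`.  The twisting list is `M := ((L.filter (ε ∘ θloc r ≠ 1)).erase r₀) ++ [r₀]`
(the primes with TRIVIAL local nebentypus are left out, the B5 prime comes last), with helper10's
data `datum θloc pr ε r` (`ψ_r = √ε ∘ θloc r`, `ν_r = ε ∘ pr r`).  Then `B5PointInj` applies:
there is a newform `g` of level `M' ∣ N * L.prod` with `M'.factorization r₀ = 2` and
`√ε(θ ℓ) a_ℓ(g) = μ_ℓ`; equivalently `a_ℓ(g)` is the eigenvalue of `⟨ℓ⟩^{-1/2} T_ℓ` on `φ`.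
-/
import Mathlib
import Fermat.Agent.GB.B5.Depl.B5PointInj
import Fermat.Agent.GB.B5.Depl.B5Loc
import Fermat.Agent.GB.B4.Twist.L6Loc

set_option autoImplicit false

open scoped MatrixGroups
open CongruenceSubgroup Matrix Matrix.SpecialLinearGroup ModularCurve ModularCurve.Period
open Fermat.Agent.GM.B
open Fermat.Agent.GB.B3 Fermat.Agent.GB.B3.EisGamma0 Fermat.Agent.GB.B3.GamH
open Fermat.Agent.GB.B4.Twist Fermat.Agent.GB.B4.Twist.RPsi Fermat.Agent.GB.B4.Twist.Chain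
open Fermat.Agent.GB.B4.Twist.ChainD Fermat.Agent.GB.B4.Twist.ChainInj
open Fermat.Agent.GB.B4.Twist.L6Loc
open Fermat.Agent.GB.B5.Betti
open ModularFormClass CuspForm

namespace Fermat.Agent.GB.B5.Depl

/-! ### lists -/

section Lists

/-- the factors equal to `1` may be filtered out of a list product -/
theorem prod_map_filter_of_one {α G : Type*} [Monoid G] (l : List α) (P : α → Prop)
    [DecidablePred P] (f : α → G) (h : ∀ a ∈ l, ¬ P a → f a = 1) :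
    ((l.filter (fun a => decide (P a))).map f).prod = (l.map f).prod := by
  induction l with
  | nil => rfl
  | cons a l ih =>
    have ih' := ih (fun b hb => h b (List.mem_cons_of_mem a hb))
    by_cases hP : P a
    · rw [List.filter_cons_of_pos (by simpa using hP), List.map_cons, List.prod_cons, ih',
        List.map_cons, List.prod_cons]
    · rw [List.filter_cons_of_neg (by simpa using hP), ih', List.map_cons, List.prod_cons,
        h a (List.mem_cons_self ..) hP, one_mul]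

/-- moving an element of a list to the end -/
theorem perm_erase_append_single {α : Type*} [DecidableEq α] {l : List α} {a : α} (h : a ∈ l) :
    (l.erase a ++ [a]).Perm l :=
  (List.perm_append_singleton a (l.erase a)).trans (List.perm_cons_erase h).symm

end Lists

/-! ### helper10's data on a sub-list -/

section Data

variable {Δ : Type} [CommGroup Δ]
  (θloc : (r : ℕ) → (ZMod r)ˣ →* Δ) (pr : ℕ → Δ →* Δ) (ε : Δ →* ℂˣ)

theorem datumList_append_single (M₀ : List ℕ) (r₀ : ℕ) (hM : ∀ r ∈ M₀ ++ [r₀], r.Prime) :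
    datumList θloc pr ε (M₀ ++ [r₀]) hM
      = datumList θloc pr ε M₀ (fun r hr => hM r (List.mem_append_left _ hr))
        ++ [datum θloc pr ε r₀ (hM r₀ (List.mem_append_right _ (List.mem_singleton_self r₀)))] := by
  unfold datumList
  rw [List.pmap_append]
  rfl

/-- `∏ ν_r` at `x`, for ANY list of primes -/
theorem prod_ν_datumList_apply (M : List ℕ) (hM : ∀ r ∈ M, r.Prime) (x : Δ) :
    ((datumList θloc pr ε M hM).map (fun d => d.ν)).prod x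
      = (M.map fun r => ε (pr r x)).prod := by
  induction M with
  | nil => simp
  | cons r M ih =>
    rw [datumList_cons, List.map_cons, List.prod_cons, MonoidHom.mul_apply, ih,
      List.map_cons, List.prod_cons]
    rfl

variable {N : ℕ} (θ : (ZMod N)ˣ →* Δ)

/-- `∏ ψ_r(ℓ)`, for ANY list of primes dividing `N` -/
theorem chainPsi_datumList (M : List ℕ) (hM : ∀ r ∈ M, r.Prime) (hdvd : ∀ r ∈ M, r ∣ N)
    (hpr : ∀ r ∈ M, ∀ (h : r ∣ N) (u : (ZMod N)ˣ), pr r (θ u) = θloc r (ZMod.unitsMap h u))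
    (ℓ : ℕ) (u : (ZMod N)ˣ) (hu : (u : ZMod N) = (ℓ : ZMod N)) :
    chainPsi (datumList θloc pr ε M hM) ℓ
      = (((M.map fun r => sqrtChar ε (pr r (θ u))).prod : ℂˣ) : ℂ) := by
  induction M with
  | nil => simp
  | cons r M ih =>
    have hrN : r ∣ N := hdvd r (List.mem_cons_self ..)
    rw [datumList_cons, chainPsi_cons,
      ih _ (fun s hs => hdvd s (List.mem_cons_of_mem r hs))
        (fun s hs => hpr s (List.mem_cons_of_mem r hs)),
      List.map_cons, List.prod_cons, Units.val_mul]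
    congr 1
    have h1 : ((ℓ : ℕ) : ZMod r) = ((ZMod.unitsMap hrN u : (ZMod r)ˣ) : ZMod r) := by
      rw [← cast_unit_eq hrN u, hu, ZMod.cast_natCast hrN]
    show (datum θloc pr ε r (hM r (List.mem_cons_self ..))).ψ ((ℓ : ℕ) : ZMod r) = _
    rw [h1, datum_ψ_coe, hpr r (List.mem_cons_self ..) hrN u]

/-- a product over a sub-list carrying all the non-trivial factors -/
theorem prod_sub_eq (L M : List ℕ) (P : ℕ → Prop) [DecidablePred P]
    (hperm : M.Perm (L.filter (fun r => decide (P r))))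
    (hprod : ∀ u : (ZMod N)ˣ, θ u = (L.map fun r => pr r (θ u)).prod)
    (η : Δ →* ℂˣ) (u : (ZMod N)ˣ) (h1 : ∀ r ∈ L, ¬ P r → η (pr r (θ u)) = 1) :
    (M.map fun r => η (pr r (θ u))).prod = η (θ u) := by
  rw [(hperm.map _).prod_eq, prod_map_filter_of_one L P _ h1]
  conv_rhs => rw [hprod u, map_list_prod, List.map_map]
  rfl

end Data

/-! ### the main theorem -/

section Main

variable {N : ℕ} [NeZero N] {Δ : Type} [CommGroup Δ] [Fintype Δ]

/-- **B5 in `TwFinal`'s variable block**: an eigenclass with non-trivial nebentypus at `r₀`. -/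
theorem exists_isNewform_factorization_two_of_neben
    (θ : (ZMod N)ˣ →* Δ) (hθ : Function.Surjective θ) (hodd : Odd (Nat.card Δ))
    (L : List ℕ) (hL : ∀ r ∈ L, r.Prime) (hnd : L.Nodup)
    (hdvd : ∀ r ∈ L, r ∣ N) (hsq : ∀ r ∈ L, ¬ r ^ 2 ∣ N)
    (θloc : (r : ℕ) → (ZMod r)ˣ →* Δ) (pr : ℕ → Δ →* Δ)
    (hpr : ∀ r ∈ L, ∀ (h : r ∣ N) (u : (ZMod N)ˣ), pr r (θ u) = θloc r (ZMod.unitsMap h u))
    (hprod : ∀ u : (ZMod N)ˣ, θ u = (L.map fun r => pr r (θ u)).prod)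
    (ε : Δ →* ℂˣ) (r₀ : ℕ) (hr₀ : r₀ ∈ L) (hε₀ : ε.comp (θloc r₀) ≠ 1)
    (φ : Additive (GammaH θ) →+ ℂ) (hφpar : IsParabolicHom (GammaH θ) φ) (hφ0 : φ ≠ 0)
    (hdia : ∀ d : Gamma0 N, diaH θ ℂ d φ = ((ε (chi θ d) : ℂˣ) : ℂ) • φ)
    (μ : ℕ → ℂ)
    (hT : ∀ (ℓ : ℕ) [Fact ℓ.Prime] (hℓ : ¬ ℓ ∣ N), TH θ ℂ hℓ φ = μ ℓ • φ)
    (hU : ∀ (q : ℕ) [NeZero q] (hqN : q ∣ N), q.Prime → UH θ ℂ hqN φ = μ q • φ) :
    ∃ M : ℕ, M ∣ N * L.prod ∧ ∃ g : CuspForm (Gamma0 M) 2, g.IsNewform ∧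
      (∀ ℓ : ℕ, ℓ.Prime → ¬ ℓ ∣ N * L.prod → ∀ u : (ZMod N)ˣ, (u : ZMod N) = (ℓ : ZMod N) →
        ((sqrtChar ε (θ u) : ℂˣ) : ℂ) * qCoeff g ℓ = μ ℓ) ∧
      M.factorization r₀ = 2 := by
  classical
  -- the sub-list
  have hr₀P : r₀ ∈ L.filter (fun r => decide (ε.comp (θloc r) ≠ 1)) := by
    rw [List.mem_filter]
    exact ⟨hr₀, by simpa using hε₀⟩
  have hperm := perm_erase_append_single hr₀P
  have hmem : ∀ r, r ∈ (L.filter (fun r => decide (ε.comp (θloc r) ≠ 1))).erase r₀ ++ [r₀] →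
      r ∈ L ∧ ε.comp (θloc r) ≠ 1 := by
    intro r hr
    have h1 := hperm.mem_iff.mp hr
    rw [List.mem_filter] at h1
    exact ⟨h1.1, by simpa using h1.2⟩
  have hMprime : ∀ r ∈ (L.filter (fun r => decide (ε.comp (θloc r) ≠ 1))).erase r₀ ++ [r₀],
      r.Prime := fun r hr => hL r (hmem r hr).1
  have hMnd : ((L.filter (fun r => decide (ε.comp (θloc r) ≠ 1))).erase r₀ ++ [r₀]).Nodup :=
    hperm.nodup_iff.mpr (hnd.filter _)
  have hMdvd : ∀ r ∈ (L.filter (fun r => decide (ε.comp (θloc r) ≠ 1))).erase r₀ ++ [r₀],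
      r ∣ N := fun r hr => hdvd r (hmem r hr).1
  have hMpr : ∀ r ∈ (L.filter (fun r => decide (ε.comp (θloc r) ≠ 1))).erase r₀ ++ [r₀],
      ∀ (h : r ∣ N) (u : (ZMod N)ˣ), pr r (θ u) = θloc r (ZMod.unitsMap h u) :=
    fun r hr => hpr r (hmem r hr).1
  have hMprod : ((L.filter (fun r => decide (ε.comp (θloc r) ≠ 1))).erase r₀ ++ [r₀]).prod
      ∣ L.prod := by
    rw [hperm.prod_eq]
    exact (List.filter_sublist (l := L)).prod_dvd_prod
  have hlist := datumList_append_single θloc pr ε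
    ((L.filter (fun r => decide (ε.comp (θloc r) ≠ 1))).erase r₀) r₀ hMprime
  generalize hM₀ : (L.filter (fun r => decide (ε.comp (θloc r) ≠ 1))).erase r₀ = M₀ at *
  -- the trivial factors
  have htriv : ∀ (k : ℕ) (u : (ZMod N)ˣ), ∀ r ∈ L, ¬ (ε.comp (θloc r) ≠ 1) →
      (ε ^ k) (pr r (θ u)) = 1 := by
    intro k u r hr hP
    rw [not_not] at hP
    rw [hpr r hr (hdvd r hr) u, MonoidHom.pow_apply]
    have h1 := DFunLike.congr_fun hP (ZMod.unitsMap (hdvd r hr) u)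
    rw [MonoidHom.comp_apply, MonoidHom.one_apply] at h1
    rw [h1, one_pow]
  have hεprod : ∀ u : (ZMod N)ˣ, ((M₀ ++ [r₀]).map fun r => ε (pr r (θ u))).prod = ε (θ u) := by
    intro u
    refine prod_sub_eq pr θ L (M₀ ++ [r₀]) (fun r => ε.comp (θloc r) ≠ 1) hperm hprod ε u ?_
    intro r hr hP
    have := htriv 1 u r hr hP
    rwa [MonoidHom.pow_apply, pow_one] at this
  have hsqrtprod : ∀ u : (ZMod N)ˣ,
      ((M₀ ++ [r₀]).map fun r => sqrtChar ε (pr r (θ u))).prod = sqrtChar ε (θ u) := by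
    intro u
    refine prod_sub_eq pr θ L (M₀ ++ [r₀]) (fun r => ε.comp (θloc r) ≠ 1) hperm hprod
      (sqrtChar ε) u ?_
    intro r hr hP
    exact htriv _ u r hr hP
  -- the twisting data
  set L' : List (TwDatum ℂ Δ) := datumList θloc pr ε M₀
    (fun r hr => hMprime r (List.mem_append_left _ hr)) with hL'
  set d : TwDatum ℂ Δ := datum θloc pr ε r₀
    (hMprime r₀ (List.mem_append_right _ (List.mem_singleton_self r₀))) with hd
  have hadm : Adm N θ (L' ++ [d]) := by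
    rw [← hlist]
    exact adm θloc pr ε θ hodd _ hMprime hMdvd hMpr
  have hlev : chainLevel N (L' ++ [d]) = N * (M₀ ++ [r₀]).prod := by
    rw [← hlist, chainLevel_datumList]
  have hlev0 : chainLevel N (L' ++ [d]) ≠ 0 := by
    rw [hlev]
    refine Nat.mul_ne_zero (NeZero.ne N) (List.prod_ne_zero ?_)
    intro h0
    exact (hMprime 0 h0).ne_zero rfl
  haveI : NeZero (chainLevel N (L' ++ [d])) := ⟨hlev0⟩
  have hrmem : ∀ e ∈ L' ++ [d], e.r ∈ M₀ ++ [r₀] := by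
    intro e he
    rw [← hlist] at he
    exact r_mem_of_mem_datumList θloc pr ε he
  have hsq' : ∀ e ∈ L' ++ [d], ¬ e.r ^ 2 ∣ N := fun e he => hsq _ (hmem _ (hrmem e he)).1
  have hLcop : (L' ++ [d]).Pairwise (fun d e => Nat.Coprime d.r e.r) := by
    have h1 : (M₀ ++ [r₀]).Pairwise Nat.Coprime := by
      refine List.Pairwise.imp_of_mem ?_ hMnd
      intro a b ha hb hab
      exact (Nat.coprime_primes (hMprime a ha) (hMprime b hb)).mpr hab
    rw [← map_r_datumList θloc pr ε (M₀ ++ [r₀]) hMprime, hlist] at h1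
    exact List.pairwise_map.mp h1
  have hψsq : ∀ e ∈ L' ++ [d], e.ψ ^ 2 ≠ 1 := by
    intro e he
    rw [← hlist] at he
    obtain ⟨r, hr, rfl⟩ := (mem_datumList θloc pr ε).1 he
    intro h1
    apply (hmem r hr).2
    refine MonoidHom.ext fun v => ?_
    rw [MonoidHom.comp_apply, MonoidHom.one_apply]
    have h2 : ((datum θloc pr ε r (hMprime r hr)).ψ ^ 2) ((v : ZMod r) :
        ZMod (datum θloc pr ε r (hMprime r hr)).r) = 1 := by
      rw [h1]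
      exact MulChar.one_apply_coe v
    have h3 : (datum θloc pr ε r (hMprime r hr)).ψ ((v : ZMod r) :
        ZMod (datum θloc pr ε r (hMprime r hr)).r) ^ 2 = 1 := by
      rw [← h2]
      exact (MulChar.pow_apply_coe _ 2 v).symm
    rw [datum_ψ_coe, ← Units.val_pow_eq_pow_val, sqrtChar_sq_apply hodd] at h3
    exact Units.ext h3
  have hθ' : InvStableG (N / d.r) d.r θ :=
    invStableG_of_loc θ L hL hdvd θloc pr hpr hprod r₀ hr₀
  -- a section
  have hsurj : Function.Surjective (chainθ N θ (L' ++ [d])) := by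
    rw [chainθ_eq]
    exact hθ.comp (ZMod.unitsMap_surjective (dvd_chainLevel N (L' ++ [d])))
  obtain ⟨rep, hrep⟩ := exists_rep (chainθ N θ (L' ++ [d])) hsurj
  -- the conjugation rule
  have hφc : ∀ (x : Gamma0 N) (k : GammaH θ),
      φ (Additive.ofMul (conjK (chi θ) x k))
        = (((((L' ++ [d]).map (fun d => d.ν)).prod (chi θ x) : ℂˣ)) : ℂ)
          • φ (Additive.ofMul k) := by
    intro x k
    have h1 := (conjEigen_iff_diaH θ (fun t => ((ε t : ℂˣ) : ℂ)) φ).mpr hdia x k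
    rw [h1, ← hlist, prod_ν_datumList_apply, chi_apply, hεprod]
  have hr₀p : r₀.Prime := hL r₀ hr₀
  haveI : NeZero r₀ := ⟨hr₀p.ne_zero⟩
  obtain ⟨M, hM, g, hg, hgood, hfac⟩ :=
    exists_isNewform_factorization_two_of_eigenclass_ne_zero θ L' d hadm hsq' hLcop hψsq hθ'
      rep hrep φ hφpar hφc hφ0 μ hT (fun q _ hqN hq _ => hU q hqN hq) (μ r₀)
      (hU r₀ (hdvd r₀ hr₀) hr₀p)
  refine ⟨M, ?_, g, hg, ?_, hfac⟩
  · rw [hlev] at hM
    exact hM.trans (Nat.mul_dvd_mul_left N hMprod)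
  · intro ℓ hℓ hℓN u hu
    have h1 : ¬ ℓ ∣ chainLevel N (L' ++ [d]) := by
      rw [hlev]
      exact fun h => hℓN (h.trans (Nat.mul_dvd_mul_left N hMprod))
    have h2 := hgood ℓ hℓ h1
    rw [← hlist, chainPsi_datumList θloc pr ε θ _ hMprime hMdvd hMpr ℓ u hu, hsqrtprod] at h2
    exact h2

end Main

/-! ### the diamond eigencharacter, the eigenvalue function -/

section Wrap

variable {N : ℕ} [NeZero N] {Δ : Type} [CommGroup Δ] [Fintype Δ]

/-- scalars are determined by their action on a non-zero class -/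
theorem eq_of_smul_eq_smul_of_ne_zero {Γ : Type*} [Group Γ] {φ : Additive Γ →+ ℂ} (hφ0 : φ ≠ 0)
    {a b : ℂ} (h : a • φ = b • φ) : a = b := by
  have hk : ∃ k, φ k ≠ 0 := by
    by_contra hk
    apply hφ0
    refine AddMonoidHom.ext fun k => ?_
    by_contra h0
    exact hk ⟨k, h0⟩
  obtain ⟨k, hk⟩ := hk
  have h1 := DFunLike.congr_fun h k
  rw [AddMonoidHom.smul_apply, AddMonoidHom.smul_apply, smul_eq_mul, smul_eq_mul] at h1
  exact mul_right_cancel₀ hk h1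

/-- the diamonds commute with the scalars -/
theorem diaH_smul_complex (θ : (ZMod N)ˣ →* Δ) (d : Gamma0 N) (a : ℂ)
    (ψ : Additive (GammaH θ) →+ ℂ) : diaH θ ℂ d (a • ψ) = a • diaH θ ℂ d ψ :=
  ChainD.op_smul (diaK embR (chi θ) d) a ψ

/-- **the diamond eigencharacter** of a non-zero simultaneous eigenvector of the diamonds -/
theorem exists_eigenchar (θ : (ZMod N)ˣ →* Δ) (hθ : Function.Surjective θ)
    (φ : Additive (GammaH θ) →+ ℂ) (hφ0 : φ ≠ 0)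
    (hdia : ∀ d : Gamma0 N, ∃ c : ℂ, diaH θ ℂ d φ = c • φ) :
    ∃ ε : Δ →* ℂˣ, ∀ d : Gamma0 N, diaH θ ℂ d φ = ((ε (chi θ d) : ℂˣ) : ℂ) • φ := by
  choose c hc using hdia
  obtain ⟨rep, hrep⟩ := exists_rep θ hθ
  have hcongr : ∀ d d' : Gamma0 N, chi θ d = chi θ d' → c d = c d' := by
    intro d d' h
    refine eq_of_smul_eq_smul_of_ne_zero hφ0 ?_
    rw [← hc d, ← hc d', diaH_congr θ d d' h]
  have hone : c 1 = 1 := by
    refine eq_of_smul_eq_smul_of_ne_zero hφ0 ?_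
    rw [← hc 1, one_smul, diaH_of_ker θ 1 (map_one _)]
  have hmul : ∀ d d' : Gamma0 N, c (d' * d) = c d' * c d := by
    intro d d'
    refine eq_of_smul_eq_smul_of_ne_zero hφ0 ?_
    rw [← hc (d' * d), diaH_mul, hc d', diaH_smul_complex θ, hc d,
      smul_smul]
  let f : Δ →* ℂ :=
    { toFun := fun δ => c (rep δ)
      map_one' := by
        rw [← hone]
        exact hcongr _ _ (by rw [hrep, map_one])
      map_mul' := by
        intro a b
        rw [← hmul]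
        exact hcongr _ _ (by rw [hrep, map_mul, hrep, hrep]) }
  refine ⟨f.toHomUnits, fun d => ?_⟩
  rw [hc d]
  congr 1
  rw [MonoidHom.coe_toHomUnits]
  exact hcongr _ _ (hrep (chi θ d)).symm

/-- **the eigenvalue function** of a simultaneous eigenvector of the `T_ℓ` and the `U_q` -/
theorem exists_mu (θ : (ZMod N)ˣ →* Δ) (φ : Additive (GammaH θ) →+ ℂ)
    (hT : ∀ (ℓ : ℕ) [Fact ℓ.Prime] (hℓ : ¬ ℓ ∣ N), ∃ c : ℂ, TH θ ℂ hℓ φ = c • φ)
    (hU : ∀ (q : ℕ) [NeZero q] (hqN : q ∣ N), q.Prime → ∃ c : ℂ, UH θ ℂ hqN φ = c • φ) :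
    ∃ μ : ℕ → ℂ, (∀ (ℓ : ℕ) [Fact ℓ.Prime] (hℓ : ¬ ℓ ∣ N), TH θ ℂ hℓ φ = μ ℓ • φ) ∧
      (∀ (q : ℕ) [NeZero q] (hqN : q ∣ N), q.Prime → UH θ ℂ hqN φ = μ q • φ) := by
  classical
  have hT' : ∀ ℓ : ℕ, ∃ c : ℂ, ∀ (_ : Fact ℓ.Prime) (hℓ : ¬ ℓ ∣ N), TH θ ℂ hℓ φ = c • φ := by
    intro ℓ
    by_cases h : ℓ.Prime ∧ ¬ ℓ ∣ N
    · haveI : Fact ℓ.Prime := ⟨h.1⟩
      obtain ⟨c, hc⟩ := hT ℓ h.2
      exact ⟨c, fun _ _ => hc⟩
    · exact ⟨0, fun h1 h2 => absurd ⟨h1.out, h2⟩ h⟩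
  have hU' : ∀ q : ℕ, ∃ c : ℂ, ∀ (_ : NeZero q) (hqN : q ∣ N), q.Prime →
      UH θ ℂ hqN φ = c • φ := by
    intro q
    by_cases h : q.Prime ∧ q ∣ N
    · haveI : NeZero q := ⟨h.1.ne_zero⟩
      obtain ⟨c, hc⟩ := hU q h.2 h.1
      exact ⟨c, fun _ _ _ => hc⟩
    · exact ⟨0, fun _ h2 h1 => absurd ⟨h1, h2⟩ h⟩
  choose μT hμT using hT'
  choose μU hμU using hU'
  refine ⟨fun n => if n ∣ N then μU n else μT n, fun ℓ _ hℓ => ?_, fun q _ hqN hq => ?_⟩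
  · show TH θ ℂ hℓ φ = (if ℓ ∣ N then μU ℓ else μT ℓ) • φ
    rw [if_neg hℓ]
    exact hμT ℓ _ hℓ
  · show UH θ ℂ hqN φ = (if q ∣ N then μU q else μT q) • φ
    rw [if_pos hqN]
    exact hμU q _ hqN hq

/-- **B5 from Part A's output** (helper83 `PointDS.exists_eigenclass_of_point`, coerced form):
`φ` a non-zero parabolic class, eigenvector of every diamond, `T_ℓ`, `U_q`, with a diamond
`⟨d⟩`, `χ_θ(d) ∈ θloc r₀ ((ℤ/r₀)ˣ)`, not fixing `φ`.  The newform `g` has `r₀`-exponent `2`, and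
`a_ℓ(g)` is the eigenvalue of `⟨ℓ⟩^{-1/2} T_ℓ = diaH dl ∘ TH ℓ` on `φ`. -/
theorem exists_isNewform_factorization_two_of_eigenclass_exists
    (θ : (ZMod N)ˣ →* Δ) (hθ : Function.Surjective θ) (hodd : Odd (Nat.card Δ))
    (L : List ℕ) (hL : ∀ r ∈ L, r.Prime) (hnd : L.Nodup)
    (hdvd : ∀ r ∈ L, r ∣ N) (hsq : ∀ r ∈ L, ¬ r ^ 2 ∣ N)
    (θloc : (r : ℕ) → (ZMod r)ˣ →* Δ) (pr : ℕ → Δ →* Δ)
    (hpr : ∀ r ∈ L, ∀ (h : r ∣ N) (u : (ZMod N)ˣ), pr r (θ u) = θloc r (ZMod.unitsMap h u))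
    (hprod : ∀ u : (ZMod N)ˣ, θ u = (L.map fun r => pr r (θ u)).prod)
    (r₀ : ℕ) (hr₀ : r₀ ∈ L)
    (φ : Additive (GammaH θ) →+ ℂ) (hφpar : IsParabolicHom (GammaH θ) φ) (hφ0 : φ ≠ 0)
    (hdia : ∀ d : Gamma0 N, ∃ c : ℂ, diaH θ ℂ d φ = c • φ)
    (hne : ∃ d : Gamma0 N, chi θ d ∈ (θloc r₀).range ∧ diaH θ ℂ d φ ≠ φ)
    (hT : ∀ (ℓ : ℕ) [Fact ℓ.Prime] (hℓ : ¬ ℓ ∣ N), ∃ c : ℂ, TH θ ℂ hℓ φ = c • φ)
    (hU : ∀ (q : ℕ) [NeZero q] (hqN : q ∣ N), q.Prime → ∃ c : ℂ, UH θ ℂ hqN φ = c • φ) :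
    ∃ M : ℕ, M ∣ N * L.prod ∧ ∃ g : CuspForm (Gamma0 M) 2, g.IsNewform ∧
      M.factorization r₀ = 2 ∧
      ∀ (ℓ : ℕ) [Fact ℓ.Prime] (hℓ : ¬ ℓ ∣ N), ¬ ℓ ∣ N * L.prod → ∀ (dl : Gamma0 N),
        (∀ u : (ZMod N)ˣ, (u : ZMod N) = (ℓ : ZMod N) → chi θ dl ^ 2 * θ u = 1) →
        ∀ c : ℂ, diaH θ ℂ dl (TH θ ℂ hℓ φ) = c • φ → qCoeff g ℓ = c := by
  obtain ⟨ε, hε⟩ := exists_eigenchar θ hθ φ hφ0 hdia
  obtain ⟨μ, hμT, hμU⟩ := exists_mu θ φ hT hU
  have hε₀ : ε.comp (θloc r₀) ≠ 1 := by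
    intro h1
    obtain ⟨d, ⟨v, hv⟩, hd⟩ := hne
    apply hd
    rw [hε d, ← hv]
    have h2 := DFunLike.congr_fun h1 v
    rw [MonoidHom.comp_apply, MonoidHom.one_apply] at h2
    rw [h2, Units.val_one, one_smul]
  obtain ⟨M, hM, g, hg, hgood, hfac⟩ :=
    exists_isNewform_factorization_two_of_neben θ hθ hodd L hL hnd hdvd hsq θloc pr hpr hprod ε
      r₀ hr₀ hε₀ φ hφpar hφ0 hε μ hμT hμU
  refine ⟨M, hM, g, hg, hfac, ?_⟩
  intro ℓ _ hℓ hℓN' dl hdl c hc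
  have hℓp : ℓ.Prime := Fact.out
  have hcop : Nat.Coprime ℓ N := (Nat.Prime.coprime_iff_not_dvd hℓp).mpr hℓ
  have hu : ((ZMod.unitOfCoprime ℓ hcop : (ZMod N)ˣ) : ZMod N) = (ℓ : ZMod N) :=
    ZMod.coe_unitOfCoprime _ hcop
  have h1 := hgood ℓ hℓp hℓN' _ hu
  have h2 := congrArg (sqrtChar ε) (hdl _ hu)
  rw [map_mul, map_pow, sqrtChar_sq_apply hodd, map_one] at h2
  have h3 : c = μ ℓ * ((ε (chi θ dl) : ℂˣ) : ℂ) := by
    refine eq_of_smul_eq_smul_of_ne_zero hφ0 ?_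
    rw [← hc, hμT ℓ hℓ, diaH_smul_complex θ, hε dl, smul_smul]
  have h4 : ((ε (chi θ dl) : ℂˣ) : ℂ)
      * ((sqrtChar ε (θ (ZMod.unitOfCoprime ℓ hcop)) : ℂˣ) : ℂ) = 1 := by
    rw [← Units.val_mul, h2, Units.val_one]
  rw [h3, ← h1]
  calc qCoeff g ℓ = (((ε (chi θ dl) : ℂˣ) : ℂ)
        * ((sqrtChar ε (θ (ZMod.unitOfCoprime ℓ hcop)) : ℂˣ) : ℂ)) * qCoeff g ℓ := by
        rw [h4, one_mul]
    _ = _ := by ring

end Wrap

end Fermat.Agent.GB.B5.Depl
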