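/-
GATE-B / B5 leaf (C3)+(C4), ABSTRACT CORE (helper41; leaf plan of helper8, board 5652).

Three levels `Γ_H(Ñ) ⊇ Γ_H(Ñ r) ⊇ Γ_H(Ñ r²)` (spaces `H1`, `H2`, `H3` of classes), and `Γ₀(Ñ)`,
`Γ₀(Ñ r)` (spaces `G1`, `G2`).  Operators (all `K`-linear):

  `res2 : G2 → H2`, `cores2 : H2 → G2`, `res1 : G1 → H1`            (restriction / transfer)
  `Rψ : H1 → H2`  (twist by `ψ`),  `Rψi : H1 → H2` (twist by `ψ⁻¹`), `R'ψi : H2 → H3` (twist by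
  `ψ⁻¹` one level up),  `Tw : H1 → H2` (the unweighted twist sum `= B_r ∘ U_r`),
  `Res : H1 → H2`, `Res' : H2 → H3`, `Tr : H2 → H1`, `Tr' : H3 → H2`, `B : H1 → H2`, `U : H1 → H1`,
  `D : G1 → G2` (depletion at `r`).

  `back := U ∘ Tr ∘ Tr' ∘ R'ψi ∘ res2 : G2 → H1`   (the map `Φ''` of helper8 5652)
  `fwd  := cores2 ∘ Rψ : H1 → G2`                  (the map `R''`: the twist followed by descent)

* `back_fwd` (C3) : `back (fwd φ) = (n c r² (r − 1) a) • φ` for `U φ = a • φ` — from the identities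
  (a) `res2 (cores2 (Rψ φ)) = n • Rψ φ`, (J) `R'ψi (Rψ φ) = c • (r • Res' (Res φ) − Res' (Tw φ))`
  [Jacobi], `Tr' ∘ Res' = r`, `Tr ∘ Res = r`, `Tw φ = B (U φ)`, (T2) `U (Tr (B φ)) = r • φ`.
* `back_depl` (C4) : `back (D y) = 0` — from (h) `res2 (D y) = r • Res z − Tw z`, `z = res1 y`,
  (i) `R'ψi (Res z) = Res' (Rψi z)`, (j) `R'ψi (Tw z) = 0`, `Tr' ∘ Res' = r`, (T1) `Tr (Rψi z) = 0`.

Mathlib only.
-/
import Mathlib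

set_option autoImplicit false

namespace Fermat.Agent.GB.B5.Depl.ClassBackAbs

variable {K : Type*} [CommRing K]
variable {H1 H2 H3 G1 G2 : Type*}
  [AddCommGroup H1] [Module K H1] [AddCommGroup H2] [Module K H2] [AddCommGroup H3] [Module K H3]
  [AddCommGroup G1] [Module K G1] [AddCommGroup G2] [Module K G2]

/-- the map `Φ'' = U ∘ Tr ∘ Tr' ∘ (twist back) ∘ res` -/
def back (res2 : G2 →ₗ[K] H2) (R'ψi : H2 →ₗ[K] H3) (Tr' : H3 →ₗ[K] H2) (Tr : H2 →ₗ[K] H1)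
    (U : H1 →ₗ[K] H1) : G2 →ₗ[K] H1 :=
  U ∘ₗ Tr ∘ₗ Tr' ∘ₗ R'ψi ∘ₗ res2

theorem back_apply (res2 : G2 →ₗ[K] H2) (R'ψi : H2 →ₗ[K] H3) (Tr' : H3 →ₗ[K] H2)
    (Tr : H2 →ₗ[K] H1) (U : H1 →ₗ[K] H1) (Z : G2) :
    back res2 R'ψi Tr' Tr U Z = U (Tr (Tr' (R'ψi (res2 Z)))) := rfl

/-- **(C3), abstract**: `Φ'' (R'' φ) = κ • φ`, `κ = n c r² (r − 1) a`. -/
theorem back_fwd (res2 : G2 →ₗ[K] H2) (cores2 : H2 →ₗ[K] G2) (Rψ : H1 →ₗ[K] H2)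
    (R'ψi : H2 →ₗ[K] H3) (Res : H1 →ₗ[K] H2) (Res' : H2 →ₗ[K] H3) (Tr : H2 →ₗ[K] H1)
    (Tr' : H3 →ₗ[K] H2) (Tw : H1 →ₗ[K] H2) (B : H1 →ₗ[K] H2) (U : H1 →ₗ[K] H1)
    (φ : H1) (n r : ℕ) (c a : K)
    (ha : res2 (cores2 (Rψ φ)) = (n : K) • Rψ φ)
    (hJ : R'ψi (Rψ φ) = c • ((r : K) • Res' (Res φ) - Res' (Tw φ)))
    (hTr' : ∀ z, Tr' (Res' z) = (r : K) • z) (hTr : ∀ z, Tr (Res z) = (r : K) • z)
    (hTw : Tw φ = B (U φ)) (hU : U φ = a • φ) (hT2 : U (Tr (B φ)) = (r : K) • φ) :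
    back res2 R'ψi Tr' Tr U (cores2 (Rψ φ))
      = ((n : K) * c * (r : K) ^ 2 * ((r : K) - 1) * a) • φ := by
  rw [back_apply, ha]
  simp only [map_smul, map_sub, hJ, hTr', hTr, hTw, hU, hT2, smul_sub, smul_smul]
  rw [← sub_smul]
  congr 1
  ring

/-- **(C4), abstract**: `Φ'' (D_r y) = 0`. -/
theorem back_depl (res2 : G2 →ₗ[K] H2) (res1 : G1 →ₗ[K] H1) (Rψi : H1 →ₗ[K] H2)
    (R'ψi : H2 →ₗ[K] H3) (Res : H1 →ₗ[K] H2) (Res' : H2 →ₗ[K] H3) (Tr : H2 →ₗ[K] H1)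
    (Tr' : H3 →ₗ[K] H2) (Tw : H1 →ₗ[K] H2) (U : H1 →ₗ[K] H1) (D : G1 →ₗ[K] G2)
    (y : G1) (r : ℕ)
    (hh : res2 (D y) = (r : K) • Res (res1 y) - Tw (res1 y))
    (hi : R'ψi (Res (res1 y)) = Res' (Rψi (res1 y)))
    (hj : R'ψi (Tw (res1 y)) = 0)
    (hTr' : ∀ z, Tr' (Res' z) = (r : K) • z)
    (hT1 : Tr (Rψi (res1 y)) = 0) :
    back res2 R'ψi Tr' Tr U (D y) = 0 := by
  rw [back_apply, hh]
  simp only [map_smul, map_sub, hi, hj, hTr', hT1, sub_zero, smul_zero, map_zero]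

end Fermat.Agent.GB.B5.Depl.ClassBackAbs
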