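/-
GATE-B / B5 leaf (C1), DESCENT HALF (helper41): the transfer `coresH` commutes with the
class-level depletion on the classes fixed by the diamond operators.

`θ : (ZMod N)ˣ →* Δ`, `ℓ` prime, `ℓ ∣ N`, `A` without `|Δ|`-torsion.  For `ψ ∈ Hom(Γ_H(N), A)` fixed
by all `⟨d⟩`, `d ∈ Γ₀(N)`:

* `coresH_deplOpH_of_inv` : `cores' (deplOpH θ hℓ ψ) = deplOp hℓ hℓN (cores ψ)` in `Hom(Γ₀(N ℓ), A)`.

Cheap route: `|Δ| • ψ = res (cores ψ)` (`resH_coresH`), helper65's `deplOpH_resH`, and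
`cores' ∘ res' = |Δ|` (`coresH_resH`).
-/
import Mathlib
import Fermat.Agent.GB.B5.Betti.DeplComm
import Fermat.Agent.GB.B5.Depl.DepleteForm

set_option autoImplicit false
set_option linter.unusedSectionVars false

noncomputable section

namespace Fermat.Agent.GB.B5.Depl

open scoped MatrixGroups
open Matrix.SpecialLinearGroup CongruenceSubgroup
open Fermat.Agent.S16_helper49
open Fermat.Agent.GB.B5 Fermat.Agent.GM.B Fermat.Agent.GM.Amalgam Fermat.Agent.GM.EisClass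
open Fermat.Agent.GM.B5
open Fermat.Agent.GB.B3 Fermat.Agent.GB.B3.EisGamma0 Fermat.Agent.GB.B3.GamH
open Fermat.Agent.GB.B4.Twist Fermat.Agent.GB.B4.Twist.KerSys2 Fermat.Agent.GB.B4.Twist.RPsi
open Fermat.Agent.GB.B5.Betti

variable {N ℓ : ℕ} [NeZero N] [NeZero ℓ] [Fact ℓ.Prime] {Δ : Type} [CommGroup Δ] [Fintype Δ]
  (θ : (ZMod N)ˣ →* Δ) {A : Type*} [AddCommGroup A]

/-- on the classes fixed by the diamond operators, `res ∘ cores = |Δ|` -/
theorem resH_coresH_of_inv (rep : Δ → Gamma0 N) (hrep : ∀ δ, chi θ (rep δ) = δ)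
    (ψ : Additive (GammaH θ) →+ A) (hψ : ∀ d : Gamma0 N, diaH θ A d ψ = ψ) :
    resH θ A (coresH θ rep hrep A ψ) = Fintype.card Δ • ψ := by
  rw [resH_coresH]
  simp_rw [hψ]
  rw [Finset.sum_const, Finset.card_univ]

/-- **the transfer commutes with the depletion** on the classes fixed by the diamond operators -/
theorem coresH_deplOpH_of_inv (hℓ : ℓ.Prime) (hℓN : ℓ ∣ N)
    (rep : Δ → Gamma0 N) (hrep : ∀ δ, chi θ (rep δ) = δ)
    (rep' : Δ → Gamma0 (N * ℓ)) (hrep' : ∀ δ, chi (liftθ (r := ℓ) θ) (rep' δ) = δ)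
    (hA : ∀ a : A, Fintype.card Δ • a = 0 → a = 0)
    (ψ : Additive (GammaH θ) →+ A) (hψ : ∀ d : Gamma0 N, diaH θ A d ψ = ψ) :
    coresH (liftθ (r := ℓ) θ) rep' hrep' A (deplOpH θ hℓN A ψ)
      = deplOp hℓ hℓN A (coresH θ rep hrep A ψ) := by
  have h1 : Fintype.card Δ • coresH (liftθ (r := ℓ) θ) rep' hrep' A (deplOpH θ hℓN A ψ)
      = Fintype.card Δ • deplOp hℓ hℓN A (coresH θ rep hrep A ψ) := by
    rw [← map_nsmul, ← map_nsmul, ← resH_coresH_of_inv θ rep hrep ψ hψ, deplOpH_resH,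
      coresH_resH, deplOp_apply]
  refine AddMonoidHom.ext fun g => ?_
  have h2 := DFunLike.congr_fun h1 g
  rw [AddMonoidHom.smul_apply, AddMonoidHom.smul_apply, ← sub_eq_zero, ← smul_sub] at h2
  exact sub_eq_zero.mp (hA _ h2)

end Fermat.Agent.GB.B5.Depl

end
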